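import Mathlib
import Fermat.Prelude.Def_GaloisRep_Residual

set_option autoImplicit false

open scoped TensorProduct

namespace Fermat.Agent.S53

variable {k : Type} [Field k]

local notation "Γℚ" => (AlgebraicClosure ℚ ≃ₐ[ℚ] AlgebraicClosure ℚ)

/-- Field-level Schur: an endomorphism commuting with an absolutely irreducible
representation is a scalar. -/
theorem schur_end (ρbar : ResidualGaloisRep k) (habs : ρbar.IsAbsolutelyIrreducible)
    (f : Module.End k ρbar.V) (hf : ∀ σ : Γℚ, f ∘ₗ ρbar.ρ σ = ρbar.ρ σ ∘ₗ f) :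
    ∃ c : k, f = c • (1 : Module.End k ρbar.V) := by
  classical
  set K := AlgebraicClosure k with hK
  have : FiniteDimensional k ρbar.V := Module.finite_of_finrank_eq_succ ρbar.finrank_eq
  have : Nontrivial (K ⊗[k] ρbar.V) := by
    apply Module.nontrivial_of_finrank_pos (R := K)
    rw [Module.finrank_baseChange, ρbar.finrank_eq]; norm_num
  set fK : Module.End K (K ⊗[k] ρbar.V) := f.baseChange K with hfK
  obtain ⟨μ, hμ⟩ := Module.End.exists_eigenvalue fK
  -- the eigenspace is stable
  have hstab : ∀ σ : Γℚ, ∀ x ∈ Module.End.eigenspace fK μ,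
      (ρbar.baseChange K).ρ σ x ∈ Module.End.eigenspace fK μ := by
    intro σ x hx
    rw [Module.End.mem_eigenspace_iff] at hx ⊢
    show fK ((ρbar.ρ σ).baseChange K x) = μ • (ρbar.ρ σ).baseChange K x
    have h1 : fK ((ρbar.ρ σ).baseChange K x) = (ρbar.ρ σ).baseChange K (fK x) := by
      rw [hfK, ← LinearMap.comp_apply, ← LinearMap.comp_apply, ← LinearMap.baseChange_comp,
        ← LinearMap.baseChange_comp, hf σ]
    rw [h1, hx, map_smul]
  have htop : Module.End.eigenspace fK μ = ⊤ := by
    rcases habs _ hstab with h | h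
    · exact absurd h hμ
    · exact h
  have hfKμ : fK = μ • (1 : Module.End K (K ⊗[k] ρbar.V)) := by
    ext x
    have hx : (1 : K) ⊗ₜ[k] x ∈ Module.End.eigenspace fK μ := by rw [htop]; trivial
    rw [Module.End.mem_eigenspace_iff] at hx
    simpa using hx
  -- descend via matrices
  let b : Module.Basis (Fin 2) k ρbar.V := Module.finBasisOfFinrankEq k ρbar.V ρbar.finrank_eq
  have hmat : (LinearMap.toMatrix b b f).map (algebraMap k K) = μ • (1 : Matrix (Fin 2) (Fin 2) K) := by
    rw [← LinearMap.toMatrix_baseChange K f b b, ← hfK, hfKμ, map_smul, LinearMap.toMatrix_one]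
  have hinj : Function.Injective (algebraMap k K) := (algebraMap k K).injective
  have e01 : LinearMap.toMatrix b b f 0 1 = 0 := by
    apply hinj
    have := congrFun (congrFun hmat 0) 1
    simpa using this
  have e10 : LinearMap.toMatrix b b f 1 0 = 0 := by
    apply hinj
    have := congrFun (congrFun hmat 1) 0
    simpa using this
  have e00 : algebraMap k K (LinearMap.toMatrix b b f 0 0) = μ := by
    have := congrFun (congrFun hmat 0) 0
    simpa using this
  have e11 : algebraMap k K (LinearMap.toMatrix b b f 1 1) = μ := by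
    have := congrFun (congrFun hmat 1) 1
    simpa using this
  have e : LinearMap.toMatrix b b f 1 1 = LinearMap.toMatrix b b f 0 0 := hinj (e11.trans e00.symm)
  refine ⟨LinearMap.toMatrix b b f 0 0, ?_⟩
  apply (LinearMap.toMatrix b b).injective
  rw [map_smul, LinearMap.toMatrix_one]
  ext i j
  fin_cases i <;> fin_cases j <;> simp [e01, e10, e]


/-- There is a group element whose image is not a scalar. -/
theorem exists_not_scalar (ρbar : ResidualGaloisRep k) (habs : ρbar.IsAbsolutelyIrreducible) :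
    ∃ g : Γℚ, ¬ ∃ c : k, ρbar.ρ g = c • (1 : Module.End k ρbar.V) := by
  classical
  by_contra hcon0
  have hcon : ∀ σ : Γℚ, ∃ c : k, ρbar.ρ σ = c • (1 : Module.End k ρbar.V) := fun σ => by
    by_contra h
    exact hcon0 ⟨σ, h⟩
  let b : Module.Basis (Fin 2) k ρbar.V := Module.finBasisOfFinrankEq k ρbar.V ρbar.finrank_eq
  let f : Module.End k ρbar.V := b.constr k ![b 0, 0]
  have hf0 : f (b 0) = b 0 := by simp [f]
  have hf1 : f (b 1) = 0 := by simp [f]
  have hcomm : ∀ σ : Γℚ, f ∘ₗ ρbar.ρ σ = ρbar.ρ σ ∘ₗ f := by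
    intro σ
    obtain ⟨c, hc⟩ := hcon σ
    rw [hc]
    ext x
    simp
  obtain ⟨c, hc⟩ := schur_end ρbar habs f hcomm
  have h0 : c • b 0 = b 0 := by
    have := congrArg (fun g : Module.End k ρbar.V => g (b 0)) hc
    simpa [hf0] using this.symm
  have h1 : c • b 1 = 0 := by
    have := congrArg (fun g : Module.End k ρbar.V => g (b 1)) hc
    simpa [hf1] using this.symm
  have hc0 : c = 0 := by
    rcases smul_eq_zero.mp h1 with h | h
    · exact h
    · exact absurd h (b.ne_zero 1)
  rw [hc0, zero_smul] at h0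
  exact b.ne_zero 0 h0.symm


/-- A non-scalar endomorphism of a two-dimensional space has a cyclic vector. -/
theorem exists_cyclic_vector {V : Type} [AddCommGroup V] [Module k V]
    (hV : Module.finrank k V = 2) (X : Module.End k V)
    (hX : ¬ ∃ c : k, X = c • (1 : Module.End k V)) :
    ∃ v : V, LinearIndependent k ![v, X v] := by
  classical
  by_contra hcon
  simp only [not_exists] at hcon
  apply hX
  have : Module.Finite k V := Module.finite_of_finrank_eq_succ hV
  let b : Module.Basis (Fin 2) k V := Module.finBasisOfFinrankEq k V hV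
  have hli' : LinearIndependent k ![b 0, b 1] := by
    convert b.linearIndependent using 1
    ext i; fin_cases i <;> rfl
  rw [LinearIndependent.pair_iff] at hli'
  -- every vector is an eigenvector
  have key : ∀ v : V, v ≠ 0 → ∃ c : k, X v = c • v := by
    intro v hv
    have h := hcon v
    rw [LinearIndependent.pair_iff] at h
    simp only [not_forall] at h
    obtain ⟨s, t, hst, hne⟩ := h
    have ht : t ≠ 0 := by
      intro ht
      rw [ht, zero_smul, add_zero] at hst
      rcases smul_eq_zero.mp hst with h | h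
      · exact hne ⟨h, ht⟩
      · exact hv h
    refine ⟨-(t⁻¹ * s), ?_⟩
    have h3 : t • X v = -(s • v) := by
      rw [eq_neg_iff_add_eq_zero, add_comm]; exact hst
    calc X v = t⁻¹ • (t • X v) := by rw [smul_smul, inv_mul_cancel₀ ht, one_smul]
      _ = -(t⁻¹ * s) • v := by rw [h3, smul_neg, smul_smul, neg_smul]
  obtain ⟨c0, h0⟩ := key (b 0) (b.ne_zero 0)
  obtain ⟨c1, h1⟩ := key (b 1) (b.ne_zero 1)
  have hsum : b 0 + b 1 ≠ 0 := by
    intro h
    have := hli' 1 1 (by rw [one_smul, one_smul]; exact h)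
    exact one_ne_zero this.1
  obtain ⟨c2, h2⟩ := key (b 0 + b 1) hsum
  have hrel : (c0 - c2) • b 0 + (c1 - c2) • b 1 = 0 := by
    have h3 : c0 • b 0 + c1 • b 1 = c2 • b 0 + c2 • b 1 := by
      rw [← h0, ← h1, ← map_add, h2, smul_add]
    rw [sub_smul, sub_smul, sub_add_sub_comm, h3, sub_self]
  obtain ⟨e0, e1⟩ := hli' _ _ hrel
  have c02 : c0 = c2 := sub_eq_zero.mp e0
  have c12 : c1 = c2 := sub_eq_zero.mp e1
  refine ⟨c2, ?_⟩
  apply b.ext
  intro i
  fin_cases i
  · simpa [c02] using h0
  · simpa [c12] using h1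


/-- Matrix form of field-level Schur with respect to any basis. -/
theorem schur_matrix (ρbar : ResidualGaloisRep k) (habs : ρbar.IsAbsolutelyIrreducible)
    (b : Module.Basis (Fin 2) k ρbar.V) (C : Matrix (Fin 2) (Fin 2) k)
    (hC : ∀ σ : Γℚ, C * LinearMap.toMatrix b b (ρbar.ρ σ) = LinearMap.toMatrix b b (ρbar.ρ σ) * C) :
    ∃ c : k, C = c • (1 : Matrix (Fin 2) (Fin 2) k) := by
  classical
  have hcomm : ∀ σ : Γℚ, Matrix.toLin b b C ∘ₗ ρbar.ρ σ = ρbar.ρ σ ∘ₗ Matrix.toLin b b C := by
    intro σ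
    apply (LinearMap.toMatrix b b).injective
    rw [LinearMap.toMatrix_comp b b b, LinearMap.toMatrix_comp b b b, LinearMap.toMatrix_toLin]
    exact hC σ
  obtain ⟨c, hc⟩ := schur_end ρbar habs _ hcomm
  refine ⟨c, ?_⟩
  have := congrArg (LinearMap.toMatrix b b) hc
  rwa [LinearMap.toMatrix_toLin, map_smul, LinearMap.toMatrix_one] at this

/-- The residual input of the slice: a companion basis for a non-scalar `ρbar g0`, a second
element `g1` and an entry where the commutator does not vanish, and field-level Schur. -/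
theorem exists_sliceData (ρbar : ResidualGaloisRep k) (habs : ρbar.IsAbsolutelyIrreducible) :
    ∃ (b : Module.Basis (Fin 2) k ρbar.V) (g0 g1 : Γℚ) (i j : Fin 2),
      LinearMap.toMatrix b b (ρbar.ρ g0) 0 0 = 0 ∧
      LinearMap.toMatrix b b (ρbar.ρ g0) 1 0 = 1 ∧
      (LinearMap.toMatrix b b (ρbar.ρ g0) * LinearMap.toMatrix b b (ρbar.ρ g1)
        - LinearMap.toMatrix b b (ρbar.ρ g1) * LinearMap.toMatrix b b (ρbar.ρ g0)) i j ≠ 0 ∧
      ∀ C : Matrix (Fin 2) (Fin 2) k,
        (∀ σ : Γℚ, C * LinearMap.toMatrix b b (ρbar.ρ σ) =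
          LinearMap.toMatrix b b (ρbar.ρ σ) * C) →
        ∃ c : k, C = c • (1 : Matrix (Fin 2) (Fin 2) k) := by
  classical
  obtain ⟨g0, hg0⟩ := exists_not_scalar ρbar habs
  obtain ⟨v, hv⟩ := exists_cyclic_vector ρbar.finrank_eq (ρbar.ρ g0) hg0
  have hcard : Fintype.card (Fin 2) = Module.finrank k ρbar.V := by
    rw [ρbar.finrank_eq]; rfl
  let b : Module.Basis (Fin 2) k ρbar.V := basisOfLinearIndependentOfCardEqFinrank hv hcard
  have hb0 : b 0 = v := by
    simp [b, coe_basisOfLinearIndependentOfCardEqFinrank]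
  have hb1 : b 1 = ρbar.ρ g0 v := by
    simp [b, coe_basisOfLinearIndependentOfCardEqFinrank]
  have hX0 : ρbar.ρ g0 (b 0) = b 1 := by rw [hb0, hb1]
  have hcol : ∀ i : Fin 2, LinearMap.toMatrix b b (ρbar.ρ g0) i 0 = if i = 1 then 1 else 0 := by
    intro i
    rw [LinearMap.toMatrix_apply, hX0, b.repr_self, Finsupp.single_apply]
    simp [eq_comm]
  -- the commutator
  have hg1 : ∃ g1 : Γℚ, LinearMap.toMatrix b b (ρbar.ρ g0) * LinearMap.toMatrix b b (ρbar.ρ g1)
        - LinearMap.toMatrix b b (ρbar.ρ g1) * LinearMap.toMatrix b b (ρbar.ρ g0) ≠ 0 := by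
    by_contra hcon
    simp only [not_exists, not_not] at hcon
    apply hg0
    apply schur_end ρbar habs
    intro σ
    apply (LinearMap.toMatrix b b).injective
    rw [LinearMap.toMatrix_comp b b b, LinearMap.toMatrix_comp b b b]
    exact sub_eq_zero.mp (hcon σ)
  obtain ⟨g1, hg1⟩ := hg1
  have hij : ∃ i j : Fin 2, (LinearMap.toMatrix b b (ρbar.ρ g0) * LinearMap.toMatrix b b (ρbar.ρ g1)
        - LinearMap.toMatrix b b (ρbar.ρ g1) * LinearMap.toMatrix b b (ρbar.ρ g0)) i j ≠ 0 := by
    by_contra hcon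
    simp only [not_exists, not_not] at hcon
    apply hg1
    ext i j
    exact hcon i j
  obtain ⟨i, j, hij⟩ := hij
  refine ⟨b, g0, g1, i, j, ?_, ?_, hij, fun C hC => schur_matrix ρbar habs b C hC⟩
  · rw [hcol]; simp
  · rw [hcol]; simp

end Fermat.Agent.S53
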