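import Mathlib
import Fermat.Prelude.Def_GaloisRep_DeformationRingData
import Fermat.Prelude.Def_GaloisRep_DeformationCondition

set_option autoImplicit false
set_option linter.unusedSectionVars false
set_option linter.unnecessarySimpa false

noncomputable section

namespace Fermat.Agent.S53

open IsLocalRing

section Prelim

variable {𝒪 : Type} [CommRing 𝒪]

/-- An `𝒪`-algebra hom between local rings is local as soon as `𝒪` surjects onto the residue
field of the target. -/
theorem isLocalHom_of_residue_surjective_asm {R A : Type} [CommRing R] [IsLocalRing R] [CommRing A]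
    [IsLocalRing A] [Algebra 𝒪 R] [Algebra 𝒪 A]
    (hA : Function.Surjective (residue A ∘ algebraMap 𝒪 A)) (φ : R →ₐ[𝒪] A) :
    IsLocalHom (φ : R →+* A) := by
  constructor
  intro r hr
  by_contra hnu
  have hrm : r ∈ maximalIdeal R := (mem_maximalIdeal r).mpr hnu
  obtain ⟨u, hu⟩ := hr
  obtain ⟨d, hd⟩ := hA (residue A (↑u⁻¹ : A))
  have h1 : IsUnit (1 - r * algebraMap 𝒪 R d) := by
    have : r * algebraMap 𝒪 R d ∈ maximalIdeal R := Ideal.mul_mem_right _ _ hrm
    by_contra hcon
    have h2 : 1 - r * algebraMap 𝒪 R d ∈ maximalIdeal R := (mem_maximalIdeal _).mpr hcon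
    have h3 : (1 : R) ∈ maximalIdeal R := by
      have := Ideal.add_mem _ h2 this
      simpa using this
    exact (Ideal.ne_top_iff_one _).mp (maximalIdeal.isMaximal R).ne_top h3
  have h2 : IsUnit ((φ : R →+* A) (1 - r * algebraMap 𝒪 R d)) := h1.map _
  have h3 : residue A ((φ : R →+* A) (1 - r * algebraMap 𝒪 R d)) = 0 := by
    simp only [Function.comp_apply] at hd
    have hφr : (φ : R →+* A) r = (u : A) := hu.symm
    rw [map_sub, map_mul, map_one, map_sub, map_mul, map_one, hφr]
    have : (φ : R →+* A) (algebraMap 𝒪 R d) = algebraMap 𝒪 A d := φ.commutes d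
    rw [this, hd, ← map_mul, Units.mul_inv, map_one, sub_self]
  rw [residue_eq_zero_iff] at h3
  exact (mem_maximalIdeal _).mp h3 h2

end Prelim

section Quot

variable {A : Type} [CommRing A] [IsLocalRing A]

theorem maximalIdeal_pow_succ_ne_top (n : ℕ) : maximalIdeal A ^ (n + 1) ≠ ⊤ := by
  intro h
  have h1 : maximalIdeal A ^ (n + 1) ≤ maximalIdeal A := Ideal.pow_le_self (by omega)
  rw [h] at h1
  exact (maximalIdeal.isMaximal A).ne_top (top_le_iff.mp h1)

instance nontrivial_quot_pow_succ (n : ℕ) : Nontrivial (A ⧸ maximalIdeal A ^ (n + 1)) :=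
  Ideal.Quotient.nontrivial_iff.mpr (maximalIdeal_pow_succ_ne_top n)

instance isLocalRing_quot_pow_succ (n : ℕ) : IsLocalRing (A ⧸ maximalIdeal A ^ (n + 1)) :=
  IsLocalRing.of_surjective' (Ideal.Quotient.mk _) Ideal.Quotient.mk_surjective

instance isLocalHom_mk_pow_succ (n : ℕ) :
    IsLocalHom (Ideal.Quotient.mk (maximalIdeal A ^ (n + 1))) :=
  IsLocalHom.of_surjective _ Ideal.Quotient.mk_surjective

theorem maximalIdeal_quot_pow_succ (n : ℕ) :
    maximalIdeal (A ⧸ maximalIdeal A ^ (n + 1)) =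
      (maximalIdeal A).map (Ideal.Quotient.mk (maximalIdeal A ^ (n + 1))) :=
  (map_maximalIdeal_of_surjective _ Ideal.Quotient.mk_surjective).symm

theorem maximalIdeal_quot_pow_succ_pow (n : ℕ) :
    maximalIdeal (A ⧸ maximalIdeal A ^ (n + 1)) ^ (n + 1) = ⊥ := by
  rw [maximalIdeal_quot_pow_succ, ← Ideal.map_pow, Ideal.map_quotient_self]

/-- separatedness in the form used below -/
theorem eq_of_forall_mk_pow_succ_eq [IsHausdorff (maximalIdeal A) A] (x y : A)
    (h : ∀ n : ℕ, Ideal.Quotient.mk (maximalIdeal A ^ (n + 1)) x =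
      Ideal.Quotient.mk (maximalIdeal A ^ (n + 1)) y) : x = y := by
  rw [← sub_eq_zero]
  apply IsHausdorff.haus (I := maximalIdeal A) inferInstance
  intro n
  rw [SModEq.zero, smul_eq_mul, Ideal.mul_top]
  cases n with
  | zero => simp
  | succ m => exact Ideal.Quotient.eq.mp (h m)

variable {𝒪 : Type} [CommRing 𝒪] [IsLocalRing 𝒪] [Algebra 𝒪 A]

theorem isArtinianTestAlgebra_quot_pow_succ [IsNoetherianRing A] [IsLocalHom (algebraMap 𝒪 A)]
    (hres : Function.Surjective (residue A ∘ algebraMap 𝒪 A)) (n : ℕ) :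
    GaloisRep.IsArtinianTestAlgebra 𝒪 (A ⧸ maximalIdeal A ^ (n + 1)) where
  isLocalHom := by
    have : algebraMap 𝒪 (A ⧸ maximalIdeal A ^ (n + 1)) =
        (Ideal.Quotient.mk (maximalIdeal A ^ (n + 1))).comp (algebraMap 𝒪 A) := rfl
    rw [this]
    exact RingHom.isLocalHom_comp _ _
  residue_surjective := by
    intro x
    obtain ⟨y, rfl⟩ := residue_surjective x
    obtain ⟨a, rfl⟩ := Ideal.Quotient.mk_surjective y
    obtain ⟨c, hc⟩ := hres (residue A a)
    refine ⟨c, ?_⟩
    simp only [Function.comp_apply] at hc ⊢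
    have h1 : algebraMap 𝒪 A c - a ∈ maximalIdeal A := by
      rw [← residue_eq_zero_iff, map_sub, hc, sub_self]
    have h2 : algebraMap 𝒪 (A ⧸ maximalIdeal A ^ (n + 1)) c - Ideal.Quotient.mk _ a ∈
        maximalIdeal (A ⧸ maximalIdeal A ^ (n + 1)) := by
      rw [maximalIdeal_quot_pow_succ]
      have : algebraMap 𝒪 (A ⧸ maximalIdeal A ^ (n + 1)) c - Ideal.Quotient.mk _ a =
          Ideal.Quotient.mk (maximalIdeal A ^ (n + 1)) (algebraMap 𝒪 A c - a) := by
        rw [map_sub]; rfl
      rw [this]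
      exact Ideal.mem_map_of_mem _ h1
    rw [← residue_eq_zero_iff, map_sub, sub_eq_zero] at h2
    exact h2
  isArtinian := by
    rw [isArtinianRing_iff_isNilpotent_maximalIdeal]
    exact ⟨n + 1, maximalIdeal_quot_pow_succ_pow n⟩

end Quot

end Fermat.Agent.S53
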