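import Mathlib
import Fermat.Prelude.Def_GaloisRep_DeformationCondition

set_option autoImplicit false

namespace Fermat.Agent.S53

open IsLocalRing

variable (𝒪 : Type) [CommRing 𝒪] [IsLocalRing 𝒪]

/-- the algebra structure on dual numbers used by `GaloisRep.TangentFinite` -/
@[reducible] noncomputable def dualNumberAlgebra : Algebra 𝒪 (DualNumber (ResidueField 𝒪)) :=
  ((algebraMap (ResidueField 𝒪) (DualNumber (ResidueField 𝒪))).comp
      (algebraMap 𝒪 (ResidueField 𝒪))).toAlgebra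

/-- fibre product of two `𝒪`-algebras over a common target -/
def fibreProd {A B C : Type} [CommRing A] [Algebra 𝒪 A] [CommRing B] [Algebra 𝒪 B]
    [CommRing C] [Algebra 𝒪 C] (f : A →ₐ[𝒪] C) (g : B →ₐ[𝒪] C) : Subalgebra 𝒪 (A × B) :=
  AlgHom.equalizer (f.comp (AlgHom.fst 𝒪 A B)) (g.comp (AlgHom.snd 𝒪 A B))

/-- A predicate on `X`-points of local `𝒪`-algebras, to be pro-represented. -/
structure IsProRepresentablePredicate (X : Type)
    (F : ∀ ⦃A : Type⦄ [CommRing A] [IsLocalRing A] [Algebra 𝒪 A], (X → A) → Prop) : Prop where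
  map : ∀ ⦃A B : Type⦄ [CommRing A] [IsLocalRing A] [Algebra 𝒪 A]
    [CommRing B] [IsLocalRing B] [Algebra 𝒪 B],
    GaloisRep.IsArtinianTestAlgebra 𝒪 A → GaloisRep.IsArtinianTestAlgebra 𝒪 B →
    ∀ (φ : A →ₐ[𝒪] B) (x : X → A), F x → F (φ ∘ x)
  descent : ∀ ⦃A B : Type⦄ [CommRing A] [IsLocalRing A] [Algebra 𝒪 A]
    [CommRing B] [IsLocalRing B] [Algebra 𝒪 B],
    GaloisRep.IsArtinianTestAlgebra 𝒪 A → GaloisRep.IsArtinianTestAlgebra 𝒪 B →
    ∀ (φ : A →ₐ[𝒪] B), Function.Injective φ → ∀ (x : X → A), F (φ ∘ x) → F x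
  prod : ∀ ⦃A B C : Type⦄ [CommRing A] [IsLocalRing A] [Algebra 𝒪 A]
    [CommRing B] [IsLocalRing B] [Algebra 𝒪 B] [CommRing C] [IsLocalRing C] [Algebra 𝒪 C],
    GaloisRep.IsArtinianTestAlgebra 𝒪 A → GaloisRep.IsArtinianTestAlgebra 𝒪 B →
    GaloisRep.IsArtinianTestAlgebra 𝒪 C →
    ∀ (f : A →ₐ[𝒪] C) (g : B →ₐ[𝒪] C) [IsLocalRing (fibreProd 𝒪 f g)],
      GaloisRep.IsArtinianTestAlgebra 𝒪 (fibreProd 𝒪 f g) →
      ∀ (x : X → fibreProd 𝒪 f g), F (fun i => (x i).1.1) → F (fun i => (x i).1.2) → F x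
  base : ∃! x : X → ResidueField 𝒪, F x
  tangent_finite : letI := dualNumberAlgebra 𝒪
    Finite {x : X → DualNumber (ResidueField 𝒪) // F x}

/-- The output of pro-representability. -/
structure ProRepData (X : Type)
    (F : ∀ ⦃A : Type⦄ [CommRing A] [IsLocalRing A] [Algebra 𝒪 A], (X → A) → Prop) : Type 1 where
  R : Type
  [instCommRing : CommRing R]
  [instIsLocalRing : IsLocalRing R]
  [instIsNoetherianRing : IsNoetherianRing R]
  [instIsAdicComplete : IsAdicComplete (maximalIdeal R) R]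
  [instAlgebra : Algebra 𝒪 R]
  [instIsLocalHom : IsLocalHom (algebraMap 𝒪 R)]
  residue_surjective : Function.Surjective (residue R ∘ algebraMap 𝒪 R)
  pt : X → R
  /-- the universal point is an `F`-point at every Artinian level -/
  isPoint : ∀ (n : ℕ) (_ : 0 < n) [IsLocalRing (R ⧸ maximalIdeal R ^ n)],
    GaloisRep.IsArtinianTestAlgebra 𝒪 (R ⧸ maximalIdeal R ^ n) ∧
      F (fun i => Ideal.Quotient.mk (maximalIdeal R ^ n) (pt i))
  universal : ∀ (A : Type) [CommRing A] [IsLocalRing A] [Algebra 𝒪 A],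
    GaloisRep.IsArtinianTestAlgebra 𝒪 A → ∀ x : X → A, F x →
      ∃! φ : R →ₐ[𝒪] A, ∀ i, φ (pt i) = x i

attribute [instance] ProRepData.instCommRing ProRepData.instIsLocalRing
  ProRepData.instIsNoetherianRing ProRepData.instIsAdicComplete ProRepData.instAlgebra
  ProRepData.instIsLocalHom

end Fermat.Agent.S53
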