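import Mathlib
import Fermat.Agent.S53.ProRepSpec

set_option autoImplicit false
set_option linter.unusedSectionVars false

namespace Fermat.Agent.S53

open IsLocalRing GaloisRep

variable (𝒪 : Type) [CommRing 𝒪] [IsLocalRing 𝒪]

/-- the residue map of a field is bijective -/
lemma tab_residue_field_bijective (k : Type*) [Field k] : Function.Bijective (residue k) := by
  refine ⟨?_, residue_surjective⟩
  rw [injective_iff_map_eq_zero]
  intro x hx
  by_contra hne
  exact (isUnit_iff_ne_zero.2 hne).ne_zero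
    (by
      have := (residue_eq_zero_iff x).1 hx
      exact absurd (isUnit_iff_ne_zero.2 hne) ((mem_maximalIdeal x).1 this))

/-- T0: the residue field is a test algebra. -/
theorem residueField_isTestAlg : IsArtinianTestAlgebra 𝒪 (ResidueField 𝒪) where
  isLocalHom := by
    rw [ResidueField.algebraMap_eq]
    infer_instance
  residue_surjective := by
    rw [ResidueField.algebraMap_eq]
    exact (tab_residue_field_bijective (ResidueField 𝒪)).2.comp residue_surjective
  isArtinian := inferInstance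

/-- T0': the dual numbers are a test algebra. -/
theorem dualNumber_isTestAlg :
    letI := dualNumberAlgebra 𝒪
    IsArtinianTestAlgebra 𝒪 (DualNumber (ResidueField 𝒪)) := by
  let _ := dualNumberAlgebra 𝒪
  have halg : ∀ o : 𝒪, algebraMap 𝒪 (DualNumber (ResidueField 𝒪)) o =
      TrivSqZeroExt.inl (residue 𝒪 o) := fun o => rfl
  refine ⟨⟨fun o ho => ?_⟩, ?_, ?_⟩
  · rw [halg] at ho
    have h1 : IsUnit (residue 𝒪 o) := by
      have := ho.map (TrivSqZeroExt.fstHom (ResidueField 𝒪) (ResidueField 𝒪) (ResidueField 𝒪))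
      simpa using this
    exact (isUnit_map_iff (residue 𝒪) o).1 h1
  · intro x
    obtain ⟨y, rfl⟩ := residue_surjective x
    obtain ⟨o, ho⟩ := residue_surjective (R := 𝒪) (TrivSqZeroExt.fst y)
    refine ⟨o, ?_⟩
    rw [Function.comp_apply, halg, ho]
    rw [← sub_eq_zero, ← map_sub, residue_eq_zero_iff]
    have hnil : IsNilpotent (TrivSqZeroExt.inl (TrivSqZeroExt.fst y) - y) := by
      rw [TrivSqZeroExt.isNilpotent_iff_isNilpotent_fst]
      simp
    rw [mem_maximalIdeal, mem_nonunits_iff]
    exact hnil.not_isUnit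
  · have : Module.Finite (ResidueField 𝒪) (DualNumber (ResidueField 𝒪)) :=
      inferInstanceAs (Module.Finite (ResidueField 𝒪) (ResidueField 𝒪 × ResidueField 𝒪))
    exact IsArtinianRing.of_finite (ResidueField 𝒪) _

variable {𝒪}

/-- T2: the maximal ideal of a test algebra is nilpotent. -/
theorem testAlg_exists_pow_eq_bot {A : Type} [CommRing A] [IsLocalRing A]
    [Algebra 𝒪 A] (hA : IsArtinianTestAlgebra 𝒪 A) : ∃ n : ℕ, 0 < n ∧ maximalIdeal A ^ n = ⊥ := by
  have := hA.isArtinian
  have hnil : IsNilpotent (Ideal.jacobson (⊥ : Ideal A)) :=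
    IsArtinianRing.isNilpotent_jacobson_bot
  rw [jacobson_eq_maximalIdeal ⊥ bot_ne_top] at hnil
  obtain ⟨n, hn⟩ := hnil
  refine ⟨n + 1, Nat.succ_pos n, ?_⟩
  rw [pow_succ, hn, Ideal.zero_eq_bot, Ideal.bot_mul]

/-- T6'': every element of a test algebra is a scalar plus an element of the maximal ideal. -/
theorem testAlg_exists_sub_mem {A : Type} [CommRing A] [IsLocalRing A]
    [Algebra 𝒪 A] (hA : IsArtinianTestAlgebra 𝒪 A) (a : A) :
    ∃ o : 𝒪, a - algebraMap 𝒪 A o ∈ maximalIdeal A := by
  obtain ⟨o, ho⟩ := hA.residue_surjective (residue A a)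
  refine ⟨o, ?_⟩
  rw [← residue_eq_zero_iff, map_sub, sub_eq_zero]
  exact ho.symm

/-- the residue field of a test algebra over a base with finite residue field is finite -/
lemma tab_finite_residueField [Finite (ResidueField 𝒪)] {A : Type} [CommRing A] [IsLocalRing A]
    [Algebra 𝒪 A] (hA : IsArtinianTestAlgebra 𝒪 A) : Finite (ResidueField A) := by
  have := hA.isLocalHom
  have hsurj : Function.Surjective (ResidueField.map (algebraMap 𝒪 A)) := by
    intro x
    obtain ⟨o, ho⟩ := hA.residue_surjective x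
    exact ⟨residue 𝒪 o, by rw [ResidueField.map_residue]; exact ho⟩
  exact Finite.of_surjective _ hsurj

/-- T1: test algebras over a base with finite residue field are finite rings. -/
theorem testAlg_finite [Finite (ResidueField 𝒪)] {A : Type} [CommRing A] [IsLocalRing A]
    [Algebra 𝒪 A] (hA : IsArtinianTestAlgebra 𝒪 A) : Finite A := by
  have := hA.isArtinian
  have hfin : Finite (A ⧸ maximalIdeal A) := tab_finite_residueField hA
  obtain ⟨n, -, hn⟩ := testAlg_exists_pow_eq_bot hA
  have h1 : Finite (A ⧸ maximalIdeal A ^ n) :=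
    Ideal.finite_quotient_pow (IsNoetherian.noetherian (maximalIdeal A)) n
  rw [hn] at h1
  exact Finite.of_equiv _ (RingEquiv.quotientBot A).toEquiv

/-- T5: every `𝒪`-algebra hom from a local ring to a local `𝒪`-algebra with residue field
`k` is local. -/
theorem isLocalHom_of_residue_surjective {A B : Type} [CommRing A] [IsLocalRing A] [Algebra 𝒪 A]
    [CommRing B] [IsLocalRing B] [Algebra 𝒪 B] (hB1 : IsLocalHom (algebraMap 𝒪 B))
    (hB2 : Function.Surjective (residue B ∘ algebraMap 𝒪 B)) (φ : A →ₐ[𝒪] B) :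
    IsLocalHom (φ : A →+* B) := by
  refine ⟨fun r hr => ?_⟩
  by_contra hru
  have hrm : r ∈ maximalIdeal A := (mem_maximalIdeal r).2 hru
  obtain ⟨o, ho⟩ := hB2 (residue B ((φ : A →+* B) r))
  have hsub : (φ : A →+* B) r - algebraMap 𝒪 B o ∈ maximalIdeal B := by
    rw [← residue_eq_zero_iff, map_sub, sub_eq_zero]
    exact ho.symm
  -- `algebraMap o` is a unit of `B`, hence `o` is a unit of `𝒪`
  have hou : IsUnit (algebraMap 𝒪 B o) := by
    by_contra h
    have h1 : algebraMap 𝒪 B o ∈ maximalIdeal B := (mem_maximalIdeal _).2 h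
    have h2 : (φ : A →+* B) r ∈ maximalIdeal B := by
      have := (maximalIdeal B).add_mem hsub h1
      simpa using this
    exact ((mem_maximalIdeal _).1 h2) hr
  have hou' : IsUnit o := hB1.map_nonunit o hou
  -- `algebraMap o - r` is a unit of `A` mapping into the maximal ideal of `B`
  have hu : IsUnit (algebraMap 𝒪 A o - r) := by
    by_contra h
    have h1 : algebraMap 𝒪 A o - r ∈ maximalIdeal A := (mem_maximalIdeal _).2 h
    have h2 : algebraMap 𝒪 A o ∈ maximalIdeal A := by
      have := (maximalIdeal A).add_mem h1 hrm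
      simpa using this
    exact ((mem_maximalIdeal _).1 h2) (hou'.map (algebraMap 𝒪 A))
  have himg : (φ : A →+* B) (algebraMap 𝒪 A o - r) ∈ maximalIdeal B := by
    have : (φ : A →+* B) (algebraMap 𝒪 A o - r) = -((φ : A →+* B) r - algebraMap 𝒪 B o) := by
      rw [map_sub]
      simp
    rw [this]
    exact (maximalIdeal B).neg_mem hsub
  exact ((mem_maximalIdeal _).1 himg) (hu.map (φ : A →+* B))

/-- T6: the canonical map of a test algebra to the residue field of the base. -/
theorem exists_resToBase {A : Type} [CommRing A] [IsLocalRing A]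
    [Algebra 𝒪 A] (hA : IsArtinianTestAlgebra 𝒪 A) :
    ∃ ρ : A →ₐ[𝒪] ResidueField 𝒪, Function.Surjective ρ ∧
      RingHom.ker (ρ : A →+* ResidueField 𝒪) = maximalIdeal A := by
  have := hA.isLocalHom
  have hbij : Function.Bijective (ResidueField.map (algebraMap 𝒪 A)) := by
    refine ⟨(ResidueField.map (algebraMap 𝒪 A)).injective, ?_⟩
    intro x
    obtain ⟨o, ho⟩ := hA.residue_surjective x
    exact ⟨residue 𝒪 o, by rw [ResidueField.map_residue]; exact ho⟩
  let e : ResidueField 𝒪 ≃+* ResidueField A := RingEquiv.ofBijective _ hbij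
  let ρ0 : A →+* ResidueField 𝒪 := (e.symm : ResidueField A →+* ResidueField 𝒪).comp (residue A)
  have hρ0 : ∀ o : 𝒪, ρ0 (algebraMap 𝒪 A o) = algebraMap 𝒪 (ResidueField 𝒪) o := by
    intro o
    show e.symm (residue A (algebraMap 𝒪 A o)) = _
    rw [RingEquiv.symm_apply_eq, ResidueField.algebraMap_eq]
    show _ = ResidueField.map (algebraMap 𝒪 A) (residue 𝒪 o)
    rw [ResidueField.map_residue]
  refine ⟨{ ρ0 with commutes' := hρ0 }, ?_, ?_⟩
  · intro x
    obtain ⟨a, ha⟩ := residue_surjective (e x)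
    refine ⟨a, ?_⟩
    show e.symm (residue A a) = x
    rw [ha, RingEquiv.symm_apply_apply]
  · ext a
    rw [RingHom.mem_ker]
    show e.symm (residue A a) = 0 ↔ _
    rw [map_eq_zero_iff _ e.symm.injective, residue_eq_zero_iff]

/-- T6': uniqueness of maps to the residue field. -/
theorem algHom_residueField_ext {A : Type} [CommRing A] [IsLocalRing A]
    [Algebra 𝒪 A] (hA : IsArtinianTestAlgebra 𝒪 A) (φ ψ : A →ₐ[𝒪] ResidueField 𝒪) : φ = ψ := by
  obtain ⟨n, -, hn⟩ := testAlg_exists_pow_eq_bot hA
  have hkill : ∀ (χ : A →ₐ[𝒪] ResidueField 𝒪) (x : A), x ∈ maximalIdeal A → χ x = 0 := by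
    intro χ x hx
    have h1 : x ^ n ∈ maximalIdeal A ^ n := Ideal.pow_mem_pow hx n
    rw [hn, Ideal.mem_bot] at h1
    have h2 : χ x ^ n = 0 := by rw [← map_pow, h1, map_zero]
    exact eq_zero_of_pow_eq_zero h2
  ext a
  obtain ⟨o, ho⟩ := testAlg_exists_sub_mem hA a
  have h1 := hkill φ _ ho
  have h2 := hkill ψ _ ho
  rw [map_sub, AlgHom.commutes, sub_eq_zero] at h1 h2
  rw [h1, h2]

end Fermat.Agent.S53
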