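import Mathlib
import Fermat.Agent.S53.TestAlgBasic

/-!
# S53 Part C, P1b: constructions of Artinian test algebras

* `testAlg_of_injective` (T3): an `𝒪`-algebra injecting into a test algebra is a test algebra
  (finite residue field).
* `testAlg_of_surjective` (T4): a nontrivial quotient of a test algebra is a test algebra.
* `fibreProd_isTestAlg` (T7): fibre products of test algebras are test algebras
  (finite residue field).
-/

set_option autoImplicit false

namespace Fermat.Agent.S53

open IsLocalRing GaloisRep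

variable {𝒪 : Type} [CommRing 𝒪] [IsLocalRing 𝒪]

/-- in a finite commutative ring, an element whose image under an injective ring hom is a unit
is a unit -/
theorem testAlg_isUnit_of_injective_of_finite {B A : Type} [CommRing B] [CommRing A] [Finite B]
    (φ : B →+* A) (hφ : Function.Injective φ) {b : B} (hb : IsUnit (φ b)) : IsUnit b := by
  rw [isUnit_iff_mem_nonZeroDivisors_of_finite]
  rw [mem_nonZeroDivisors_iff_right]
  intro x hx
  apply hφ
  have : φ x * φ b = 0 := by rw [← map_mul, hx, map_zero]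
  rw [map_zero]
  exact (hb.mul_left_eq_zero).mp this

/-- a finite `𝒪`-algebra with a unit-reflecting algebra hom to a test algebra is a (local)
test algebra -/
theorem testAlg_of_reflects_units {A P : Type} [CommRing A] [IsLocalRing A]
    [Algebra 𝒪 A] [CommRing P] [Algebra 𝒪 P] [Finite P] (hA : IsArtinianTestAlgebra 𝒪 A)
    (π : P →ₐ[𝒪] A) (hπ : ∀ x : P, IsUnit (π x) → IsUnit x) :
    ∃ _ : IsLocalRing P, IsArtinianTestAlgebra 𝒪 P := by
  have hntP : Nontrivial P := (π : P →+* A).domain_nontrivial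
  have hAloc : IsLocalHom (algebraMap 𝒪 A) := hA.isLocalHom
  have hunit : ∀ b : P, IsUnit b ↔ IsUnit (π b) := fun b => ⟨fun h => h.map π, hπ b⟩
  have hloc : IsLocalRing P := by
    refine IsLocalRing.of_nonunits_add ?_
    intro a b ha hb
    rw [mem_nonunits_iff, hunit] at ha hb ⊢
    rw [map_add]
    have ha' : π a ∈ maximalIdeal A := ha
    have hb' : π b ∈ maximalIdeal A := hb
    exact (maximalIdeal A).add_mem ha' hb'
  refine ⟨hloc, ⟨?_, ?_, ?_⟩⟩
  · constructor
    intro o ho
    have h1 : IsUnit (π (algebraMap 𝒪 P o)) := ho.map π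
    rw [AlgHom.commutes] at h1
    exact hAloc.map_nonunit o h1
  · intro x
    obtain ⟨b, rfl⟩ := residue_surjective x
    obtain ⟨o, ho⟩ := testAlg_exists_sub_mem hA (π b)
    refine ⟨o, ?_⟩
    simp only [Function.comp_apply]
    rw [← sub_eq_zero, ← map_sub, residue_eq_zero_iff]
    have h1 : algebraMap 𝒪 P o - b = - (b - algebraMap 𝒪 P o) := by ring
    rw [h1]
    apply (Ideal.neg_mem_iff _).mpr
    rw [mem_maximalIdeal, mem_nonunits_iff, hunit, map_sub, AlgHom.commutes]
    exact ho
  · exact isArtinian_of_finite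

/-- T3: an `𝒪`-algebra that injects into a test algebra is a (local) test algebra. -/
theorem testAlg_of_injective [Finite (ResidueField 𝒪)] {A B : Type} [CommRing A] [IsLocalRing A]
    [Algebra 𝒪 A] [CommRing B] [Algebra 𝒪 B] (hA : IsArtinianTestAlgebra 𝒪 A)
    (φ : B →ₐ[𝒪] A) (hφ : Function.Injective φ) :
    ∃ _ : IsLocalRing B, IsArtinianTestAlgebra 𝒪 B := by
  have hfinA : Finite A := testAlg_finite hA
  have hfinB : Finite B := Finite.of_injective φ hφ
  exact testAlg_of_reflects_units hA φ
    (fun _ h => testAlg_isUnit_of_injective_of_finite (φ : B →+* A) hφ h)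

/-- T4: a nontrivial quotient of a test algebra is a (local) test algebra. -/
theorem testAlg_of_surjective {A B : Type} [CommRing A] [IsLocalRing A]
    [Algebra 𝒪 A] [CommRing B] [Algebra 𝒪 B] [Nontrivial B] (hA : IsArtinianTestAlgebra 𝒪 A)
    (φ : A →ₐ[𝒪] B) (hφ : Function.Surjective φ) :
    ∃ _ : IsLocalRing B, IsArtinianTestAlgebra 𝒪 B := by
  have hloc : IsLocalRing B := IsLocalRing.of_surjective' (φ : A →+* B) hφ
  refine ⟨hloc, ?_⟩
  have hφloc : IsLocalHom (φ : A →+* B) := IsLocalHom.of_surjective (φ : A →+* B) hφ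
  have hAloc : IsLocalHom (algebraMap 𝒪 A) := hA.isLocalHom
  have hart : IsArtinianRing A := hA.isArtinian
  refine ⟨?_, ?_, ?_⟩
  · -- algebraMap 𝒪 B = φ ∘ algebraMap 𝒪 A
    have : algebraMap 𝒪 B = (φ : A →+* B).comp (algebraMap 𝒪 A) := by
      ext o; simp
    rw [this]
    exact RingHom.isLocalHom_comp _ _
  · intro x
    obtain ⟨b, rfl⟩ := residue_surjective x
    obtain ⟨a, rfl⟩ := hφ b
    obtain ⟨o, ho⟩ := testAlg_exists_sub_mem hA a
    refine ⟨o, ?_⟩
    simp only [Function.comp_apply]
    rw [← sub_eq_zero, ← map_sub, residue_eq_zero_iff]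
    have h1 : algebraMap 𝒪 B o - φ a = - φ (a - algebraMap 𝒪 A o) := by
      simp
    rw [h1]
    apply Ideal.neg_mem_iff _ |>.mpr
    rw [mem_maximalIdeal, mem_nonunits_iff] at ho ⊢
    intro hu
    exact ho (hφloc.map_nonunit _ hu)
  · exact hφ.isArtinianRing (f := (φ : A →+* B))

/-- T7: fibre products of test algebras are (local) test algebras. -/
theorem fibreProd_isTestAlg [Finite (ResidueField 𝒪)] {A B C : Type} [CommRing A] [IsLocalRing A]
    [Algebra 𝒪 A] [CommRing B] [IsLocalRing B] [Algebra 𝒪 B] [CommRing C] [IsLocalRing C]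
    [Algebra 𝒪 C] (hA : IsArtinianTestAlgebra 𝒪 A) (hB : IsArtinianTestAlgebra 𝒪 B)
    (hC : IsArtinianTestAlgebra 𝒪 C) (f : A →ₐ[𝒪] C) (g : B →ₐ[𝒪] C) :
    ∃ _ : IsLocalRing (fibreProd 𝒪 f g), IsArtinianTestAlgebra 𝒪 (fibreProd 𝒪 f g) := by
  have hfinA : Finite A := testAlg_finite hA
  have hfinB : Finite B := testAlg_finite hB
  have hfinP : Finite (fibreProd 𝒪 f g) :=
    Finite.of_injective (fun x : fibreProd 𝒪 f g => (x : A × B)) Subtype.val_injective
  have hg : IsLocalHom (g : B →+* C) :=
    isLocalHom_of_residue_surjective hC.isLocalHom hC.residue_surjective g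
  refine testAlg_of_reflects_units hA ((AlgHom.fst 𝒪 A B).comp (fibreProd 𝒪 f g).val) ?_
  intro x hx
  apply testAlg_isUnit_of_injective_of_finite (fibreProd 𝒪 f g).val.toRingHom
    Subtype.val_injective
  have hmem : f (x : A × B).1 = g (x : A × B).2 := x.2
  have ha : IsUnit (x : A × B).1 := hx
  have hb : IsUnit (x : A × B).2 := by
    have h1 : IsUnit (g (x : A × B).2) := by
      rw [← hmem]; exact ha.map f
    exact hg.map_nonunit _ h1
  exact Prod.isUnit_iff.mpr ⟨ha, hb⟩

end Fermat.Agent.S53
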