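import Mathlib
import Fermat.Agent.S53.TestAlgBasic
import Fermat.Agent.S53.TestAlgConstr

/-!
# Artinian test algebras (umbrella file)

The basic facts live in `TestAlgBasic.lean`, the closure constructions
(subalgebras, quotients, fibre products) live in `TestAlgConstr.lean`.
-/
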