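import Mathlib
import Fermat.Agent.S53.TestAlg

set_option autoImplicit false

namespace Fermat.Agent.S53

open IsLocalRing GaloisRep

variable (𝒪 : Type) [CommRing 𝒪] [IsLocalRing 𝒪] (X : Type)
  (F : ∀ ⦃A : Type⦄ [CommRing A] [IsLocalRing A] [Algebra 𝒪 A], (X → A) → Prop)

/-- An ideal `K` of the polynomial ring is admissible if the quotient is a test algebra and the
tautological point is an `F`-point. -/
def IsAdm (K : Ideal (MvPolynomial X 𝒪)) : Prop :=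
  ∃ _ : IsLocalRing (MvPolynomial X 𝒪 ⧸ K), IsArtinianTestAlgebra 𝒪 (MvPolynomial X 𝒪 ⧸ K) ∧
    F (fun i => Ideal.Quotient.mk K (MvPolynomial.X i))

/-- The kernel of the base point. -/
noncomputable def baseIdeal (x₀ : X → ResidueField 𝒪) : Ideal (MvPolynomial X 𝒪) :=
  RingHom.ker (MvPolynomial.aeval x₀ : MvPolynomial X 𝒪 →ₐ[𝒪] ResidueField 𝒪)

variable {𝒪 X F}

/-- A1 -/
theorem isAdm_ker_aeval [Finite (ResidueField 𝒪)] (hF : IsProRepresentablePredicate 𝒪 X F)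
    {A : Type} [CommRing A] [IsLocalRing A] [Algebra 𝒪 A] (hA : IsArtinianTestAlgebra 𝒪 A)
    (x : X → A) (hx : F x) :
    IsAdm 𝒪 X F (RingHom.ker (MvPolynomial.aeval x : MvPolynomial X 𝒪 →ₐ[𝒪] A)) := by
  set ev : MvPolynomial X 𝒪 →ₐ[𝒪] A := MvPolynomial.aeval x with hev
  have hinj : Function.Injective (Ideal.kerLiftAlg ev) := Ideal.kerLiftAlg_injective ev
  obtain ⟨inst, hB⟩ := testAlg_of_injective hA (Ideal.kerLiftAlg ev) hinj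
  refine ⟨inst, hB, ?_⟩
  apply hF.descent hB hA (Ideal.kerLiftAlg ev) hinj
  have : (⇑(Ideal.kerLiftAlg ev) ∘ fun i => Ideal.Quotient.mk (RingHom.ker ev) (MvPolynomial.X i))
      = x := by
    funext i
    simp [hev]
  rw [this]
  exact hx


/-- A3 -/
theorem IsAdm.of_le (hF : IsProRepresentablePredicate 𝒪 X F)
    {K K' : Ideal (MvPolynomial X 𝒪)} (h : IsAdm 𝒪 X F K) (hle : K ≤ K') (hne : K' ≠ ⊤) :
    IsAdm 𝒪 X F K' := by
  obtain ⟨inst, hA, hx⟩ := h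
  have hnt : Nontrivial (MvPolynomial X 𝒪 ⧸ K') := Ideal.Quotient.nontrivial_iff.mpr hne
  have hsurj : Function.Surjective (Ideal.Quotient.factorₐ 𝒪 hle) :=
    Ideal.Quotient.factor_surjective hle
  obtain ⟨inst', hB⟩ := testAlg_of_surjective hA (Ideal.Quotient.factorₐ 𝒪 hle) hsurj
  refine ⟨inst', hB, ?_⟩
  have := hF.map hA hB (Ideal.Quotient.factorₐ 𝒪 hle) _ hx
  exact this

/-- A5 -/
theorem isAdm_baseIdeal [Finite (ResidueField 𝒪)] (hF : IsProRepresentablePredicate 𝒪 X F)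
    {x₀ : X → ResidueField 𝒪} (hx₀ : F x₀) : IsAdm 𝒪 X F (baseIdeal 𝒪 X x₀) :=
  isAdm_ker_aeval hF (residueField_isTestAlg 𝒪) x₀ hx₀

/-- The residue map of an admissible quotient composed with the projection is the base point. -/
theorem IsAdm.comp_mk_eq_aeval (hF : IsProRepresentablePredicate 𝒪 X F)
    {x₀ : X → ResidueField 𝒪} (huniq : ∀ y : X → ResidueField 𝒪, F y → y = x₀)
    {K : Ideal (MvPolynomial X 𝒪)} [IsLocalRing (MvPolynomial X 𝒪 ⧸ K)]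
    (hA : IsArtinianTestAlgebra 𝒪 (MvPolynomial X 𝒪 ⧸ K))
    (hx : F (fun i => Ideal.Quotient.mk K (MvPolynomial.X i)))
    (ρ : (MvPolynomial X 𝒪 ⧸ K) →ₐ[𝒪] ResidueField 𝒪) :
    ρ.comp (Ideal.Quotient.mkₐ 𝒪 K) = MvPolynomial.aeval x₀ := by
  apply MvPolynomial.algHom_ext
  intro i
  have h1 := hF.map hA (residueField_isTestAlg 𝒪) ρ _ hx
  have h2 := huniq _ h1
  have h3 := congrFun h2 i
  simpa using h3

/-- A4 -/
theorem IsAdm.le_baseIdeal (hF : IsProRepresentablePredicate 𝒪 X F)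
    {x₀ : X → ResidueField 𝒪} (huniq : ∀ y : X → ResidueField 𝒪, F y → y = x₀)
    {K : Ideal (MvPolynomial X 𝒪)} (h : IsAdm 𝒪 X F K) : K ≤ baseIdeal 𝒪 X x₀ := by
  obtain ⟨inst, hA, hx⟩ := h
  obtain ⟨ρ, -, -⟩ := exists_resToBase hA
  have key := IsAdm.comp_mk_eq_aeval hF huniq hA hx ρ
  intro s hs
  rw [baseIdeal, RingHom.mem_ker, ← key]
  simp [Ideal.Quotient.eq_zero_iff_mem.mpr hs]

/-- A4' -/
theorem IsAdm.maximalIdeal_eq (hF : IsProRepresentablePredicate 𝒪 X F)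
    {x₀ : X → ResidueField 𝒪} (huniq : ∀ y : X → ResidueField 𝒪, F y → y = x₀)
    {K : Ideal (MvPolynomial X 𝒪)} (h : IsAdm 𝒪 X F K) [IsLocalRing (MvPolynomial X 𝒪 ⧸ K)] :
    maximalIdeal (MvPolynomial X 𝒪 ⧸ K) = (baseIdeal 𝒪 X x₀).map (Ideal.Quotient.mk K) := by
  obtain ⟨inst, hA, hx⟩ := h
  obtain ⟨ρ, -, hker⟩ := exists_resToBase hA
  have key := IsAdm.comp_mk_eq_aeval hF huniq hA hx ρ
  rw [← hker]
  have hsurj : Function.Surjective (Ideal.Quotient.mk K) := Ideal.Quotient.mk_surjective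
  have hcomap : (RingHom.ker (ρ : (MvPolynomial X 𝒪 ⧸ K) →+* ResidueField 𝒪)).comap
      (Ideal.Quotient.mk K) = baseIdeal 𝒪 X x₀ := by
    ext s
    rw [Ideal.mem_comap, RingHom.mem_ker, baseIdeal, RingHom.mem_ker, ← key]
    rfl
  rw [← hcomap, Ideal.map_comap_of_surjective _ hsurj]

/-- A6 -/
theorem IsAdm.exists_pow_le (hF : IsProRepresentablePredicate 𝒪 X F)
    {x₀ : X → ResidueField 𝒪} (huniq : ∀ y : X → ResidueField 𝒪, F y → y = x₀)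
    {K : Ideal (MvPolynomial X 𝒪)} (h : IsAdm 𝒪 X F K) :
    ∃ n : ℕ, 0 < n ∧ baseIdeal 𝒪 X x₀ ^ n ≤ K := by
  obtain ⟨inst, hA, hx⟩ := id h
  obtain ⟨n, hn, hpow⟩ := testAlg_exists_pow_eq_bot hA
  refine ⟨n, hn, ?_⟩
  rw [IsAdm.maximalIdeal_eq hF huniq h, ← Ideal.map_pow] at hpow
  intro s hs
  have : Ideal.Quotient.mk K s ∈ (baseIdeal 𝒪 X x₀ ^ n).map (Ideal.Quotient.mk K) :=
    Ideal.mem_map_of_mem _ hs
  rw [hpow, Ideal.mem_bot] at this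
  exact Ideal.Quotient.eq_zero_iff_mem.mp this


/-- A2 -/
theorem IsAdm.inf [Finite (ResidueField 𝒪)] (hF : IsProRepresentablePredicate 𝒪 X F)
    {K₁ K₂ : Ideal (MvPolynomial X 𝒪)} (h₁ : IsAdm 𝒪 X F K₁) (h₂ : IsAdm 𝒪 X F K₂) :
    IsAdm 𝒪 X F (K₁ ⊓ K₂) := by
  obtain ⟨x₀, hx₀, huniq⟩ := hF.base
  obtain ⟨inst₁, hA₁, hx₁⟩ := h₁
  obtain ⟨inst₂, hA₂, hx₂⟩ := h₂
  obtain ⟨ρ₁, -, -⟩ := exists_resToBase hA₁
  obtain ⟨ρ₂, -, -⟩ := exists_resToBase hA₂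
  have key₁ := IsAdm.comp_mk_eq_aeval hF huniq hA₁ hx₁ ρ₁
  have key₂ := IsAdm.comp_mk_eq_aeval hF huniq hA₂ hx₂ ρ₂
  obtain ⟨instP, hP⟩ := fibreProd_isTestAlg hA₁ hA₂ (residueField_isTestAlg 𝒪) ρ₁ ρ₂
  -- the map to the fibre product
  let ψ₀ : MvPolynomial X 𝒪 →ₐ[𝒪] (MvPolynomial X 𝒪 ⧸ K₁) × (MvPolynomial X 𝒪 ⧸ K₂) :=
    AlgHom.prod (Ideal.Quotient.mkₐ 𝒪 K₁) (Ideal.Quotient.mkₐ 𝒪 K₂)
  have hmem : ∀ s, ψ₀ s ∈ fibreProd 𝒪 ρ₁ ρ₂ := by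
    intro s
    rw [fibreProd, AlgHom.mem_equalizer]
    have e1 : ρ₁ (Ideal.Quotient.mkₐ 𝒪 K₁ s) = MvPolynomial.aeval x₀ s := by
      rw [← key₁]; rfl
    have e2 : ρ₂ (Ideal.Quotient.mkₐ 𝒪 K₂ s) = MvPolynomial.aeval x₀ s := by
      rw [← key₂]; rfl
    change ρ₁ (Ideal.Quotient.mkₐ 𝒪 K₁ s) = ρ₂ (Ideal.Quotient.mkₐ 𝒪 K₂ s)
    rw [e1, e2]
  let ψ : MvPolynomial X 𝒪 →ₐ[𝒪] fibreProd 𝒪 ρ₁ ρ₂ := AlgHom.codRestrict ψ₀ _ hmem
  let y : X → fibreProd 𝒪 ρ₁ ρ₂ := fun i => ψ (MvPolynomial.X i)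
  have hy : F y := by
    apply hF.prod hA₁ hA₂ (residueField_isTestAlg 𝒪) ρ₁ ρ₂ hP y
    · exact hx₁
    · exact hx₂
  have hψ : ψ = MvPolynomial.aeval y := by
    apply MvPolynomial.algHom_ext
    intro i
    simp [y]
  have hker : RingHom.ker (MvPolynomial.aeval y : MvPolynomial X 𝒪 →ₐ[𝒪] fibreProd 𝒪 ρ₁ ρ₂) =
      K₁ ⊓ K₂ := by
    rw [← hψ]
    ext s
    rw [RingHom.mem_ker, Ideal.mem_inf]
    constructor
    · intro hs
      have h0 : ψ₀ s = 0 := by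
        have := congrArg Subtype.val hs
        simpa [ψ] using this
      have h1 : Ideal.Quotient.mk K₁ s = 0 := congrArg Prod.fst h0
      have h2 : Ideal.Quotient.mk K₂ s = 0 := congrArg Prod.snd h0
      exact ⟨Ideal.Quotient.eq_zero_iff_mem.mp h1, Ideal.Quotient.eq_zero_iff_mem.mp h2⟩
    · rintro ⟨h1, h2⟩
      apply Subtype.ext
      change ψ₀ s = 0
      apply Prod.ext
      · exact Ideal.Quotient.eq_zero_iff_mem.mpr h1
      · exact Ideal.Quotient.eq_zero_iff_mem.mpr h2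
  have := isAdm_ker_aeval hF hP y hy
  rwa [hker] at this

end Fermat.Agent.S53
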