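import Mathlib
import Fermat.Prelude.Thm_IsLocalRing_isAdicComplete_of_module_finite

set_option autoImplicit false

namespace Fermat.Agent.S53

open MvPowerSeries Finsupp IsLocalRing

section Decomp

variable {R : Type*} [CommRing R] {d : ℕ}

/-- The part of `f` whose monomials have first variable `X i`, divided by `X i`. -/
noncomputable def firstPart (i : Fin d) (f : MvPowerSeries (Fin d) R) : MvPowerSeries (Fin d) R :=
  fun y => if (∀ j : Fin d, j < i → y j = 0) then coeff (y + single i 1) f else 0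

lemma coeff_firstPart (i : Fin d) (f : MvPowerSeries (Fin d) R) (y : Fin d →₀ ℕ) :
    coeff y (firstPart i f) =
      if (∀ j : Fin d, j < i → y j = 0) then coeff (y + single i 1) f else 0 := rfl

lemma coeff_X_mul_firstPart (i : Fin d) (f : MvPowerSeries (Fin d) R) (x : Fin d →₀ ℕ) :
    coeff x (X i * firstPart i f) =
      if (x i ≠ 0 ∧ ∀ j : Fin d, j < i → x j = 0) then coeff x f else 0 := by
  classical
  rw [X_def, coeff_monomial_mul, one_mul]
  by_cases hx : x i = 0
  · have h1 : ¬ (single i 1 ≤ x) := by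
      intro h
      have := h i
      simp [hx] at this
    rw [if_neg h1, if_neg (by simp [hx])]
  · have h1 : single i 1 ≤ x := by
      intro j
      by_cases hj : j = i
      · subst hj
        simp only [single_eq_same]
        omega
      · simp [single_eq_of_ne hj]
    rw [if_pos h1, coeff_firstPart]
    have h2 : x - single i 1 + single i 1 = x := tsub_add_cancel_of_le h1
    rw [h2]
    have h3 : (∀ j : Fin d, j < i → (x - single i 1 : Fin d →₀ ℕ) j = 0) ↔
        (∀ j : Fin d, j < i → x j = 0) := by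
      refine forall_congr' fun j => forall_congr' fun hj => ?_
      have hne : j ≠ i := ne_of_lt hj
      simp [single_eq_of_ne hne]
    by_cases h4 : ∀ j : Fin d, j < i → x j = 0
    · rw [if_pos (h3.mpr h4), if_pos ⟨hx, h4⟩]
    · rw [if_neg (fun h => h4 (h3.mp h)), if_neg (fun h => h4 h.2)]

lemma eq_C_add_sum_X_mul_firstPart (f : MvPowerSeries (Fin d) R) :
    f = C (constantCoeff f) + ∑ i : Fin d, X i * firstPart i f := by
  classical
  ext x
  rw [map_add, map_sum]
  simp only [coeff_X_mul_firstPart]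
  by_cases hx : x = 0
  · subst hx
    simp
  · have hne : x.support.Nonempty := by
      rwa [Finsupp.support_nonempty_iff]
    set i0 := x.support.min' hne with hi0
    have hi0mem : i0 ∈ x.support := Finset.min'_mem _ _
    have hxi0 : x i0 ≠ 0 := Finsupp.mem_support_iff.mp hi0mem
    have hlt : ∀ j : Fin d, j < i0 → x j = 0 := by
      intro j hj
      by_contra hxj
      have : j ∈ x.support := Finsupp.mem_support_iff.mpr hxj
      exact absurd (Finset.min'_le _ _ this) (not_le.mpr hj)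
    rw [Finset.sum_eq_single i0]
    · rw [if_pos ⟨hxi0, hlt⟩, coeff_C, if_neg hx, zero_add]
    · intro i _ hi
      rw [if_neg]
      rintro ⟨hxi, hall⟩
      rcases lt_or_gt_of_ne hi with h | h
      · exact hxi (hlt i h)
      · exact hxi0 (hall i0 h)
    · intro h
      exact absurd (Finset.mem_univ _) h

end Decomp


section MaxIdeal

variable {R : Type*} [CommRing R] [IsLocalRing R] {d : ℕ}

lemma mem_maximalIdeal_mvPowerSeries_iff (f : MvPowerSeries (Fin d) R) :
    f ∈ maximalIdeal (MvPowerSeries (Fin d) R) ↔ constantCoeff f ∈ maximalIdeal R := by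
  rw [mem_maximalIdeal, mem_maximalIdeal, mem_nonunits_iff, mem_nonunits_iff,
    MvPowerSeries.isUnit_iff_constantCoeff]

lemma X_mem_maximalIdeal (i : Fin d) :
    (X i : MvPowerSeries (Fin d) R) ∈ maximalIdeal (MvPowerSeries (Fin d) R) := by
  rw [mem_maximalIdeal_mvPowerSeries_iff, constantCoeff_X]
  exact zero_mem _

lemma C_mem_maximalIdeal_pow {n : ℕ} {c : R} (hc : c ∈ maximalIdeal R ^ n) :
    (C c : MvPowerSeries (Fin d) R) ∈ maximalIdeal (MvPowerSeries (Fin d) R) ^ n := by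
  have h1 : (maximalIdeal R).map (C : R →+* MvPowerSeries (Fin d) R) ≤
      maximalIdeal (MvPowerSeries (Fin d) R) := by
    rw [Ideal.map_le_iff_le_comap]
    intro a ha
    rw [Ideal.mem_comap, mem_maximalIdeal_mvPowerSeries_iff, constantCoeff_C]
    exact ha
  have h2 : C c ∈ ((maximalIdeal R) ^ n).map (C : R →+* MvPowerSeries (Fin d) R) :=
    Ideal.mem_map_of_mem _ hc
  rw [Ideal.map_pow] at h2
  exact Ideal.pow_right_mono h1 n h2

/-- The ideal of power series whose coefficient at `x` lies in `𝔪 ^ (n - degree x)`. -/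
def coeffIdeal (R : Type*) [CommRing R] [IsLocalRing R] (d n : ℕ) :
    Ideal (MvPowerSeries (Fin d) R) where
  carrier := {f | ∀ x : Fin d →₀ ℕ, coeff x f ∈ maximalIdeal R ^ (n - degree x)}
  add_mem' := by
    intro f g hf hg x
    rw [map_add]
    exact Ideal.add_mem _ (hf x) (hg x)
  zero_mem' := by
    intro x
    rw [map_zero]
    exact Ideal.zero_mem _
  smul_mem' := by
    classical
    intro g f hf x
    rw [smul_eq_mul, coeff_mul]
    refine Ideal.sum_mem _ fun p hp => ?_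
    rw [Finset.HasAntidiagonal.mem_antidiagonal] at hp
    refine Ideal.mul_mem_left _ _ (Ideal.pow_le_pow_right ?_ (hf p.2))
    have : degree p.2 ≤ degree x := by
      rw [← hp, map_add]
      exact Nat.le_add_left _ _
    omega

lemma mem_coeffIdeal_iff {n : ℕ} (f : MvPowerSeries (Fin d) R) :
    f ∈ coeffIdeal R d n ↔ ∀ x : Fin d →₀ ℕ, coeff x f ∈ maximalIdeal R ^ (n - degree x) :=
  Iff.rfl

lemma coeffIdeal_mul_le (a b : ℕ) :
    coeffIdeal R d a * coeffIdeal R d b ≤ coeffIdeal R d (a + b) := by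
  classical
  rw [Ideal.mul_le]
  intro f hf g hg x
  rw [coeff_mul]
  refine Ideal.sum_mem _ fun p hp => ?_
  rw [Finset.HasAntidiagonal.mem_antidiagonal] at hp
  have h1 := Ideal.mul_mem_mul (hf p.1) (hg p.2)
  rw [← pow_add] at h1
  refine Ideal.pow_le_pow_right ?_ h1
  have : degree x = degree p.1 + degree p.2 := by rw [← hp, map_add]
  omega

lemma maximalIdeal_le_coeffIdeal_one :
    maximalIdeal (MvPowerSeries (Fin d) R) ≤ coeffIdeal R d 1 := by
  intro f hf x
  by_cases hx : x = 0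
  · subst hx
    simp only [map_zero, tsub_zero, pow_one]
    rw [coeff_zero_eq_constantCoeff_apply]
    exact (mem_maximalIdeal_mvPowerSeries_iff f).mp hf
  · have : 1 - degree x = 0 := by
      have : degree x ≠ 0 := by
        rwa [Ne, Finsupp.degree_eq_zero_iff]
      omega
    rw [this, pow_zero, Ideal.one_eq_top]
    exact Submodule.mem_top

lemma maximalIdeal_pow_le_coeffIdeal (n : ℕ) :
    maximalIdeal (MvPowerSeries (Fin d) R) ^ n ≤ coeffIdeal R d n := by
  induction n with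
  | zero =>
    intro f _ x
    simp
  | succ n ih =>
    rw [pow_succ]
    exact (Ideal.mul_mono ih maximalIdeal_le_coeffIdeal_one).trans (coeffIdeal_mul_le n 1)

lemma firstPart_mem_coeffIdeal {n : ℕ} (i : Fin d) {f : MvPowerSeries (Fin d) R}
    (hf : f ∈ coeffIdeal R d (n + 1)) : firstPart i f ∈ coeffIdeal R d n := by
  intro y
  rw [coeff_firstPart]
  split_ifs
  · have h := hf (y + single i 1)
    have h2 : n + 1 - degree (y + single i 1) = n - degree y := by
      rw [map_add, Finsupp.degree_single]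
      omega
    rwa [h2] at h
  · exact Ideal.zero_mem _

lemma coeffIdeal_le_maximalIdeal_pow (n : ℕ) :
    coeffIdeal R d n ≤ maximalIdeal (MvPowerSeries (Fin d) R) ^ n := by
  induction n with
  | zero => simp
  | succ n ih =>
    intro f hf
    rw [eq_C_add_sum_X_mul_firstPart f]
    refine Ideal.add_mem _ (C_mem_maximalIdeal_pow ?_) (Ideal.sum_mem _ fun i _ => ?_)
    · have h := hf 0
      simpa [coeff_zero_eq_constantCoeff_apply] using h
    · rw [pow_succ']
      exact Ideal.mul_mem_mul (X_mem_maximalIdeal i) (ih (firstPart_mem_coeffIdeal i hf))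

theorem maximalIdeal_pow_eq_coeffIdeal (n : ℕ) :
    maximalIdeal (MvPowerSeries (Fin d) R) ^ n = coeffIdeal R d n :=
  le_antisymm (maximalIdeal_pow_le_coeffIdeal n) (coeffIdeal_le_maximalIdeal_pow n)

theorem mem_maximalIdeal_pow_iff {n : ℕ} (f : MvPowerSeries (Fin d) R) :
    f ∈ maximalIdeal (MvPowerSeries (Fin d) R) ^ n ↔
      ∀ x : Fin d →₀ ℕ, coeff x f ∈ maximalIdeal R ^ (n - degree x) := by
  rw [maximalIdeal_pow_eq_coeffIdeal]
  exact Iff.rfl

end MaxIdeal


section Complete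

variable {R : Type*} [CommRing R] [IsLocalRing R] {d : ℕ}

lemma smodEq_pow_iff {A : Type*} [CommRing A] (I : Ideal A) (n : ℕ) (x y : A) :
    x ≡ y [SMOD (I ^ n • ⊤ : Submodule A A)] ↔ x - y ∈ I ^ n := by
  rw [SModEq.sub_mem, smul_eq_mul, Ideal.mul_top]

theorem isHausdorff_mvPowerSeries [IsHausdorff (maximalIdeal R) R] :
    IsHausdorff (maximalIdeal (MvPowerSeries (Fin d) R)) (MvPowerSeries (Fin d) R) := by
  refine ⟨fun f hf => ?_⟩
  ext x
  rw [map_zero]
  refine IsHausdorff.haus' (I := maximalIdeal R) _ fun n => ?_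
  have h := hf (n + degree x)
  rw [smodEq_pow_iff, sub_zero, mem_maximalIdeal_pow_iff] at h
  have h2 := h x
  rw [Nat.add_sub_cancel] at h2
  rw [smodEq_pow_iff, sub_zero]
  exact h2

theorem isPrecomplete_mvPowerSeries [IsPrecomplete (maximalIdeal R) R] :
    IsPrecomplete (maximalIdeal (MvPowerSeries (Fin d) R)) (MvPowerSeries (Fin d) R) := by
  refine ⟨fun f hf => ?_⟩
  have hcoeff : ∀ x : Fin d →₀ ℕ, ∃ c : R, ∀ n,
      coeff x (f (n + degree x)) ≡ c [SMOD (maximalIdeal R ^ n • ⊤ : Submodule R R)] := by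
    intro x
    refine IsPrecomplete.prec' (I := maximalIdeal R) (fun n => coeff x (f (n + degree x))) ?_
    intro m n hmn
    have h := hf (m := m + degree x) (n := n + degree x) (by omega)
    rw [smodEq_pow_iff, mem_maximalIdeal_pow_iff] at h
    have h2 := h x
    rw [Nat.add_sub_cancel, map_sub] at h2
    rw [smodEq_pow_iff]
    exact h2
  choose c hc using hcoeff
  let L : MvPowerSeries (Fin d) R := fun x => c x
  have hL : ∀ x, coeff x L = c x := fun x => rfl
  refine ⟨L, fun n => ?_⟩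
  rw [smodEq_pow_iff, mem_maximalIdeal_pow_iff]
  intro x
  rw [map_sub, hL]
  by_cases hx : n ≤ degree x
  · rw [Nat.sub_eq_zero_of_le hx, pow_zero, Ideal.one_eq_top]
    exact Submodule.mem_top
  · rw [not_le] at hx
    have h := hc x (n - degree x)
    rw [smodEq_pow_iff, Nat.sub_add_cancel hx.le] at h
    exact h

theorem isAdicComplete_mvPowerSeries [IsAdicComplete (maximalIdeal R) R] :
    IsAdicComplete (maximalIdeal (MvPowerSeries (Fin d) R)) (MvPowerSeries (Fin d) R) :=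
  { toIsHausdorff := isHausdorff_mvPowerSeries
    toIsPrecomplete := isPrecomplete_mvPowerSeries }

end Complete


section Lift

variable {𝒪 : Type*} [CommRing 𝒪] {d : ℕ}
variable {A : Type*} [CommRing A] [Algebra 𝒪 A] (I : Ideal A)

lemma aeval_mem_pow_of_mem_pow_idealOfVars {a : Fin d → A} (ha : ∀ i, a i ∈ I) {n : ℕ}
    {p : MvPolynomial (Fin d) 𝒪} (hp : p ∈ MvPolynomial.idealOfVars (Fin d) 𝒪 ^ n) :
    MvPolynomial.aeval a p ∈ I ^ n := by
  have h1 : (MvPolynomial.idealOfVars (Fin d) 𝒪).map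
      (MvPolynomial.aeval a : MvPolynomial (Fin d) 𝒪 →ₐ[𝒪] A).toRingHom ≤ I := by
    rw [MvPolynomial.idealOfVars, Ideal.map_span, Ideal.span_le]
    rintro _ ⟨_, ⟨i, rfl⟩, rfl⟩
    simpa using ha i
  have h2 := Ideal.mem_map_of_mem
    (MvPolynomial.aeval a : MvPolynomial (Fin d) 𝒪 →ₐ[𝒪] A).toRingHom hp
  rw [Ideal.map_pow] at h2
  exact Ideal.pow_right_mono h1 n h2

/-- The level `n` truncated evaluation map. -/
noncomputable def evalLevel (a : Fin d → A) (ha : ∀ i, a i ∈ I) (n : ℕ) :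
    MvPowerSeries (Fin d) 𝒪 →ₐ[𝒪] A ⧸ I ^ n :=
  (Ideal.Quotient.liftₐ (MvPolynomial.idealOfVars (Fin d) 𝒪 ^ n)
    ((Ideal.Quotient.mkₐ 𝒪 (I ^ n)).comp (MvPolynomial.aeval a))
    (fun p hp => by
      rw [AlgHom.comp_apply, Ideal.Quotient.mkₐ_eq_mk, Ideal.Quotient.eq_zero_iff_mem]
      exact aeval_mem_pow_of_mem_pow_idealOfVars I ha hp)).comp
    ((truncTotalAlgHom (Fin d) 𝒪 n).restrictScalars 𝒪)

lemma evalLevel_apply (a : Fin d → A) (ha : ∀ i, a i ∈ I) (n : ℕ)
    (f : MvPowerSeries (Fin d) 𝒪) :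
    evalLevel I a ha n f = Ideal.Quotient.mk (I ^ n) (MvPolynomial.aeval a (truncTotal n f)) := by
  rfl


lemma evalLevel_compat (a : Fin d → A) (ha : ∀ i, a i ∈ I) {m n : ℕ} (hle : m ≤ n) :
    (Ideal.Quotient.factorₐ 𝒪 (Ideal.pow_le_pow_right hle)).comp (evalLevel I a ha n) =
      evalLevel I a ha m := by
  ext f
  rw [AlgHom.comp_apply, evalLevel_apply, evalLevel_apply, Ideal.Quotient.factorₐ_apply_mk,
    Ideal.Quotient.mk_eq_mk_iff_sub_mem, ← map_sub]
  exact aeval_mem_pow_of_mem_pow_idealOfVars I ha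
    (truncTotal_sub_truncTotal_mem_pow_idealOfVars hle le_rfl f)

variable [IsAdicComplete I A]

/-- Evaluation of power series at a tuple of elements of `I`, for `A` an `I`-adically complete
algebra. -/
noncomputable def evalHom (a : Fin d → A) (ha : ∀ i, a i ∈ I) :
    MvPowerSeries (Fin d) 𝒪 →ₐ[𝒪] A :=
  IsAdicComplete.liftAlgHom I (evalLevel I a ha) (fun hle => evalLevel_compat I a ha hle)

lemma mk_evalHom (a : Fin d → A) (ha : ∀ i, a i ∈ I) (n : ℕ) (f : MvPowerSeries (Fin d) 𝒪) :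
    Ideal.Quotient.mk (I ^ n) (evalHom I a ha f) =
      Ideal.Quotient.mk (I ^ n) (MvPolynomial.aeval a (truncTotal n f)) := by
  rw [evalHom, IsAdicComplete.mk_liftAlgHom, evalLevel_apply]

lemma evalHom_coe (a : Fin d → A) (ha : ∀ i, a i ∈ I) (p : MvPolynomial (Fin d) 𝒪) :
    evalHom I a ha (p : MvPowerSeries (Fin d) 𝒪) = MvPolynomial.aeval a p := by
  rw [IsHausdorff.eq_iff_smodEq (I := I)]
  intro n
  rw [smodEq_pow_iff, ← Ideal.Quotient.mk_eq_mk_iff_sub_mem, mk_evalHom,
    Ideal.Quotient.mk_eq_mk_iff_sub_mem, ← map_sub]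
  refine aeval_mem_pow_of_mem_pow_idealOfVars I ha ?_
  rw [MvPolynomial.mem_pow_idealOfVars_iff']
  intro x hx
  rw [MvPolynomial.coeff_sub, coeff_truncTotal _ hx, MvPolynomial.coeff_coe, sub_self]

lemma evalHom_X (a : Fin d → A) (ha : ∀ i, a i ∈ I) (i : Fin d) :
    evalHom I a ha (X i : MvPowerSeries (Fin d) 𝒪) = a i := by
  rw [← MvPolynomial.coe_X, evalHom_coe, MvPolynomial.aeval_X]

end Lift


section LocalLift

variable {𝒪 : Type*} [CommRing 𝒪] [IsLocalRing 𝒪] {d : ℕ}
variable {A : Type*} [CommRing A] [IsLocalRing A] [Algebra 𝒪 A]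

omit [IsLocalRing 𝒪] in
/-- Any `𝒪`-algebra map out of a power series ring sending the variables into the maximal ideal
agrees with the constant coefficient modulo the maximal ideal. -/
lemma algHom_sub_algebraMap_constantCoeff_mem (φ : MvPowerSeries (Fin d) 𝒪 →ₐ[𝒪] A)
    (hφ : ∀ i, φ (X i) ∈ maximalIdeal A) (f : MvPowerSeries (Fin d) 𝒪) :
    φ f - algebraMap 𝒪 A (constantCoeff f) ∈ maximalIdeal A := by
  have hC : φ (C (constantCoeff f)) = algebraMap 𝒪 A (constantCoeff f) := by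
    rw [MvPowerSeries.c_eq_algebraMap, AlgHom.commutes]
  have key : φ f = algebraMap 𝒪 A (constantCoeff f) +
      ∑ i : Fin d, φ (X i) * φ (firstPart i f) := by
    conv_lhs => rw [eq_C_add_sum_X_mul_firstPart f]
    rw [map_add, hC, map_sum]
    simp only [map_mul]
  rw [key, add_sub_cancel_left]
  refine Ideal.sum_mem _ fun i _ => ?_
  exact Ideal.mul_mem_right _ _ (hφ i)

variable [IsLocalHom (algebraMap 𝒪 A)]

lemma algHom_mem_maximalIdeal_of_mem (φ : MvPowerSeries (Fin d) 𝒪 →ₐ[𝒪] A)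
    (hφ : ∀ i, φ (X i) ∈ maximalIdeal A) {f : MvPowerSeries (Fin d) 𝒪}
    (hf : f ∈ maximalIdeal (MvPowerSeries (Fin d) 𝒪)) : φ f ∈ maximalIdeal A := by
  have h1 := algHom_sub_algebraMap_constantCoeff_mem φ hφ f
  have h2 : algebraMap 𝒪 A (constantCoeff f) ∈ maximalIdeal A := by
    rw [mem_maximalIdeal_mvPowerSeries_iff] at hf
    rw [mem_maximalIdeal, mem_nonunits_iff] at hf ⊢
    exact fun h => hf (isUnit_of_map_unit (algebraMap 𝒪 A) _ h)
  have := Ideal.add_mem _ h1 h2
  rwa [sub_add_cancel] at this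

lemma algHom_isLocalHom (φ : MvPowerSeries (Fin d) 𝒪 →ₐ[𝒪] A)
    (hφ : ∀ i, φ (X i) ∈ maximalIdeal A) : IsLocalHom (φ : MvPowerSeries (Fin d) 𝒪 →+* A) := by
  refine ⟨fun f hf => ?_⟩
  by_contra hnu
  have hmem : f ∈ maximalIdeal (MvPowerSeries (Fin d) 𝒪) := by
    rwa [mem_maximalIdeal, mem_nonunits_iff]
  have := algHom_mem_maximalIdeal_of_mem φ hφ hmem
  rw [mem_maximalIdeal, mem_nonunits_iff] at this
  exact this hf

lemma algHom_map_maximalIdeal_pow_le (φ : MvPowerSeries (Fin d) 𝒪 →ₐ[𝒪] A)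
    (hφ : ∀ i, φ (X i) ∈ maximalIdeal A) (n : ℕ) :
    (maximalIdeal (MvPowerSeries (Fin d) 𝒪) ^ n).map (φ : MvPowerSeries (Fin d) 𝒪 →+* A) ≤
      maximalIdeal A ^ n := by
  rw [Ideal.map_pow]
  refine Ideal.pow_right_mono ?_ n
  rw [Ideal.map_le_iff_le_comap]
  intro f hf
  exact algHom_mem_maximalIdeal_of_mem φ hφ hf

lemma sub_truncTotal_mem_maximalIdeal_pow (n : ℕ) (f : MvPowerSeries (Fin d) 𝒪) :
    f - (truncTotal n f : MvPolynomial (Fin d) 𝒪) ∈
      maximalIdeal (MvPowerSeries (Fin d) 𝒪) ^ n := by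
  rw [mem_maximalIdeal_pow_iff]
  intro x
  by_cases hx : degree x < n
  · rw [map_sub, MvPolynomial.coeff_coe, coeff_truncTotal _ hx, sub_self]
    exact Ideal.zero_mem _
  · rw [not_lt] at hx
    rw [Nat.sub_eq_zero_of_le hx, pow_zero, Ideal.one_eq_top]
    exact Submodule.mem_top

/-- Uniqueness: an `𝒪`-algebra map from a power series ring to a Hausdorff local `𝒪`-algebra is
determined by the images of the variables (if these lie in the maximal ideal). -/
theorem algHom_ext_of_X [IsHausdorff (maximalIdeal A) A]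
    (φ ψ : MvPowerSeries (Fin d) 𝒪 →ₐ[𝒪] A)
    (hφ : ∀ i, φ (X i) ∈ maximalIdeal A) (h : ∀ i, φ (X i) = ψ (X i)) : φ = ψ := by
  have hψ : ∀ i, ψ (X i) ∈ maximalIdeal A := fun i => h i ▸ hφ i
  ext f
  rw [IsHausdorff.eq_iff_smodEq (I := maximalIdeal A)]
  intro n
  rw [smodEq_pow_iff]
  have hpoly : φ ((truncTotal n f : MvPolynomial (Fin d) 𝒪) : MvPowerSeries (Fin d) 𝒪) =
      ψ ((truncTotal n f : MvPolynomial (Fin d) 𝒪) : MvPowerSeries (Fin d) 𝒪) := by
    have h1 : (φ.comp (MvPolynomial.coeToMvPowerSeries.algHom 𝒪)) =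
        (ψ.comp (MvPolynomial.coeToMvPowerSeries.algHom 𝒪)) := by
      apply MvPolynomial.algHom_ext
      intro i
      simp only [AlgHom.comp_apply, MvPolynomial.coeToMvPowerSeries.algHom_apply,
        MvPolynomial.coe_X, Algebra.algebraMap_self, map_id]
      exact h i
    have := congrArg (fun g => g (truncTotal n f)) h1
    simpa [AlgHom.comp_apply, MvPolynomial.coeToMvPowerSeries.algHom_apply] using this
  have h1 : φ f - ψ f = φ (f - (truncTotal n f : MvPolynomial (Fin d) 𝒪)) -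
      ψ (f - (truncTotal n f : MvPolynomial (Fin d) 𝒪)) := by
    rw [map_sub, map_sub, hpoly]; ring
  rw [h1]
  have hmem := sub_truncTotal_mem_maximalIdeal_pow n f
  refine Ideal.sub_mem _ ?_ ?_
  · exact algHom_map_maximalIdeal_pow_le φ hφ n (Ideal.mem_map_of_mem _ hmem)
  · exact algHom_map_maximalIdeal_pow_le ψ hψ n (Ideal.mem_map_of_mem _ hmem)


/-- Existence: evaluation of power series at elements of the maximal ideal of a complete local
`𝒪`-algebra. -/
theorem exists_algHom_X_eq [IsAdicComplete (maximalIdeal A) A] (a : Fin d → A)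
    (ha : ∀ i, a i ∈ maximalIdeal A) :
    ∃ φ : MvPowerSeries (Fin d) 𝒪 →ₐ[𝒪] A, (∀ i, φ (X i) = a i) ∧
      IsLocalHom (φ : MvPowerSeries (Fin d) 𝒪 →+* A) := by
  refine ⟨evalHom (maximalIdeal A) a ha, fun i => evalHom_X _ a ha i, ?_⟩
  exact algHom_isLocalHom _ fun i => by rw [evalHom_X]; exact ha i

/-- Surjectivity criterion. -/
theorem algHom_surjective [IsPrecomplete (maximalIdeal 𝒪) 𝒪] [IsHausdorff (maximalIdeal A) A]
    (φ : MvPowerSeries (Fin d) 𝒪 →ₐ[𝒪] A) (hφ : ∀ i, φ (X i) ∈ maximalIdeal A)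
    (hres : Function.Surjective (IsLocalRing.residue A ∘ algebraMap 𝒪 A))
    (hgen : maximalIdeal A ≤ Ideal.span (Set.range fun i => φ (X i)) ⊔
      (maximalIdeal 𝒪).map (algebraMap 𝒪 A)) :
    Function.Surjective φ := by
  have hmap : (maximalIdeal (MvPowerSeries (Fin d) 𝒪)).map
      (φ : MvPowerSeries (Fin d) 𝒪 →+* A) = maximalIdeal A := by
    refine le_antisymm ?_ (hgen.trans ?_)
    · have := algHom_map_maximalIdeal_pow_le φ hφ 1
      simpa using this
    · refine sup_le ?_ ?_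
      · rw [Ideal.span_le]
        rintro _ ⟨i, rfl⟩
        exact Ideal.mem_map_of_mem _ (X_mem_maximalIdeal i)
      · rw [Ideal.map_le_iff_le_comap]
        intro c hc
        rw [Ideal.mem_comap]
        have : algebraMap 𝒪 A c = (φ : MvPowerSeries (Fin d) 𝒪 →+* A) (C c) := by
          rw [RingHom.coe_coe, MvPowerSeries.c_eq_algebraMap, AlgHom.commutes]
        rw [this]
        refine Ideal.mem_map_of_mem _ ?_
        rw [mem_maximalIdeal_mvPowerSeries_iff, constantCoeff_C]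
        exact hc
  have : IsPrecomplete (maximalIdeal (MvPowerSeries (Fin d) 𝒪)) (MvPowerSeries (Fin d) 𝒪) :=
    isPrecomplete_mvPowerSeries
  have : IsHausdorff ((maximalIdeal (MvPowerSeries (Fin d) 𝒪)).map
      (φ : MvPowerSeries (Fin d) 𝒪 →+* A)) A := by
    rw [hmap]; infer_instance
  have hsurj := surjective_of_mk_map_comp_surjective
    (I := maximalIdeal (MvPowerSeries (Fin d) 𝒪)) (φ : MvPowerSeries (Fin d) 𝒪 →+* A) ?_
  · exact hsurj
  · intro y
    obtain ⟨y0, rfl⟩ := Ideal.Quotient.mk_surjective y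
    obtain ⟨c, hc⟩ := hres (IsLocalRing.residue A y0)
    refine ⟨C c, ?_⟩
    rw [RingHom.comp_apply, RingHom.coe_coe, MvPowerSeries.c_eq_algebraMap, AlgHom.commutes,
      Ideal.Quotient.mk_eq_mk_iff_sub_mem, hmap]
    rw [Function.comp_apply, ← sub_eq_zero, ← map_sub, IsLocalRing.residue_eq_zero_iff] at hc
    exact hc

end LocalLift


section Quotient

variable {𝒪 : Type*} [CommRing 𝒪] [IsLocalRing 𝒪] {d : ℕ}
  (J : Ideal (MvPowerSeries (Fin d) 𝒪))

theorem isLocalRing_quotient (hJ : J ≠ ⊤) : IsLocalRing (MvPowerSeries (Fin d) 𝒪 ⧸ J) := by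
  have : Nontrivial (MvPowerSeries (Fin d) 𝒪 ⧸ J) := Ideal.Quotient.nontrivial_iff.mpr hJ
  exact IsLocalRing.of_surjective' (Ideal.Quotient.mk J) Ideal.Quotient.mk_surjective

theorem isLocalHom_mk_quotient (hJ : J ≠ ⊤) : IsLocalHom (Ideal.Quotient.mk J) := by
  refine isLocalHom_of_le_jacobson_bot J ?_
  rw [IsLocalRing.jacobson_eq_maximalIdeal ⊥ bot_ne_top]
  exact IsLocalRing.le_maximalIdeal hJ

theorem isLocalHom_algebraMap_quotient (hJ : J ≠ ⊤) :
    IsLocalHom (algebraMap 𝒪 (MvPowerSeries (Fin d) 𝒪 ⧸ J)) := by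
  refine ⟨fun c hc => ?_⟩
  have h1 : algebraMap 𝒪 (MvPowerSeries (Fin d) 𝒪 ⧸ J) c = Ideal.Quotient.mk J (C c) := by
    rw [IsScalarTower.algebraMap_apply 𝒪 (MvPowerSeries (Fin d) 𝒪) (MvPowerSeries (Fin d) 𝒪 ⧸ J),
      Ideal.Quotient.algebraMap_eq, MvPowerSeries.c_eq_algebraMap]
  rw [h1] at hc
  have := isLocalHom_mk_quotient J hJ
  have h2 : IsUnit (C c : MvPowerSeries (Fin d) 𝒪) := isUnit_of_map_unit (Ideal.Quotient.mk J) _ hc
  rw [MvPowerSeries.isUnit_iff_constantCoeff, constantCoeff_C] at h2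
  exact h2

theorem residue_surjective_quotient [IsLocalRing (MvPowerSeries (Fin d) 𝒪 ⧸ J)] :
    Function.Surjective (IsLocalRing.residue (MvPowerSeries (Fin d) 𝒪 ⧸ J) ∘
      algebraMap 𝒪 (MvPowerSeries (Fin d) 𝒪 ⧸ J)) := by
  intro y
  obtain ⟨y1, rfl⟩ := IsLocalRing.residue_surjective y
  obtain ⟨f, rfl⟩ := Ideal.Quotient.mk_surjective y1
  refine ⟨constantCoeff f, ?_⟩
  rw [Function.comp_apply, ← sub_eq_zero, ← map_sub, IsLocalRing.residue_eq_zero_iff]
  have h1 : algebraMap 𝒪 (MvPowerSeries (Fin d) 𝒪 ⧸ J) (constantCoeff f) =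
      Ideal.Quotient.mk J (C (constantCoeff f)) := by
    rw [IsScalarTower.algebraMap_apply 𝒪 (MvPowerSeries (Fin d) 𝒪) (MvPowerSeries (Fin d) 𝒪 ⧸ J),
      Ideal.Quotient.algebraMap_eq, MvPowerSeries.c_eq_algebraMap]
  rw [h1, ← map_sub, mem_maximalIdeal, mem_nonunits_iff]
  intro hu
  have hJ : J ≠ ⊤ := Ideal.Quotient.nontrivial_iff.mp inferInstance
  have := isLocalHom_mk_quotient J hJ
  have h2 := isUnit_of_map_unit (Ideal.Quotient.mk J) _ hu
  rw [MvPowerSeries.isUnit_iff_constantCoeff, map_sub, constantCoeff_C, sub_self] at h2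
  exact not_isUnit_zero h2

theorem isAdicComplete_quotient [IsNoetherianRing 𝒪] [IsAdicComplete (maximalIdeal 𝒪) 𝒪]
    [IsLocalRing (MvPowerSeries (Fin d) 𝒪 ⧸ J)] :
    IsAdicComplete (maximalIdeal (MvPowerSeries (Fin d) 𝒪 ⧸ J))
      (MvPowerSeries (Fin d) 𝒪 ⧸ J) := by
  have : IsAdicComplete (maximalIdeal (MvPowerSeries (Fin d) 𝒪)) (MvPowerSeries (Fin d) 𝒪) :=
    isAdicComplete_mvPowerSeries
  have hJ : J ≠ ⊤ := Ideal.Quotient.nontrivial_iff.mp inferInstance
  have : IsLocalHom (algebraMap (MvPowerSeries (Fin d) 𝒪) (MvPowerSeries (Fin d) 𝒪 ⧸ J)) :=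
    isLocalHom_mk_quotient J hJ
  exact IsLocalRing.isAdicComplete_of_module_finite (𝒪 := MvPowerSeries (Fin d) 𝒪)

end Quotient

end Fermat.Agent.S53
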