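import Mathlib
import Fermat.Agent.S53.TestAlg

set_option autoImplicit false

namespace Fermat.Agent.S53

open IsLocalRing GaloisRep

variable {𝒪 : Type} [CommRing 𝒪] [IsLocalRing 𝒪] {X : Type}
  {F : ∀ ⦃A : Type⦄ [CommRing A] [IsLocalRing A] [Algebra 𝒪 A], (X → A) → Prop}

/-- the key derivation-type identity behind `exists_algHom_dualNumber` -/
theorem tangent_leibniz {A : Type} [CommRing A] [IsLocalRing A] [Algebra 𝒪 A]
    (hA : IsArtinianTestAlgebra 𝒪 A) (ℓ : A →ₗ[𝒪] ResidueField 𝒪)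
    (h1 : ∀ a ∈ maximalIdeal A, ∀ b ∈ maximalIdeal A, ℓ (a * b) = 0)
    (h2 : ∀ o : 𝒪, ℓ (algebraMap 𝒪 A o) = 0)
    (ρ : A →ₐ[𝒪] ResidueField 𝒪)
    (hρ : RingHom.ker (ρ : A →+* ResidueField 𝒪) = maximalIdeal A) (a b : A) :
    ℓ (a * b) = ρ a * ℓ b + ρ b * ℓ a := by
  obtain ⟨oa, hoa⟩ := testAlg_exists_sub_mem hA a
  obtain ⟨ob, hob⟩ := testAlg_exists_sub_mem hA b
  set a' := a - algebraMap 𝒪 A oa with ha'
  set b' := b - algebraMap 𝒪 A ob with hb'
  have ha : a = algebraMap 𝒪 A oa + a' := by rw [ha']; ring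
  have hb : b = algebraMap 𝒪 A ob + b' := by rw [hb']; ring
  have hρa' : ρ a' = 0 := by
    have : a' ∈ RingHom.ker (ρ : A →+* ResidueField 𝒪) := by rw [hρ]; exact hoa
    simpa using this
  have hρb' : ρ b' = 0 := by
    have : b' ∈ RingHom.ker (ρ : A →+* ResidueField 𝒪) := by rw [hρ]; exact hob
    simpa using this
  have hρa : ρ a = algebraMap 𝒪 (ResidueField 𝒪) oa := by
    rw [ha, map_add, hρa', add_zero, AlgHom.commutes]
  have hρb : ρ b = algebraMap 𝒪 (ResidueField 𝒪) ob := by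
    rw [hb, map_add, hρb', add_zero, AlgHom.commutes]
  have hℓa : ℓ a = ℓ a' := by rw [ha, map_add, h2, zero_add]
  have hℓb : ℓ b = ℓ b' := by rw [hb, map_add, h2, zero_add]
  have hab : a * b = algebraMap 𝒪 A (oa * ob) + oa • b' + ob • a' + a' * b' := by
    rw [ha, hb, map_mul, Algebra.smul_def, Algebra.smul_def]; ring
  rw [hab, map_add, map_add, map_add, h2, h1 _ hoa _ hob, map_smul, map_smul, hρa, hρb, hℓa, hℓb,
    Algebra.smul_def, Algebra.smul_def]
  ring

/-- TH: algebra homs into the dual numbers from functionals on the relative cotangent space.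
`ℓ` is an additive map on `A` (only its values on the maximal ideal matter). -/
theorem exists_algHom_dualNumber {A : Type} [CommRing A] [IsLocalRing A] [Algebra 𝒪 A]
    (hA : IsArtinianTestAlgebra 𝒪 A) (ℓ : A →ₗ[𝒪] ResidueField 𝒪)
    (h1 : ∀ a ∈ maximalIdeal A, ∀ b ∈ maximalIdeal A, ℓ (a * b) = 0)
    (h2 : ∀ o : 𝒪, ℓ (algebraMap 𝒪 A o) = 0) :
    letI := dualNumberAlgebra 𝒪
    ∃ φ : A →ₐ[𝒪] DualNumber (ResidueField 𝒪),
      ∀ a ∈ maximalIdeal A, φ a = TrivSqZeroExt.inr (ℓ a) := by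
  letI := dualNumberAlgebra 𝒪
  obtain ⟨ρ, -, hρ⟩ := exists_resToBase hA
  have hleib := tangent_leibniz hA ℓ h1 h2 ρ hρ
  refine ⟨{ toFun := fun a => TrivSqZeroExt.inl (ρ a) + TrivSqZeroExt.inr (ℓ a)
            map_one' := ?_
            map_mul' := ?_
            map_zero' := ?_
            map_add' := ?_
            commutes' := ?_ }, ?_⟩
  · have : ℓ 1 = 0 := by simpa using h2 1
    simp [this]
  · intro a b
    rw [hleib a b, map_mul]
    ext
    · simp
    · simp [mul_comm]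
  · simp
  · intro a b
    simp only [map_add, TrivSqZeroExt.inl_add, TrivSqZeroExt.inr_add]
    abel
  · intro o
    simp only [AlgHom.commutes, h2, TrivSqZeroExt.inr_zero, add_zero]
    rfl
  · intro a ha
    have : ρ a = 0 := by
      have : a ∈ RingHom.ker (ρ : A →+* ResidueField 𝒪) := by rw [hρ]; exact ha
      simpa using this
    simp [this]

/-- dual basis for a finite module killed by the maximal ideal -/
theorem tangent_exists_dual_family {W : Type} [AddCommGroup W]
    [Module 𝒪 W] [Finite W] (hW : ∀ o ∈ maximalIdeal 𝒪, ∀ w : W, o • w = 0) :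
    ∃ (d : ℕ) (w : Fin d → W) (ℓ : Fin d → (W →ₗ[𝒪] ResidueField 𝒪)),
      (∀ i j, ℓ i (w j) = if i = j then 1 else 0) ∧ Submodule.span 𝒪 (Set.range w) = ⊤ := by
  have hM : Module.IsTorsionBySet 𝒪 W (maximalIdeal 𝒪) := by
    intro w o
    exact hW o.1 o.2 w
  letI : Module (ResidueField 𝒪) W := hM.module
  haveI : IsScalarTower 𝒪 (ResidueField 𝒪) W := hM.isScalarTower
  haveI : Module.Finite (ResidueField 𝒪) W := Module.Finite.of_finite
  let b := Module.finBasis (ResidueField 𝒪) W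
  refine ⟨_, b, fun i => (b.coord i).restrictScalars 𝒪, ?_, ?_⟩
  · intro i j
    simp [Finsupp.single_apply, eq_comm]
  · have h1 : Submodule.span (ResidueField 𝒪) (Set.range b) = ⊤ := b.span_eq
    have h2 := Submodule.restrictScalars_span 𝒪 (ResidueField 𝒪)
      (IsLocalRing.residue_surjective (R := 𝒪)) (Set.range b)
    rw [h1] at h2
    rw [← h2]
    rfl

/-- generators of the maximal ideal of a test algebra modulo `𝔪_𝒪`, together with a dual family
of functionals on the relative cotangent space -/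
theorem tangent_exists_cotangent_dual_family [Finite (ResidueField 𝒪)] {A : Type} [CommRing A]
    [IsLocalRing A] [Algebra 𝒪 A] (hA : IsArtinianTestAlgebra 𝒪 A) :
    ∃ (d : ℕ) (t : Fin d → A) (ℓ : Fin d → (A →ₗ[𝒪] ResidueField 𝒪)),
      (∀ j, t j ∈ maximalIdeal A) ∧ (∀ i o, ℓ i (algebraMap 𝒪 A o) = 0) ∧
      (∀ i, ∀ a ∈ maximalIdeal A, ∀ b ∈ maximalIdeal A, ℓ i (a * b) = 0) ∧
      (∀ i j, ℓ i (t j) = if i = j then 1 else 0) ∧
      maximalIdeal A = (maximalIdeal 𝒪).map (algebraMap 𝒪 A) ⊔ Ideal.span (Set.range t) := by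
  haveI : Finite A := testAlg_finite hA
  haveI : IsLocalHom (algebraMap 𝒪 A) := hA.isLocalHom
  have hmap_le : (maximalIdeal 𝒪).map (algebraMap 𝒪 A) ≤ maximalIdeal A :=
    IsLocalRing.map_maximalIdeal_le (algebraMap 𝒪 A)
  set J : Ideal A := (maximalIdeal 𝒪).map (algebraMap 𝒪 A) ⊔ maximalIdeal A ^ 2 with hJ
  have hJle : J ≤ maximalIdeal A := sup_le hmap_le (Ideal.pow_le_self two_ne_zero)
  set N : Submodule 𝒪 A :=
    LinearMap.range (Algebra.linearMap 𝒪 A) ⊔ J.restrictScalars 𝒪 with hN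
  have hJN : ∀ a ∈ J, a ∈ N := fun a ha =>
    (le_sup_right : J.restrictScalars 𝒪 ≤ N) ha
  have hON : ∀ o : 𝒪, algebraMap 𝒪 A o ∈ N := fun o =>
    (le_sup_left : LinearMap.range (Algebra.linearMap 𝒪 A) ≤ N) ⟨o, rfl⟩
  have hWtors : ∀ o ∈ maximalIdeal 𝒪, ∀ w : A ⧸ N, o • w = 0 := by
    intro o ho w
    obtain ⟨a, rfl⟩ := N.mkQ_surjective w
    rw [← map_smul, Submodule.mkQ_apply, Submodule.Quotient.mk_eq_zero]
    apply hJN
    rw [Algebra.smul_def]
    exact (le_sup_left : _ ≤ J) (Ideal.mul_mem_right _ _ (Ideal.mem_map_of_mem _ ho))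
  haveI : Finite (A ⧸ N) := Finite.of_surjective _ N.mkQ_surjective
  obtain ⟨d, w, ℓ, hℓw, hspan⟩ := tangent_exists_dual_family hWtors
  have hlift : ∀ j, ∃ a ∈ maximalIdeal A, N.mkQ a = w j := by
    intro j
    obtain ⟨a, ha⟩ := N.mkQ_surjective (w j)
    obtain ⟨o, ho⟩ := testAlg_exists_sub_mem hA a
    refine ⟨a - algebraMap 𝒪 A o, ho, ?_⟩
    rw [map_sub, ha, sub_eq_self, Submodule.mkQ_apply, Submodule.Quotient.mk_eq_zero]
    exact hON o
  choose t ht htw using hlift
  refine ⟨d, t, fun i => (ℓ i).comp N.mkQ, ht, ?_, ?_, ?_, ?_⟩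
  · intro i o
    have : N.mkQ (algebraMap 𝒪 A o) = 0 := by
      rw [Submodule.mkQ_apply, Submodule.Quotient.mk_eq_zero]
      exact hON o
    simp [this]
  · intro i a ha b hb
    have : N.mkQ (a * b) = 0 := by
      rw [Submodule.mkQ_apply, Submodule.Quotient.mk_eq_zero]
      apply hJN
      exact (le_sup_right : _ ≤ J) (by rw [pow_two]; exact Ideal.mul_mem_mul ha hb)
    simp [this]
  · intro i j
    simp [htw, hℓw]
  · apply le_antisymm
    · have hfg : (maximalIdeal A).FG := IsNoetherian.noetherian _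
      refine Submodule.le_of_le_smul_of_le_jacobson_bot hfg
        (IsLocalRing.jacobson_eq_maximalIdeal ⊥ bot_ne_top).ge ?_
      intro a ha
      have h1 : Submodule.map N.mkQ (Submodule.span 𝒪 (Set.range t)) = ⊤ := by
        rw [Submodule.map_span, ← Set.range_comp]
        have : N.mkQ ∘ t = w := funext htw
        rw [this]
        exact hspan
      rw [Submodule.map_mkQ_eq_top] at h1
      have h2 : a ∈ N ⊔ Submodule.span 𝒪 (Set.range t) := by rw [h1]; trivial
      obtain ⟨y, hy, z, hz, hyz⟩ := Submodule.mem_sup.mp h2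
      obtain ⟨y1, hy1, y2, hy2, hy12⟩ := Submodule.mem_sup.mp hy
      obtain ⟨o, rfl⟩ := hy1
      have hz' : z ∈ Ideal.span (Set.range t) :=
        Submodule.span_le_restrictScalars 𝒪 A (Set.range t) hz
      have hzm : z ∈ maximalIdeal A :=
        (Ideal.span_le.mpr (by rintro _ ⟨j, rfl⟩; exact ht j)) hz'
      have hy2J : y2 ∈ J := hy2
      have hom : algebraMap 𝒪 A o ∈ maximalIdeal A := by
        have : algebraMap 𝒪 A o = a - y2 - z := by
          rw [← hyz, ← hy12, Algebra.linearMap_apply]; ring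
        rw [this]
        exact sub_mem (sub_mem ha (hJle hy2J)) hzm
      have ho : o ∈ maximalIdeal 𝒪 := by
        by_contra hcon
        have hu : IsUnit o := by
          by_contra h; exact hcon ((IsLocalRing.mem_maximalIdeal o).mpr h)
        exact ((IsLocalRing.mem_maximalIdeal _).mp hom) (hu.map (algebraMap 𝒪 A))
      have hoJ : algebraMap 𝒪 A o ∈ (maximalIdeal 𝒪).map (algebraMap 𝒪 A) :=
        Ideal.mem_map_of_mem _ ho
      rw [← hyz, ← hy12]
      rcases Submodule.mem_sup.mp hy2J with ⟨j1, hj1, j2, hj2, hj12⟩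
      rw [← hj12]
      have e : (Algebra.linearMap 𝒪 A) o + (j1 + j2) + z = ((algebraMap 𝒪 A o + j1) + z) + j2 := by
        simp only [Algebra.linearMap_apply]; ring
      rw [e]
      refine Submodule.add_mem_sup (Submodule.add_mem_sup (add_mem hoJ hj1) hz') ?_
      rw [smul_eq_mul, ← pow_two]
      exact hj2
    · exact sup_le hmap_le (Ideal.span_le.mpr (by rintro _ ⟨j, rfl⟩; exact ht j))

/-- B1: uniform bound on the number of generators of the maximal ideal of a test algebra that is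
generated by an `F`-point. -/
theorem exists_generators_bound [Finite (ResidueField 𝒪)]
    (hF : IsProRepresentablePredicate 𝒪 X F) :
    ∃ r : ℕ, ∀ (A : Type) [CommRing A] [IsLocalRing A] [Algebra 𝒪 A],
      IsArtinianTestAlgebra 𝒪 A → ∀ x : X → A, F x → Algebra.adjoin 𝒪 (Set.range x) = ⊤ →
      ∃ t : Fin r → A, (∀ j, t j ∈ maximalIdeal A) ∧
        maximalIdeal A = (maximalIdeal 𝒪).map (algebraMap 𝒪 A) ⊔ Ideal.span (Set.range t) := by
  letI := dualNumberAlgebra 𝒪
  haveI := hF.tangent_finite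
  refine ⟨Nat.card {y : X → DualNumber (ResidueField 𝒪) // F y}, ?_⟩
  intro A _ _ _ hA x hx hgen
  obtain ⟨d, t, ℓ, ht, hℓ2, hℓ1, hℓt, hmax⟩ := tangent_exists_cotangent_dual_family hA
  have hφ : ∀ i, ∃ φ : A →ₐ[𝒪] DualNumber (ResidueField 𝒪),
      ∀ a ∈ maximalIdeal A, φ a = TrivSqZeroExt.inr (ℓ i a) :=
    fun i => exists_algHom_dualNumber hA (ℓ i) (hℓ1 i) (hℓ2 i)
  choose φ hφ using hφ
  have hdual := dualNumber_isTestAlg 𝒪
  let y : Fin d → {y : X → DualNumber (ResidueField 𝒪) // F y} :=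
    fun i => ⟨φ i ∘ x, hF.map hA hdual (φ i) x hx⟩
  have hy : Function.Injective y := by
    intro i j hij
    have h1 : φ i = φ j := by
      apply AlgHom.ext_of_adjoin_eq_top hgen
      rintro _ ⟨s, rfl⟩
      exact congrFun (congrArg Subtype.val hij) s
    have h2 := hφ i (t i) (ht i)
    rw [h1, hφ j (t i) (ht i)] at h2
    have h3 := TrivSqZeroExt.inr_injective h2
    rw [hℓt, hℓt] at h3
    by_contra hne
    simp [Ne.symm hne] at h3
  have hd : d ≤ Nat.card {y : X → DualNumber (ResidueField 𝒪) // F y} := by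
    have := Nat.card_le_card_of_injective y hy
    simpa using this
  refine ⟨fun j => if h : (j : ℕ) < d then t ⟨j, h⟩ else 0, ?_, ?_⟩
  · intro j
    dsimp only
    split_ifs
    · exact ht _
    · exact zero_mem _
  · refine hmax.trans ?_
    congr 1
    apply le_antisymm
    · apply Ideal.span_le.mpr
      rintro _ ⟨i, rfl⟩
      apply Ideal.subset_span
      refine ⟨⟨i, lt_of_lt_of_le i.2 hd⟩, ?_⟩
      simp
    · apply Ideal.span_le.mpr
      rintro _ ⟨j, rfl⟩
      dsimp only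
      split_ifs with h
      · exact Ideal.subset_span ⟨_, rfl⟩
      · exact zero_mem _

end Fermat.Agent.S53
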