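import Mathlib
import Fermat.Agent.S53.Admissible
import Fermat.Agent.S53.Tangent
import Fermat.Agent.S53.PowerSeriesComplete

set_option autoImplicit false

namespace Fermat.Agent.S53

open IsLocalRing GaloisRep

/-- A ring is adically complete with respect to a nilpotent ideal. -/
theorem isAdicComplete_of_pow_eq_bot {A : Type*} [CommRing A] (I : Ideal A) (n : ℕ)
    (h : I ^ n = ⊥) : IsAdicComplete I A := by
  have hH : IsHausdorff I A := by
    refine ⟨fun x hx => ?_⟩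
    have := hx n
    rw [SModEq.zero, h] at this
    simpa using this
  have hP : IsPrecomplete I A := by
    refine ⟨fun f hf => ⟨f n, fun m => ?_⟩⟩
    rcases le_total m n with hmn | hmn
    · exact hf hmn
    · have := hf hmn
      rw [h] at this
      have h2 : f n = f m := by
        have := SModEq.sub_mem.mp this
        simpa [sub_eq_zero] using this
      rw [h2]
  exact { toIsHausdorff := hH, toIsPrecomplete := hP }


variable {𝒪 : Type} [CommRing 𝒪] [IsLocalRing 𝒪] {X : Type}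
  {F : ∀ ⦃A : Type⦄ [CommRing A] [IsLocalRing A] [Algebra 𝒪 A], (X → A) → Prop}

omit [IsLocalRing 𝒪] in
/-- The tautological point generates the quotient. -/
theorem adjoin_range_mk_X (K : Ideal (MvPolynomial X 𝒪)) :
    Algebra.adjoin 𝒪 (Set.range fun i : X => Ideal.Quotient.mk K (MvPolynomial.X i)) = ⊤ := by
  have h1 : (Set.range fun i : X => Ideal.Quotient.mk K (MvPolynomial.X i)) =
      (Ideal.Quotient.mkₐ 𝒪 K) '' (Set.range (MvPolynomial.X : X → MvPolynomial X 𝒪)) := by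
    rw [← Set.range_comp]; rfl
  rw [h1, ← AlgHom.map_adjoin, MvPolynomial.adjoin_range_X, Algebra.map_top,
    AlgHom.range_eq_top]
  exact Ideal.Quotient.mkₐ_surjective 𝒪 K

theorem IsAdm.maximalIdeal_pow_eq_bot (hF : IsProRepresentablePredicate 𝒪 X F)
    {x₀ : X → ResidueField 𝒪} (huniq : ∀ y : X → ResidueField 𝒪, F y → y = x₀)
    {K : Ideal (MvPolynomial X 𝒪)} (h : IsAdm 𝒪 X F K) [IsLocalRing (MvPolynomial X 𝒪 ⧸ K)]
    {n : ℕ} (hn : baseIdeal 𝒪 X x₀ ^ n ≤ K) :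
    maximalIdeal (MvPolynomial X 𝒪 ⧸ K) ^ n = ⊥ := by
  rw [IsAdm.maximalIdeal_eq hF huniq h, ← Ideal.map_pow, eq_bot_iff]
  rw [Ideal.map_le_iff_le_comap]
  intro s hs
  rw [Ideal.mem_comap, Ideal.mem_bot]
  exact Ideal.Quotient.eq_zero_iff_mem.mpr (hn hs)

variable [IsNoetherianRing 𝒪] [IsAdicComplete (maximalIdeal 𝒪) 𝒪] [Finite (ResidueField 𝒪)]

omit [IsNoetherianRing 𝒪] [IsAdicComplete (maximalIdeal 𝒪) 𝒪] in
theorem finite_residueField_mvPowerSeries (r : ℕ) :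
    Finite (MvPowerSeries (Fin r) 𝒪 ⧸ maximalIdeal (MvPowerSeries (Fin r) 𝒪)) := by
  have hsurj : Function.Surjective
      ((Ideal.Quotient.mk (maximalIdeal (MvPowerSeries (Fin r) 𝒪))).comp
        ((MvPowerSeries.C : 𝒪 →+* MvPowerSeries (Fin r) 𝒪))) := by
    intro y
    obtain ⟨f, rfl⟩ := Ideal.Quotient.mk_surjective y
    refine ⟨MvPowerSeries.constantCoeff f, ?_⟩
    rw [RingHom.comp_apply, Ideal.Quotient.eq, mem_maximalIdeal_mvPowerSeries_iff]
    simp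
  have hker : maximalIdeal 𝒪 ≤ RingHom.ker
      ((Ideal.Quotient.mk (maximalIdeal (MvPowerSeries (Fin r) 𝒪))).comp
        ((MvPowerSeries.C : 𝒪 →+* MvPowerSeries (Fin r) 𝒪))) := by
    intro o ho
    rw [RingHom.mem_ker, RingHom.comp_apply, Ideal.Quotient.eq_zero_iff_mem,
      mem_maximalIdeal_mvPowerSeries_iff]
    simpa using ho
  let g : ResidueField 𝒪 →+* MvPowerSeries (Fin r) 𝒪 ⧸ maximalIdeal (MvPowerSeries (Fin r) 𝒪) :=
    Ideal.Quotient.lift (maximalIdeal 𝒪) _ (fun o ho => hker ho)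
  have hg : Function.Surjective g := by
    intro y
    obtain ⟨o, rfl⟩ := hsurj y
    exact ⟨IsLocalRing.residue 𝒪 o, rfl⟩
  exact Finite.of_surjective g hg

/-- Uniform bound for the cardinality of admissible quotients of a given level. -/
theorem exists_card_bound (hF : IsProRepresentablePredicate 𝒪 X F)
    {x₀ : X → ResidueField 𝒪} (huniq : ∀ y : X → ResidueField 𝒪, F y → y = x₀) (n : ℕ) :
    ∃ C : ℕ, ∀ K : Ideal (MvPolynomial X 𝒪), IsAdm 𝒪 X F K → baseIdeal 𝒪 X x₀ ^ n ≤ K →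
      Finite (MvPolynomial X 𝒪 ⧸ K) ∧ Nat.card (MvPolynomial X 𝒪 ⧸ K) ≤ C := by
  obtain ⟨r, hr⟩ := exists_generators_bound hF
  have hfin0 := finite_residueField_mvPowerSeries (𝒪 := 𝒪) r
  have hfin : Finite (MvPowerSeries (Fin r) 𝒪 ⧸ maximalIdeal (MvPowerSeries (Fin r) 𝒪) ^ n) :=
    Ideal.finite_quotient_pow (IsNoetherian.noetherian _) n
  refine ⟨Nat.card (MvPowerSeries (Fin r) 𝒪 ⧸ maximalIdeal (MvPowerSeries (Fin r) 𝒪) ^ n), ?_⟩
  intro K hK hn
  obtain ⟨inst, hA, hx⟩ := id hK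
  obtain ⟨t, ht, hgen⟩ := hr _ hA _ hx (adjoin_range_mk_X K)
  have hpow := IsAdm.maximalIdeal_pow_eq_bot hF huniq hK hn
  have := isAdicComplete_of_pow_eq_bot _ n hpow
  have : IsLocalHom (algebraMap 𝒪 (MvPolynomial X 𝒪 ⧸ K)) := hA.isLocalHom
  obtain ⟨φ, hφ, -⟩ := exists_algHom_X_eq (𝒪 := 𝒪) t ht
  have hφm : ∀ i, φ (MvPowerSeries.X i) ∈ maximalIdeal (MvPolynomial X 𝒪 ⧸ K) := by
    intro i; rw [hφ]; exact ht i
  have hsurj : Function.Surjective φ := by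
    apply algHom_surjective φ hφm hA.residue_surjective
    rw [hgen, sup_comm]
    apply sup_le_sup_right
    apply Ideal.span_mono
    rintro _ ⟨i, rfl⟩
    exact ⟨i, hφ i⟩
  have hkill : maximalIdeal (MvPowerSeries (Fin r) 𝒪) ^ n ≤
      RingHom.ker (φ : MvPowerSeries (Fin r) 𝒪 →+* MvPolynomial X 𝒪 ⧸ K) := by
    intro f hf
    rw [RingHom.mem_ker]
    have := algHom_map_maximalIdeal_pow_le φ hφm n (Ideal.mem_map_of_mem _ hf)
    rw [hpow] at this
    simpa using this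
  let φ' : MvPowerSeries (Fin r) 𝒪 ⧸ maximalIdeal (MvPowerSeries (Fin r) 𝒪) ^ n →+*
      MvPolynomial X 𝒪 ⧸ K := Ideal.Quotient.lift _ (φ : MvPowerSeries (Fin r) 𝒪 →+* _)
        (fun f hf => RingHom.mem_ker.mp (hkill hf))
  have hsurj' : Function.Surjective φ' := by
    intro y
    obtain ⟨f, rfl⟩ := hsurj y
    exact ⟨Ideal.Quotient.mk _ f, by rw [Ideal.Quotient.lift_mk]; rfl⟩
  exact ⟨Finite.of_surjective φ' hsurj', Nat.card_le_card_of_surjective φ' hsurj'⟩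


omit [IsNoetherianRing 𝒪] [IsAdicComplete (maximalIdeal 𝒪) 𝒪] [Finite (ResidueField 𝒪)] in
theorem baseIdeal_ne_top (x₀ : X → ResidueField 𝒪) : baseIdeal 𝒪 X x₀ ≠ ⊤ := by
  rw [baseIdeal]
  exact RingHom.ker_ne_top _

/-- L0: among the admissible ideals of level `n ≥ 1` there is a least one. -/
theorem exists_least_isAdm (hF : IsProRepresentablePredicate 𝒪 X F)
    {x₀ : X → ResidueField 𝒪} (hx₀ : F x₀) (huniq : ∀ y : X → ResidueField 𝒪, F y → y = x₀)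
    (n : ℕ) (hn : 0 < n) :
    ∃ K : Ideal (MvPolynomial X 𝒪), IsAdm 𝒪 X F K ∧ baseIdeal 𝒪 X x₀ ^ n ≤ K ∧
      ∀ K' : Ideal (MvPolynomial X 𝒪), IsAdm 𝒪 X F K' → baseIdeal 𝒪 X x₀ ^ n ≤ K' → K ≤ K' := by
  obtain ⟨C, hC⟩ := exists_card_bound hF huniq n
  -- the set of cardinalities
  let P : ℕ → Prop := fun c => ∃ K : Ideal (MvPolynomial X 𝒪), IsAdm 𝒪 X F K ∧
    baseIdeal 𝒪 X x₀ ^ n ≤ K ∧ Nat.card (MvPolynomial X 𝒪 ⧸ K) = c
  have hP0 : ∃ c, P c := by
    refine ⟨_, baseIdeal 𝒪 X x₀, isAdm_baseIdeal hF hx₀, ?_, rfl⟩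
    exact Ideal.pow_le_self hn.ne'
  have hPbound : ∀ c, P c → c ≤ C := by
    rintro c ⟨K, hK, hKn, rfl⟩
    exact (hC K hK hKn).2
  classical
  obtain ⟨c, hc, hcmax⟩ : ∃ c, P c ∧ ∀ c', P c' → c' ≤ c := by
    refine ⟨Nat.findGreatest P C, ?_, ?_⟩
    · obtain ⟨c0, hc0⟩ := hP0
      exact Nat.findGreatest_spec (hPbound c0 hc0) hc0
    · intro c' hc'
      exact Nat.le_findGreatest (hPbound c' hc') hc'
  obtain ⟨K, hK, hKn, hcard⟩ := hc
  refine ⟨K, hK, hKn, ?_⟩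
  intro K' hK' hK'n
  have hinf : IsAdm 𝒪 X F (K ⊓ K') := IsAdm.inf hF hK hK'
  have hinfn : baseIdeal 𝒪 X x₀ ^ n ≤ K ⊓ K' := le_inf hKn hK'n
  have hfin : Finite (MvPolynomial X 𝒪 ⧸ (K ⊓ K')) := (hC _ hinf hinfn).1
  have hle : Nat.card (MvPolynomial X 𝒪 ⧸ (K ⊓ K')) ≤ c := hcmax _ ⟨_, hinf, hinfn, rfl⟩
  have hsurj : Function.Surjective (Ideal.Quotient.factor (inf_le_left : K ⊓ K' ≤ K)) :=
    Ideal.Quotient.factor_surjective _
  have hfinK : Finite (MvPolynomial X 𝒪 ⧸ K) := (hC _ hK hKn).1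
  have hinj : Function.Injective (Ideal.Quotient.factor (inf_le_left : K ⊓ K' ≤ K)) := by
    have hbij : Function.Bijective (Ideal.Quotient.factor (inf_le_left : K ⊓ K' ≤ K)) := by
      rw [Nat.bijective_iff_surjective_and_card]
      refine ⟨hsurj, le_antisymm ?_ (Nat.card_le_card_of_surjective _ hsurj)⟩
      rw [hcard]; exact hle
    exact hbij.1
  intro s hs
  have h0 : Ideal.Quotient.factor (inf_le_left : K ⊓ K' ≤ K) (Ideal.Quotient.mk _ s) = 0 := by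
    rw [Ideal.Quotient.factor_mk]
    exact Ideal.Quotient.eq_zero_iff_mem.mpr hs
  have h1 : Ideal.Quotient.mk (K ⊓ K') s = 0 := hinj (by rw [h0, map_zero])
  exact (Ideal.Quotient.eq_zero_iff_mem.mp h1).2


/-- The tower of level ideals, with all the properties needed for the limit construction. -/
theorem exists_levelTower (hF : IsProRepresentablePredicate 𝒪 X F)
    {x₀ : X → ResidueField 𝒪} (hx₀ : F x₀) (huniq : ∀ y : X → ResidueField 𝒪, F y → y = x₀) :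
    ∃ K : ℕ → Ideal (MvPolynomial X 𝒪),
      (∀ n, 0 < n → IsAdm 𝒪 X F (K n)) ∧
      (∀ n, baseIdeal 𝒪 X x₀ ^ n ≤ K n) ∧
      (∀ n, 0 < n → K n ≤ baseIdeal 𝒪 X x₀) ∧
      (∀ n, 0 < n → ∀ K' : Ideal (MvPolynomial X 𝒪), IsAdm 𝒪 X F K' →
        baseIdeal 𝒪 X x₀ ^ n ≤ K' → K n ≤ K') ∧
      (∀ n m, n ≤ m → K n = K m ⊔ baseIdeal 𝒪 X x₀ ^ n) := by
  classical
  have hex := fun (n : ℕ) (hn : 0 < n) => exists_least_isAdm hF hx₀ huniq n hn
  let K : ℕ → Ideal (MvPolynomial X 𝒪) := fun n =>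
    if hn : 0 < n then (hex n hn).choose else ⊤
  have hKpos : ∀ n (hn : 0 < n), K n = (hex n hn).choose := fun n hn => dif_pos hn
  have hK0 : K 0 = ⊤ := dif_neg (lt_irrefl 0)
  have hadm : ∀ n, 0 < n → IsAdm 𝒪 X F (K n) := by
    intro n hn; rw [hKpos n hn]; exact (hex n hn).choose_spec.1
  have hpow : ∀ n, baseIdeal 𝒪 X x₀ ^ n ≤ K n := by
    intro n
    rcases Nat.eq_zero_or_pos n with rfl | hn
    · rw [hK0]; exact le_top
    · rw [hKpos n hn]; exact (hex n hn).choose_spec.2.1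
  have hleast : ∀ n, 0 < n → ∀ K' : Ideal (MvPolynomial X 𝒪), IsAdm 𝒪 X F K' →
      baseIdeal 𝒪 X x₀ ^ n ≤ K' → K n ≤ K' := by
    intro n hn; rw [hKpos n hn]; exact (hex n hn).choose_spec.2.2
  have hle : ∀ n, 0 < n → K n ≤ baseIdeal 𝒪 X x₀ := fun n hn =>
    IsAdm.le_baseIdeal hF huniq (hadm n hn)
  refine ⟨K, hadm, hpow, hle, hleast, ?_⟩
  intro n m hnm
  rcases Nat.eq_zero_or_pos n with rfl | hn
  · rw [hK0, pow_zero, Ideal.one_eq_top, sup_top_eq]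
  have hm : 0 < m := lt_of_lt_of_le hn hnm
  apply le_antisymm
  · apply hleast n hn
    · apply IsAdm.of_le hF (hadm m hm) le_sup_left
      intro htop
      have : K m ⊔ baseIdeal 𝒪 X x₀ ^ n ≤ baseIdeal 𝒪 X x₀ :=
        sup_le (hle m hm) (Ideal.pow_le_self hn.ne')
      rw [htop, top_le_iff] at this
      exact baseIdeal_ne_top x₀ this
    · exact le_sup_right
  · apply sup_le
    · apply hleast m hm _ (hadm n hn)
      exact (Ideal.pow_le_pow_right hnm).trans (hpow n)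
    · exact hpow n

omit [IsNoetherianRing 𝒪] [IsAdicComplete (maximalIdeal 𝒪) 𝒪] in
/-- Generators: finitely many elements of the base ideal generating it modulo `K 2` and the
maximal ideal of `𝒪`. -/
theorem exists_generators_mod (hF : IsProRepresentablePredicate 𝒪 X F)
    {x₀ : X → ResidueField 𝒪} (huniq : ∀ y : X → ResidueField 𝒪, F y → y = x₀)
    {K₂ : Ideal (MvPolynomial X 𝒪)} (hK₂ : IsAdm 𝒪 X F K₂) :
    ∃ (r : ℕ) (s : Fin r → MvPolynomial X 𝒪), (∀ j, s j ∈ baseIdeal 𝒪 X x₀) ∧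
      baseIdeal 𝒪 X x₀ ≤ (maximalIdeal 𝒪).map (algebraMap 𝒪 (MvPolynomial X 𝒪)) ⊔
        Ideal.span (Set.range s) ⊔ K₂ := by
  obtain ⟨r, hr⟩ := exists_generators_bound hF
  obtain ⟨inst, hA, hx⟩ := id hK₂
  obtain ⟨t, ht, hgen⟩ := hr _ hA _ hx (adjoin_range_mk_X K₂)
  have hmax := IsAdm.maximalIdeal_eq hF huniq hK₂
  have hsurj : Function.Surjective (Ideal.Quotient.mk K₂) := Ideal.Quotient.mk_surjective
  have hK₂le : K₂ ≤ baseIdeal 𝒪 X x₀ := IsAdm.le_baseIdeal hF huniq hK₂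
  have hcomap : ∀ I : Ideal (MvPolynomial X 𝒪),
      (I.map (Ideal.Quotient.mk K₂)).comap (Ideal.Quotient.mk K₂) = I ⊔ K₂ := by
    intro I
    rw [Ideal.comap_map_of_surjective _ hsurj, ← RingHom.ker_eq_comap_bot, Ideal.mk_ker]
  choose s hs using fun j => hsurj (t j)
  refine ⟨r, s, ?_, ?_⟩
  · intro j
    have h1 : Ideal.Quotient.mk K₂ (s j) ∈ (baseIdeal 𝒪 X x₀).map (Ideal.Quotient.mk K₂) := by
      rw [hs j, ← hmax]; exact ht j
    have h2 : s j ∈ ((baseIdeal 𝒪 X x₀).map (Ideal.Quotient.mk K₂)).comap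
        (Ideal.Quotient.mk K₂) := h1
    rw [hcomap, sup_eq_left.mpr hK₂le] at h2
    exact h2
  · intro m hm
    have h1 : Ideal.Quotient.mk K₂ m ∈ maximalIdeal (MvPolynomial X 𝒪 ⧸ K₂) := by
      rw [hmax]; exact Ideal.mem_map_of_mem _ hm
    have himg : ((maximalIdeal 𝒪).map (algebraMap 𝒪 (MvPolynomial X 𝒪)) ⊔
        Ideal.span (Set.range s)).map (Ideal.Quotient.mk K₂) =
        (maximalIdeal 𝒪).map (algebraMap 𝒪 (MvPolynomial X 𝒪 ⧸ K₂)) ⊔
          Ideal.span (Set.range t) := by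
      rw [Ideal.map_sup, Ideal.map_map, Ideal.map_span, ← Set.range_comp]
      have e1 : (⇑(Ideal.Quotient.mk K₂) ∘ s) = t := funext hs
      rw [e1]
      rfl
    rw [hgen, ← himg] at h1
    have h2 : m ∈ (((maximalIdeal 𝒪).map (algebraMap 𝒪 (MvPolynomial X 𝒪)) ⊔
        Ideal.span (Set.range s)).map (Ideal.Quotient.mk K₂)).comap (Ideal.Quotient.mk K₂) := h1
    rwa [hcomap] at h2

end Fermat.Agent.S53
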