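import Fermat.Agent.S53.Limit
import Fermat.Agent.S53.PowerSeriesComplete

set_option autoImplicit false
set_option linter.unusedSectionVars false

namespace Fermat.Agent.S53.Lim

open IsLocalRing

namespace TowerLimit

variable {𝒪 : Type} [CommRing 𝒪] [IsLocalRing 𝒪]
  {Rn : ℕ → Type} [∀ n, CommRing (Rn n)] [∀ n, IsLocalRing (Rn n)] [∀ n, Algebra 𝒪 (Rn n)]
  {t : ∀ n, Rn (n + 1) →ₐ[𝒪] Rn n} (L : TowerLimit 𝒪 Rn t)

lemma t_π (n : ℕ) (y : L.R) : t n (L.π (n + 1) y) = L.π n y :=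
  DFunLike.congr_fun (L.compat n) y

lemma mem_pow_iff (n : ℕ) (y : L.R) : y ∈ maximalIdeal L.R ^ (n + 1) ↔ L.π n y = 0 := by
  rw [← L.ker_π n, RingHom.mem_ker, RingHom.coe_coe]

/-- elements of the limit are determined by their images at all levels -/
lemma ext_π {x y : L.R} (h : ∀ n, L.π n x = L.π n y) : x = y := by
  rw [← sub_eq_zero]
  apply IsHausdorff.haus' (I := maximalIdeal L.R) (M := L.R)
  intro n
  rw [SModEq.sub_mem, sub_zero, smul_eq_mul, Ideal.mul_top]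
  have h1 : x - y ∈ maximalIdeal L.R ^ (n + 1) := by
    rw [mem_pow_iff, map_sub, h n, sub_self]
  exact Ideal.pow_le_pow_right (Nat.le_succ n) h1

lemma π_eq_of_le (x : ∀ n, Rn n) (hx : ∀ n, t n (x (n + 1)) = x n) (y : L.R) (n : ℕ)
    (hy : L.π n y = x n) (m : ℕ) (hm : m ≤ n) : L.π m y = x m := by
  induction n with
  | zero =>
    obtain rfl : m = 0 := Nat.le_zero.mp hm
    exact hy
  | succ n ih =>
    rcases Nat.lt_or_ge m (n + 1) with h | h
    · apply ih _ (Nat.lt_succ_iff.mp h)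
      rw [← L.t_π, hy, hx]
    · obtain rfl : m = n + 1 := le_antisymm hm h
      exact hy

/-- every compatible family comes from an element of the limit -/
lemma exists_of_compatible (x : ∀ n, Rn n) (hx : ∀ n, t n (x (n + 1)) = x n) :
    ∃ y : L.R, ∀ n, L.π n y = x n := by
  choose f hf using fun n => L.π_surjective n (x n)
  have hcauchy : ∀ {m n : ℕ}, m ≤ n →
      f m ≡ f n [SMOD (maximalIdeal L.R ^ m • ⊤ : Submodule L.R L.R)] := by
    intro m n hmn
    rw [SModEq.sub_mem, smul_eq_mul, Ideal.mul_top]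
    have h1 : f m - f n ∈ maximalIdeal L.R ^ (m + 1) := by
      rw [mem_pow_iff, map_sub, hf m, L.π_eq_of_le x hx (f n) n (hf n) m hmn, sub_self]
    exact Ideal.pow_le_pow_right (Nat.le_succ m) h1
  obtain ⟨y, hy⟩ := IsPrecomplete.prec (I := maximalIdeal L.R) (M := L.R) inferInstance hcauchy
  refine ⟨y, fun n => ?_⟩
  have h1 := hy (n + 1)
  rw [SModEq.sub_mem, smul_eq_mul, Ideal.mul_top, mem_pow_iff, map_sub, sub_eq_zero] at h1
  rw [← h1]
  exact L.π_eq_of_le x hx (f (n + 1)) (n + 1) (hf (n + 1)) n (Nat.le_succ n)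

/-- the lift of a compatible family of algebra maps to the limit -/
noncomputable def lift {S : Type} [CommRing S] [Algebra 𝒪 S] (g : ∀ n, S →ₐ[𝒪] Rn n)
    (hg : ∀ n, (t n).comp (g (n + 1)) = g n) : S →ₐ[𝒪] L.R :=
  have hg' : ∀ s n, t n (g (n + 1) s) = g n s := fun s n => DFunLike.congr_fun (hg n) s
  let ι : S → L.R := fun s => (L.exists_of_compatible (fun n => g n s) (hg' s)).choose
  have hι : ∀ s n, L.π n (ι s) = g n s := fun s =>
    (L.exists_of_compatible (fun n => g n s) (hg' s)).choose_spec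
  { toFun := ι
    map_one' := L.ext_π fun n => by rw [hι, map_one, map_one]
    map_mul' := fun a b => L.ext_π fun n => by rw [hι, map_mul, map_mul, hι, hι]
    map_zero' := L.ext_π fun n => by rw [hι, map_zero, map_zero]
    map_add' := fun a b => L.ext_π fun n => by rw [hι, map_add, map_add, hι, hι]
    commutes' := fun o => L.ext_π fun n => by rw [hι, AlgHom.commutes, AlgHom.commutes] }

lemma π_lift {S : Type} [CommRing S] [Algebra 𝒪 S] (g : ∀ n, S →ₐ[𝒪] Rn n)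
    (hg : ∀ n, (t n).comp (g (n + 1)) = g n) (n : ℕ) (s : S) :
    L.π n (L.lift g hg s) = g n s :=
  (L.exists_of_compatible (fun n => g n s)
    (fun n => DFunLike.congr_fun (hg n) s)).choose_spec n

end TowerLimit


section QuotientLocal

variable {S : Type} [CommRing S]

/-- A quotient by an ideal between a power of a maximal ideal and that maximal ideal is local. -/
lemma exists_unique_isMaximal_quotient (𝔐 K : Ideal S) (h𝔐 : 𝔐.IsMaximal) (N : ℕ)
    (h1 : 𝔐 ^ N ≤ K) (h2 : K ≤ 𝔐) :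
    (𝔐.map (Ideal.Quotient.mk K)).IsMaximal ∧
      ∀ J : Ideal (S ⧸ K), J.IsMaximal → J = 𝔐.map (Ideal.Quotient.mk K) := by
  have hsurj : Function.Surjective (Ideal.Quotient.mk K) := Ideal.Quotient.mk_surjective
  have hcomap : Ideal.comap (Ideal.Quotient.mk K) (𝔐.map (Ideal.Quotient.mk K)) = 𝔐 := by
    rw [Ideal.comap_map_of_surjective _ hsurj, ← RingHom.ker_eq_comap_bot, Ideal.mk_ker]
    exact sup_eq_left.mpr h2
  constructor
  · rcases Ideal.map_eq_top_or_isMaximal_of_surjective (Ideal.Quotient.mk K) hsurj h𝔐 with h | h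
    · exfalso
      rw [h, Ideal.comap_top] at hcomap
      exact h𝔐.ne_top hcomap.symm
    · exact h
  · intro J hJ
    have hJ' : (Ideal.comap (Ideal.Quotient.mk K) J).IsMaximal :=
      Ideal.comap_isMaximal_of_surjective _ hsurj
    have hK : K ≤ Ideal.comap (Ideal.Quotient.mk K) J := by
      intro x hx
      rw [Ideal.mem_comap, Ideal.Quotient.eq_zero_iff_mem.mpr hx]
      exact J.zero_mem
    have hle : 𝔐 ≤ Ideal.comap (Ideal.Quotient.mk K) J :=
      Ideal.IsPrime.le_of_pow_le (hP := hJ'.isPrime) (h1.trans hK)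
    have heq : 𝔐 = Ideal.comap (Ideal.Quotient.mk K) J := h𝔐.eq_of_le hJ'.ne_top hle
    rw [heq, Ideal.map_comap_of_surjective _ hsurj]

lemma isLocalRing_quotient_of_pow_le (𝔐 K : Ideal S) (h𝔐 : 𝔐.IsMaximal) (N : ℕ)
    (h1 : 𝔐 ^ N ≤ K) (h2 : K ≤ 𝔐) : IsLocalRing (S ⧸ K) := by
  obtain ⟨hmax, huniq⟩ := exists_unique_isMaximal_quotient 𝔐 K h𝔐 N h1 h2
  exact IsLocalRing.of_unique_max_ideal ⟨_, hmax, huniq⟩

lemma maximalIdeal_quotient_of_pow_le (𝔐 K : Ideal S) (h𝔐 : 𝔐.IsMaximal) (N : ℕ)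
    (h1 : 𝔐 ^ N ≤ K) (h2 : K ≤ 𝔐) [IsLocalRing (S ⧸ K)] :
    maximalIdeal (S ⧸ K) = 𝔐.map (Ideal.Quotient.mk K) :=
  (exists_unique_isMaximal_quotient 𝔐 K h𝔐 N h1 h2).2 _ (maximalIdeal.isMaximal _)

end QuotientLocal

end Fermat.Agent.S53.Lim

namespace Fermat.Agent.S53

open IsLocalRing Lim

/-- LIMIT: from a compatible tower of ideals `K n` of an `𝒪`-algebra `S` build the complete
Noetherian local ring `R = lim S ⧸ K n`. -/
theorem exists_limit_ring {𝒪 : Type} [CommRing 𝒪] [IsLocalRing 𝒪] [IsNoetherianRing 𝒪]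
    [IsAdicComplete (maximalIdeal 𝒪) 𝒪]
    {S : Type} [CommRing S] [Algebra 𝒪 S] (𝔐 : Ideal S) (K : ℕ → Ideal S)
    (h𝔐 : 𝔐 ≠ ⊤) (hres : ∀ s : S, ∃ o : 𝒪, s - algebraMap 𝒪 S o ∈ 𝔐)
    (hloc : ∀ o ∈ maximalIdeal 𝒪, algebraMap 𝒪 S o ∈ 𝔐)
    (hK1 : ∀ n, 𝔐 ^ n ≤ K n) (hK2 : ∀ n, 0 < n → K n ≤ 𝔐)
    (hK3 : ∀ n m, n ≤ m → K n = K m ⊔ 𝔐 ^ n)
    (r : ℕ) (s : Fin r → S) (hs : ∀ j, s j ∈ 𝔐)
    (hgen : 𝔐 ≤ (maximalIdeal 𝒪).map (algebraMap 𝒪 S) ⊔ Ideal.span (Set.range s) ⊔ K 2) :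
    ∃ (R : Type) (_ : CommRing R) (_ : IsLocalRing R) (_ : IsNoetherianRing R)
      (_ : IsAdicComplete (maximalIdeal R) R) (_ : Algebra 𝒪 R)
      (_ : IsLocalHom (algebraMap 𝒪 R)),
      Function.Surjective (residue R ∘ algebraMap 𝒪 R) ∧
      ∃ ι : S →ₐ[𝒪] R,
        (∀ n, 0 < n → (maximalIdeal R ^ n).comap (ι : S →+* R) = K n) ∧
        (∀ n, ∀ x : R, ∃ t : S, x - ι t ∈ maximalIdeal R ^ n) := by
  -- `𝔐` is maximal
  have hmax : 𝔐.IsMaximal := by
    rw [Ideal.isMaximal_iff]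
    refine ⟨(Ideal.ne_top_iff_one _).mp h𝔐, fun J x hJ hx hxJ => ?_⟩
    obtain ⟨o, ho⟩ := hres x
    have ho_unit : IsUnit o := by
      by_contra h
      have h1 : algebraMap 𝒪 S o ∈ 𝔐 := hloc o ((mem_maximalIdeal _).mpr h)
      apply hx
      have h2 : x = (x - algebraMap 𝒪 S o) + algebraMap 𝒪 S o := by ring
      rw [h2]
      exact 𝔐.add_mem ho h1
    have h1 : algebraMap 𝒪 S o ∈ J := by
      have h2 : algebraMap 𝒪 S o = x - (x - algebraMap 𝒪 S o) := by ring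
      rw [h2]
      exact J.sub_mem hxJ (hJ ho)
    have h3 : J = ⊤ := Ideal.eq_top_of_isUnit_mem _ h1 (ho_unit.map _)
    rw [h3]
    exact Submodule.mem_top
  -- the levels
  have hKle : ∀ n, K (n + 1 + 1) ≤ K (n + 1) := fun n => by
    rw [hK3 (n + 1) (n + 1 + 1) (Nat.le_succ _)]
    exact le_sup_left
  have hlocal : ∀ n, IsLocalRing (S ⧸ K (n + 1)) := fun n =>
    isLocalRing_quotient_of_pow_le 𝔐 _ hmax (n + 1) (hK1 _) (hK2 _ (Nat.succ_pos _))
  have hmaxid : ∀ n, maximalIdeal (S ⧸ K (n + 1)) = 𝔐.map (Ideal.Quotient.mk (K (n + 1))) :=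
    fun n => maximalIdeal_quotient_of_pow_le 𝔐 _ hmax (n + 1) (hK1 _) (hK2 _ (Nat.succ_pos _))
  let t : ∀ n, (S ⧸ K (n + 1 + 1)) →ₐ[𝒪] (S ⧸ K (n + 1)) := fun n =>
    Ideal.Quotient.factorₐ 𝒪 (hKle n)
  have htmk : ∀ n x, t n (Ideal.Quotient.mk (K (n + 1 + 1)) x) = Ideal.Quotient.mk (K (n + 1)) x :=
    fun n x => Ideal.Quotient.factorₐ_apply_mk 𝒪 (hKle n) x
  have hsurj : ∀ n, Function.Surjective (t n) := fun n => by
    intro y
    obtain ⟨x, rfl⟩ := Ideal.Quotient.mk_surjective y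
    exact ⟨Ideal.Quotient.mk _ x, htmk n x⟩
  have halg : ∀ n (o : 𝒪), algebraMap 𝒪 (S ⧸ K (n + 1)) o =
      Ideal.Quotient.mk (K (n + 1)) (algebraMap 𝒪 S o) := fun n o => rfl
  have hloc' : ∀ n, IsLocalHom (algebraMap 𝒪 (S ⧸ K (n + 1))) := fun n => by
    constructor
    intro o ho
    by_contra h
    have h1 : algebraMap 𝒪 S o ∈ 𝔐 := hloc o ((mem_maximalIdeal _).mpr h)
    have h2 : algebraMap 𝒪 (S ⧸ K (n + 1)) o ∈ maximalIdeal (S ⧸ K (n + 1)) := by
      rw [hmaxid, halg]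
      exact Ideal.mem_map_of_mem _ h1
    exact ((mem_maximalIdeal _).mp h2) ho
  have hres' : ∀ n, Function.Surjective
      (residue (S ⧸ K (n + 1)) ∘ algebraMap 𝒪 (S ⧸ K (n + 1))) := fun n => by
    intro y
    obtain ⟨x, rfl⟩ := residue_surjective y
    obtain ⟨x, rfl⟩ := Ideal.Quotient.mk_surjective x
    obtain ⟨o, ho⟩ := hres x
    refine ⟨o, ?_⟩
    simp only [Function.comp_apply]
    rw [← sub_eq_zero, ← map_sub, residue_eq_zero_iff, hmaxid, halg, ← map_sub]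
    apply Ideal.mem_map_of_mem
    have : algebraMap 𝒪 S o - x = -(x - algebraMap 𝒪 S o) := by ring
    rw [this]
    exact 𝔐.neg_mem ho
  have hker : ∀ n, RingHom.ker (t n : (S ⧸ K (n + 1 + 1)) →+* (S ⧸ K (n + 1))) =
      maximalIdeal (S ⧸ K (n + 1 + 1)) ^ (n + 1) := fun n => by
    have h1 : RingHom.ker (t n : (S ⧸ K (n + 1 + 1)) →+* (S ⧸ K (n + 1))) =
        Ideal.map (Ideal.Quotient.mk (K (n + 1 + 1))) (K (n + 1)) :=
      Ideal.Quotient.factor_ker (hKle n)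
    rw [h1, hmaxid, ← Ideal.map_pow, hK3 (n + 1) (n + 1 + 1) (Nat.le_succ _), Ideal.map_sup,
      Ideal.map_quotient_self, bot_sup_eq]
  have hnil : ∀ n, maximalIdeal (S ⧸ K (n + 1)) ^ (n + 1) = ⊥ := fun n => by
    rw [hmaxid, ← Ideal.map_pow, Ideal.map_eq_bot_iff_le_ker, Ideal.mk_ker]
    exact hK1 (n + 1)
  -- generators at level one
  let s' : Fin r → (S ⧸ K (1 + 1)) := fun j => Ideal.Quotient.mk (K (1 + 1)) (s j)
  have hs' : maximalIdeal (S ⧸ K (1 + 1)) = Ideal.span (Set.range s') ⊔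
      (maximalIdeal 𝒪).map (algebraMap 𝒪 (S ⧸ K (1 + 1))) := by
    have hrange : Set.range s' = (Ideal.Quotient.mk (K (1 + 1))) '' (Set.range s) := by
      rw [← Set.range_comp]
      rfl
    have hmapalg : (maximalIdeal 𝒪).map (algebraMap 𝒪 (S ⧸ K (1 + 1))) =
        ((maximalIdeal 𝒪).map (algebraMap 𝒪 S)).map (Ideal.Quotient.mk (K (1 + 1))) := by
      rw [Ideal.map_map]
      rfl
    apply le_antisymm
    · rw [hmaxid 1, hrange, ← Ideal.map_span, hmapalg, ← Ideal.map_sup]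
      have h2 : 𝔐.map (Ideal.Quotient.mk (K (1 + 1))) ≤
          ((maximalIdeal 𝒪).map (algebraMap 𝒪 S) ⊔ Ideal.span (Set.range s) ⊔ K 2).map
            (Ideal.Quotient.mk (K (1 + 1))) := Ideal.map_mono hgen
      rw [Ideal.map_sup, show K 2 = K (1 + 1) from rfl, Ideal.map_quotient_self,
        sup_bot_eq, sup_comm] at h2
      exact h2
    · rw [hmaxid 1, hrange, ← Ideal.map_span, hmapalg, ← Ideal.map_sup]
      apply Ideal.map_mono
      refine sup_le ?_ ?_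
      · rw [Ideal.span_le]
        rintro _ ⟨j, rfl⟩
        exact hs j
      · rw [Ideal.map_le_iff_le_comap]
        intro o ho
        exact hloc o ho
  obtain ⟨L⟩ := nonempty_towerLimit_of_generators (Rn := fun n => S ⧸ K (n + 1)) t
    (fun r => isAdicComplete_mvPowerSeries) hsurj hloc' hres' hker hnil s' hs'
  -- the map from `S`
  let g : ∀ n, S →ₐ[𝒪] (S ⧸ K (n + 1)) := fun n => Ideal.Quotient.mkₐ 𝒪 (K (n + 1))
  have hg : ∀ n, (t n).comp (g (n + 1)) = g n := fun n => by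
    ext x
    exact htmk n x
  let ι : S →ₐ[𝒪] L.R := L.lift g hg
  have hπι : ∀ n x, L.π n (ι x) = Ideal.Quotient.mk (K (n + 1)) x := fun n x => L.π_lift g hg n x
  refine ⟨L.R, inferInstance, inferInstance, inferInstance, inferInstance, inferInstance,
    inferInstance, L.residue_surjective, ι, ?_, ?_⟩
  · intro n hn
    obtain ⟨m, rfl⟩ : ∃ m, n = m + 1 := ⟨n - 1, by omega⟩
    ext x
    rw [Ideal.mem_comap, RingHom.coe_coe, L.mem_pow_iff, hπι, Ideal.Quotient.eq_zero_iff_mem]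
  · intro n x
    cases n with
    | zero => exact ⟨0, by simp⟩
    | succ m =>
      obtain ⟨y, hy⟩ := Ideal.Quotient.mk_surjective (L.π m x)
      refine ⟨y, ?_⟩
      rw [L.mem_pow_iff, map_sub, hπι, hy, sub_self]

end Fermat.Agent.S53
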