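import Mathlib
import Fermat.Agent.S53.Levels
import Fermat.Agent.S53.LimitRing

set_option autoImplicit false

namespace Fermat.Agent.S53

open IsLocalRing GaloisRep

variable (𝒪 : Type) [CommRing 𝒪] [IsLocalRing 𝒪]

set_option linter.overlappingInstances false in
/-- **PROREP**: the abstract pro-representability theorem. -/
theorem nonempty_proRepData [IsDomain 𝒪] [IsDiscreteValuationRing 𝒪]
    [IsAdicComplete (maximalIdeal 𝒪) 𝒪] [Finite (ResidueField 𝒪)] (X : Type)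
    (F : ∀ ⦃A : Type⦄ [CommRing A] [IsLocalRing A] [Algebra 𝒪 A], (X → A) → Prop)
    (hF : IsProRepresentablePredicate 𝒪 X F) : Nonempty (ProRepData 𝒪 X F) := by
  obtain ⟨x₀, hx₀, huniq⟩ := hF.base
  obtain ⟨K, hadm, hpow, hle, hleast, hsup⟩ := exists_levelTower hF hx₀ huniq
  obtain ⟨r, s, hs, hgen⟩ := exists_generators_mod hF huniq (hadm 2 (by norm_num))
  have hres : ∀ p : MvPolynomial X 𝒪, ∃ o : 𝒪,
      p - algebraMap 𝒪 (MvPolynomial X 𝒪) o ∈ baseIdeal 𝒪 X x₀ := by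
    intro p
    obtain ⟨o, ho⟩ := IsLocalRing.residue_surjective
      (MvPolynomial.aeval x₀ p : ResidueField 𝒪)
    refine ⟨o, ?_⟩
    rw [baseIdeal, RingHom.mem_ker, map_sub, AlgHom.commutes, sub_eq_zero, ← ho]
    rfl
  have hloc : ∀ o ∈ maximalIdeal 𝒪, algebraMap 𝒪 (MvPolynomial X 𝒪) o ∈ baseIdeal 𝒪 X x₀ := by
    intro o ho
    rw [baseIdeal, RingHom.mem_ker, AlgHom.commutes]
    exact (IsLocalRing.residue_eq_zero_iff o).mpr ho
  obtain ⟨R, instCR, instLR, instNR, instAC, instAlg, instLH, hresR, ι, hcomap, hdense⟩ :=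
    exists_limit_ring (baseIdeal 𝒪 X x₀) K (baseIdeal_ne_top x₀) hres hloc hpow hle hsup r s hs hgen
  -- the comparison maps `S ⧸ K n → R ⧸ 𝔪 ^ n`
  have hkill : ∀ n, 0 < n → ∀ a ∈ K n,
      ((Ideal.Quotient.mkₐ 𝒪 (maximalIdeal R ^ n)).comp ι) a = 0 := by
    intro n hn a ha
    rw [AlgHom.comp_apply, Ideal.Quotient.mkₐ_eq_mk, Ideal.Quotient.eq_zero_iff_mem]
    have : a ∈ (maximalIdeal R ^ n).comap (ι : MvPolynomial X 𝒪 →+* R) := by
      rw [hcomap n hn]; exact ha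
    exact this
  let θ : ∀ n (hn : 0 < n), (MvPolynomial X 𝒪 ⧸ K n) →ₐ[𝒪] (R ⧸ maximalIdeal R ^ n) :=
    fun n hn => Ideal.Quotient.liftₐ (K n) ((Ideal.Quotient.mkₐ 𝒪 (maximalIdeal R ^ n)).comp ι)
      (hkill n hn)
  have hθmk : ∀ n (hn : 0 < n) (p : MvPolynomial X 𝒪),
      θ n hn (Ideal.Quotient.mk (K n) p) = Ideal.Quotient.mk (maximalIdeal R ^ n) (ι p) := by
    intro n hn p
    rfl
  have hθinj : ∀ n (hn : 0 < n), Function.Injective (θ n hn) := by
    intro n hn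
    rw [injective_iff_map_eq_zero]
    intro a ha
    obtain ⟨p, rfl⟩ := Ideal.Quotient.mk_surjective a
    rw [hθmk n hn, Ideal.Quotient.eq_zero_iff_mem] at ha
    have : p ∈ (maximalIdeal R ^ n).comap (ι : MvPolynomial X 𝒪 →+* R) := ha
    rw [hcomap n hn] at this
    exact Ideal.Quotient.eq_zero_iff_mem.mpr this
  have hθsurj : ∀ n (hn : 0 < n), Function.Surjective (θ n hn) := by
    intro n hn y
    obtain ⟨x, rfl⟩ := Ideal.Quotient.mk_surjective y
    obtain ⟨t, ht⟩ := hdense n x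
    refine ⟨Ideal.Quotient.mk (K n) t, ?_⟩
    rw [hθmk n hn, eq_comm, Ideal.Quotient.eq]
    exact ht
  refine ⟨{
    R := R
    residue_surjective := hresR
    pt := fun i => ι (MvPolynomial.X i)
    isPoint := ?_
    universal := ?_ }⟩
  · intro n hn instQ
    obtain ⟨instK, hAK, hxK⟩ := hadm n hn
    have hnt : Nontrivial (R ⧸ maximalIdeal R ^ n) := inferInstance
    obtain ⟨inst', hT⟩ := testAlg_of_surjective hAK (θ n hn) (hθsurj n hn)
    refine ⟨hT, ?_⟩
    exact hF.map hAK hT (θ n hn) _ hxK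
  · intro A _ _ _ hA x hx
    -- existence
    have hadmK := isAdm_ker_aeval hF hA x hx
    obtain ⟨n, hn, hpowK⟩ := IsAdm.exists_pow_le hF huniq hadmK
    have hKn : K n ≤ RingHom.ker (MvPolynomial.aeval x : MvPolynomial X 𝒪 →ₐ[𝒪] A) :=
      hleast n hn _ hadmK hpowK
    let ev' : (MvPolynomial X 𝒪 ⧸ K n) →ₐ[𝒪] A :=
      Ideal.Quotient.liftₐ (K n) (MvPolynomial.aeval x) (fun a ha => RingHom.mem_ker.mp (hKn ha))
    have hev' : ∀ p : MvPolynomial X 𝒪,
        ev' (Ideal.Quotient.mk (K n) p) = MvPolynomial.aeval x p := fun p => rfl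
    let e : (MvPolynomial X 𝒪 ⧸ K n) ≃ₐ[𝒪] (R ⧸ maximalIdeal R ^ n) :=
      AlgEquiv.ofBijective (θ n hn) ⟨hθinj n hn, hθsurj n hn⟩
    let φ : R →ₐ[𝒪] A :=
      (ev'.comp (e.symm : (R ⧸ maximalIdeal R ^ n) →ₐ[𝒪] (MvPolynomial X 𝒪 ⧸ K n))).comp
        (Ideal.Quotient.mkₐ 𝒪 (maximalIdeal R ^ n))
    have hφ : ∀ i, φ (ι (MvPolynomial.X i)) = x i := by
      intro i
      have h1 : e.symm (Ideal.Quotient.mk (maximalIdeal R ^ n) (ι (MvPolynomial.X i))) =
          Ideal.Quotient.mk (K n) (MvPolynomial.X i) := by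
        rw [AlgEquiv.symm_apply_eq]
        exact (hθmk n hn _).symm
      change ev' (e.symm (Ideal.Quotient.mk (maximalIdeal R ^ n) (ι (MvPolynomial.X i)))) = x i
      rw [h1, hev', MvPolynomial.aeval_X]
    refine ⟨φ, hφ, ?_⟩
    -- uniqueness
    intro φ' hφ'
    obtain ⟨m, hm, hpowA⟩ := testAlg_exists_pow_eq_bot hA
    have hloc' : ∀ ψ : R →ₐ[𝒪] A, ∀ y ∈ maximalIdeal R ^ m, ψ y = 0 := by
      intro ψ y hy
      have hlocal : IsLocalHom (ψ : R →+* A) :=
        isLocalHom_of_residue_surjective hA.isLocalHom hA.residue_surjective ψ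
      have h1 : (maximalIdeal R ^ m).map (ψ : R →+* A) ≤ maximalIdeal A ^ m := by
        rw [Ideal.map_pow]
        apply Ideal.pow_right_mono
        rw [Ideal.map_le_iff_le_comap]
        intro z hz
        exact map_nonunit (ψ : R →+* A) z hz
      have h2 := h1 (Ideal.mem_map_of_mem _ hy)
      rw [hpowA] at h2
      simpa using h2
    have hcomp : φ'.comp ι = φ.comp ι := by
      apply MvPolynomial.algHom_ext
      intro i
      simp only [AlgHom.comp_apply]
      rw [hφ' i, hφ i]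
    ext y
    obtain ⟨t, ht⟩ := hdense m y
    have e1 : φ' y = φ' (ι t) := by
      have := hloc' φ' _ ht
      rwa [map_sub, sub_eq_zero] at this
    have e2 : φ y = φ (ι t) := by
      have := hloc' φ _ ht
      rwa [map_sub, sub_eq_zero] at this
    rw [e1, e2]
    exact congrArg (fun g => g t) hcomp

end Fermat.Agent.S53
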