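import Mathlib
import Fermat.Prelude.Def_GaloisRep_DeformationRingData
import Fermat.Prelude.Def_GaloisRep_DeformationCondition

set_option autoImplicit false

noncomputable section

namespace Fermat.Agent.S53

open IsLocalRing

/-- the absolute Galois group of `ℚ` -/
abbrev GQ : Type := AlgebraicClosure ℚ ≃ₐ[ℚ] AlgebraicClosure ℚ

/-- matrix representations -/
abbrev MRep (A : Type) [CommRing A] : Type := GQ →* Matrix (Fin 2) (Fin 2) A

namespace MRep

variable {A B : Type} [CommRing A] [CommRing B]

/-- push a matrix representation forward along a ring hom (entrywise) -/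
def map (φ : A →+* B) (ρ : MRep A) : MRep B :=
  ((φ.mapMatrix : Matrix (Fin 2) (Fin 2) A →+* Matrix (Fin 2) (Fin 2) B) : _ →* _).comp ρ

@[simp] lemma map_apply (φ : A →+* B) (ρ : MRep A) (σ : GQ) (i j : Fin 2) :
    ρ.map φ σ i j = φ (ρ σ i j) := rfl

/-- adic continuity of a matrix representation over a local ring -/
def IsAdicCont [IsLocalRing A] (ρ : MRep A) : Prop :=
  ∀ n : ℕ, ∃ L : IntermediateField ℚ (AlgebraicClosure ℚ), FiniteDimensional ℚ L ∧
    ∀ σ : GQ, (∀ x ∈ L, σ x = x) → ∀ i j, (ρ σ - 1) i j ∈ maximalIdeal A ^ n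

lemma IsAdicCont.map [IsLocalRing A] [IsLocalRing B] {ρ : MRep A} (h : ρ.IsAdicCont)
    (φ : A →+* B) (hφ : IsLocalHom φ) : (ρ.map φ).IsAdicCont := by
  intro n
  obtain ⟨L, hL, hρ⟩ := h n
  refine ⟨L, hL, fun σ hσ i j => ?_⟩
  have hmap : (maximalIdeal A ^ n).map φ ≤ maximalIdeal B ^ n := by
    rw [Ideal.map_pow]
    exact Ideal.pow_right_mono (Ideal.map_le_iff_le_comap.mpr fun a ha =>
      Ideal.mem_comap.mpr (haveI := hφ; map_nonunit φ a ha)) n
  have h1 : (ρ.map φ σ - 1) i j = φ ((ρ σ - 1) i j) := by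
    simp only [Matrix.sub_apply, map_apply, map_sub]
    congr 1
    by_cases hij : i = j
    · subst hij; simp
    · simp [Matrix.one_apply_ne hij]
  rw [h1]
  exact hmap (Ideal.mem_map_of_mem φ (hρ σ hσ i j))

/-- if the representation is trivial on a finite-level subgroup it is adically continuous -/
lemma isAdicCont_of_factors [IsLocalRing A] {ρ : MRep A}
    (h : GaloisFactorsThroughFiniteLevel ρ) : ρ.IsAdicCont := by
  intro n
  obtain ⟨L, hL, hρ⟩ := h
  refine ⟨L, hL, fun σ hσ i j => ?_⟩
  rw [hρ σ hσ, sub_self]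
  exact Ideal.zero_mem _

/-- over an Artinian local ring adic continuity means factoring through finite level -/
lemma factors_of_isAdicCont [IsLocalRing A] [IsArtinianRing A] {ρ : MRep A}
    (h : ρ.IsAdicCont) : GaloisFactorsThroughFiniteLevel ρ := by
  obtain ⟨n, hn⟩ := IsArtinianRing.isNilpotent_jacobson_bot (R := A)
  rw [IsLocalRing.jacobson_eq_maximalIdeal ⊥ bot_ne_top] at hn
  obtain ⟨L, hL, hρ⟩ := h n
  refine ⟨L, hL, fun σ hσ => ?_⟩
  have h0 : ρ σ - 1 = 0 := by
    ext i j
    have := hρ σ hσ i j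
    rw [hn] at this
    simpa using this
  exact sub_eq_zero.mp h0

end MRep

/-- a vector with all coordinates in `I` lies in `I • ⊤` -/
lemma pi_mem_smul_top {A : Type} [CommRing A] (I : Ideal A) (w : Fin 2 → A)
    (hw : ∀ i, w i ∈ I) : w ∈ I • (⊤ : Submodule A (Fin 2 → A)) := by
  have : w = ∑ i, w i • (Pi.single i (1 : A) : Fin 2 → A) := by
    ext j
    simp [Finset.sum_apply, Pi.single_apply]
  rw [this]
  exact Submodule.sum_mem _ fun i _ => Submodule.smul_mem_smul (hw i) Submodule.mem_top

/-- coordinates of elements of `I • ⊤` lie in `I` -/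
lemma repr_mem_of_mem_smul_top {A : Type} [CommRing A] {V : Type} [AddCommGroup V] [Module A V]
    (I : Ideal A) (b : Module.Basis (Fin 2) A V) {x : V}
    (hx : x ∈ I • (⊤ : Submodule A V)) (i : Fin 2) : b.repr x i ∈ I := by
  refine Submodule.smul_induction_on (p := fun x => b.repr x i ∈ I) hx ?_ ?_
  · intro a ha v _
    rw [map_smul, Finsupp.smul_apply, smul_eq_mul]
    exact Ideal.mul_mem_right _ _ ha
  · intro x y hx hy
    rw [map_add, Finsupp.add_apply]
    exact Ideal.add_mem _ hx hy

section ofMat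

variable {A B : Type} [CommRing A] [IsLocalRing A] [CommRing B] [IsLocalRing B]

/-- the adic Galois representation on `Fin 2 → A` attached to a continuous matrix representation -/
def ofMat (ρ : MRep A) (h : ρ.IsAdicCont) : GaloisRepAdic A where
  V := Fin 2 → A
  finrank_eq := by simp
  ρ := (Matrix.toLinAlgEquiv' : Matrix (Fin 2) (Fin 2) A ≃ₐ[A] _).toAlgHom.toRingHom.toMonoidHom.comp ρ
  isAdicContinuous := by
    intro n
    obtain ⟨L, hL, hρ⟩ := h n
    refine ⟨L, hL, fun σ hσ v => ?_⟩
    apply pi_mem_smul_top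
    intro i
    have h1 : ((Matrix.toLinAlgEquiv' : Matrix (Fin 2) (Fin 2) A ≃ₐ[A] _).toAlgHom.toRingHom.toMonoidHom.comp
        ρ σ v - v) i = ∑ j, (ρ σ - 1) i j * v j := by
      show ((ρ σ).mulVec v - v) i = _
      have : (ρ σ).mulVec v - v = (ρ σ - 1).mulVec v := by
        rw [Matrix.sub_mulVec, Matrix.one_mulVec]
      rw [this]
      rfl
    rw [h1]
    exact Ideal.sum_mem _ fun j _ => Ideal.mul_mem_right _ _ (hρ σ hσ i j)

@[simp] lemma ofMat_ρ_apply (ρ : MRep A) (h : ρ.IsAdicCont) (σ : GQ) (v : Fin 2 → A) :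
    (ofMat ρ h).ρ σ v = (ρ σ).mulVec v := rfl

/-- A1: base change of `ofMat` is `ofMat` of the entrywise image. -/
theorem ofMat_baseChangeAlong_isEquiv (ρ : MRep A) (h : ρ.IsAdicCont) (φ : A →+* B)
    (hφ : IsLocalHom φ) :
    ((ofMat ρ h).baseChangeAlong φ hφ).IsEquiv (ofMat (ρ.map φ) (h.map φ hφ)) := by
  let _ : Algebra A B := φ.toAlgebra
  let E : TensorProduct A B (Fin 2 → A) ≃ₗ[B] (Fin 2 → B) :=
    TensorProduct.piScalarRight A B B (Fin 2)
  have key : ∀ (σ : GQ) (x : TensorProduct A B (Fin 2 → A)),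
      E ((Matrix.toLin' (ρ σ)).baseChange B x) = (ρ.map φ σ).mulVec (E x) := by
    intro σ x
    induction x using TensorProduct.induction_on with
    | zero => simp
    | tmul b v =>
      rw [LinearMap.baseChange_tmul]
      simp only [E, TensorProduct.piScalarRight_apply, TensorProduct.piScalarRightHom_tmul]
      funext i
      simp only [Matrix.toLin'_apply, Matrix.mulVec, dotProduct, MRep.map_apply]
      rw [Finset.sum_smul]
      apply Finset.sum_congr rfl
      intro j _
      rw [mul_smul, Algebra.smul_def, Algebra.smul_def]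
      rfl
    | add x y hx hy => rw [map_add, map_add, hx, hy, map_add, Matrix.mulVec_add]
  exact ⟨{ toLinearEquiv := E, map_apply := fun σ x => key σ x }⟩

/-- A2: every adic representation is (after choosing a basis) of the form `ofMat`. -/
theorem exists_ofMat_isEquiv (ρA : GaloisRepAdic A) (b : Module.Basis (Fin 2) A ρA.V) :
    ∃ (ρ : MRep A) (h : ρ.IsAdicCont), ρA.IsEquiv (ofMat ρ h) ∧
      ∀ σ, ρ σ = LinearMap.toMatrix b b (ρA.ρ σ) := by
  let ρ : MRep A :=
    { toFun := fun σ => LinearMap.toMatrix b b (ρA.ρ σ)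
      map_one' := by simp [Module.End.one_eq_id]
      map_mul' := fun σ τ => by
        simp [Module.End.mul_eq_comp, LinearMap.toMatrix_comp b b b] }
  have hρ_apply : ∀ σ, ρ σ = LinearMap.toMatrix b b (ρA.ρ σ) := fun σ => rfl
  have h : ρ.IsAdicCont := by
    intro n
    obtain ⟨L, hL, hρ⟩ := ρA.isAdicContinuous n
    refine ⟨L, hL, fun σ hσ i j => ?_⟩
    have h1 : (ρ σ - 1) i j = b.repr (ρA.ρ σ (b j) - b j) i := by
      rw [Matrix.sub_apply, hρ_apply, LinearMap.toMatrix_apply, map_sub, Finsupp.sub_apply,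
        Module.Basis.repr_self, Matrix.one_apply, Finsupp.single_apply]
      congr 1
      by_cases hij : i = j
      · subst hij; simp
      · have hji : ¬ j = i := fun h => hij h.symm
        simp [hij, hji]
    rw [h1]
    exact repr_mem_of_mem_smul_top _ b (hρ σ hσ (b j)) i
  refine ⟨ρ, h, ⟨{ toLinearEquiv := b.equivFun, map_apply := ?_ }⟩, hρ_apply⟩
  intro σ x
  change b.equivFun (ρA.ρ σ x) = (LinearMap.toMatrix b b (ρA.ρ σ)).mulVec (b.equivFun x)
  exact (LinearMap.toMatrix_mulVec_repr b b (ρA.ρ σ) x).symm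

/-- A3: equivalence of `ofMat`s is conjugacy. -/
theorem ofMat_isEquiv_iff (ρ ρ' : MRep A) (h : ρ.IsAdicCont) (h' : ρ'.IsAdicCont) :
    (ofMat ρ h).IsEquiv (ofMat ρ' h') ↔
      ∃ M : (Matrix (Fin 2) (Fin 2) A)ˣ, ∀ σ, (M : Matrix (Fin 2) (Fin 2) A) * ρ σ = ρ' σ * M := by
  constructor
  · rintro ⟨e⟩
    let E : (Fin 2 → A) ≃ₗ[A] (Fin 2 → A) := e.toLinearEquiv
    have hE : ∀ σ (v : Fin 2 → A), E ((ρ σ).mulVec v) = (ρ' σ).mulVec (E v) :=
      fun σ v => e.map_apply σ v
    let M : Matrix (Fin 2) (Fin 2) A := LinearMap.toMatrix' E.toLinearMap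
    let M' : Matrix (Fin 2) (Fin 2) A := LinearMap.toMatrix' E.symm.toLinearMap
    have hMM' : M * M' = 1 := by
      rw [← LinearMap.toMatrix'_comp]
      simp
    have hM'M : M' * M = 1 := by
      rw [← LinearMap.toMatrix'_comp]
      simp
    have hMv : ∀ v : Fin 2 → A, M.mulVec v = E v := by
      intro v
      have := LinearMap.toMatrix'_mulVec E.toLinearMap v
      simp [M]
    refine ⟨⟨M, M', hMM', hM'M⟩, fun σ => ?_⟩
    apply Matrix.toLin'.injective
    apply LinearMap.ext
    intro v
    show (M * ρ σ).mulVec v = (ρ' σ * M).mulVec v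
    rw [← Matrix.mulVec_mulVec, ← Matrix.mulVec_mulVec, hMv, hMv, hE]
  · rintro ⟨M, hM⟩
    let E : (Fin 2 → A) ≃ₗ[A] (Fin 2 → A) :=
      LinearEquiv.ofLinearMap (Matrix.toLin' (M : Matrix (Fin 2) (Fin 2) A))
        (Matrix.toLin' ((M⁻¹ : (Matrix (Fin 2) (Fin 2) A)ˣ) : Matrix (Fin 2) (Fin 2) A))
        (by rw [← Matrix.toLin'_mul, Units.mul_inv, Matrix.toLin'_one])
        (by rw [← Matrix.toLin'_mul, Units.inv_mul, Matrix.toLin'_one])
    have hEv : ∀ v : Fin 2 → A, E v = (M : Matrix (Fin 2) (Fin 2) A).mulVec v := fun v => rfl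
    have key : ∀ (σ : GQ) (v : Fin 2 → A), E ((ρ σ).mulVec v) = (ρ' σ).mulVec (E v) := by
      intro σ v
      rw [hEv, hEv, Matrix.mulVec_mulVec, Matrix.mulVec_mulVec, hM σ]
    exact ⟨{ toLinearEquiv := E, map_apply := fun σ v => key σ v }⟩

end ofMat

section residual

variable {k : Type} [Field k] (ρbar : ResidualGaloisRep k) (bbar : Module.Basis (Fin 2) k ρbar.V)

/-- the matrix form of the residual representation in the basis `bbar` -/
def residualMat : MRep k where
  toFun σ := LinearMap.toMatrix bbar bbar (ρbar.ρ σ)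
  map_one' := by simp [Module.End.one_eq_id]
  map_mul' σ τ := by simp [Module.End.mul_eq_comp, LinearMap.toMatrix_comp bbar bbar bbar]

variable {A : Type} [CommRing A] [IsLocalRing A]

/-- `ρ` lifts the residual matrix representation along `ψ : k →+* ResidueField A` -/
def IsLiftOf (ψ : k →+* ResidueField A) (ρ : MRep A) : Prop :=
  ∀ σ i j, residue A (ρ σ i j) = ψ (residualMat ρbar bbar σ i j)

/-- A4: a lift of the residual matrix representation has the right residual representation. -/
theorem residual_ofMat_isEquiv (ψ : k →+* ResidueField A) (ρ : MRep A) (h : ρ.IsAdicCont)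
    (hl : IsLiftOf ρbar bbar ψ ρ) :
    (ofMat ρ h).residual.IsEquiv (ρbar.baseChangeAlong ψ) := by
  let _ : Algebra k (ResidueField A) := ψ.toAlgebra
  let E1 : TensorProduct A (ResidueField A) (Fin 2 → A) ≃ₗ[ResidueField A]
      (Fin 2 → ResidueField A) :=
    TensorProduct.piScalarRight A (ResidueField A) (ResidueField A) (Fin 2)
  let bK : Module.Basis (Fin 2) (ResidueField A) (TensorProduct k (ResidueField A) ρbar.V) :=
    Algebra.TensorProduct.basis (ResidueField A) bbar
  let E2 : TensorProduct k (ResidueField A) ρbar.V ≃ₗ[ResidueField A]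
      (Fin 2 → ResidueField A) := bK.equivFun
  -- the common matrix
  let Mσ : GQ → Matrix (Fin 2) (Fin 2) (ResidueField A) := fun σ =>
    (residualMat ρbar bbar σ).map ψ
  have key1 : ∀ (σ : GQ) (x : TensorProduct A (ResidueField A) (Fin 2 → A)),
      E1 ((Matrix.toLin' (ρ σ)).baseChange (ResidueField A) x) = (Mσ σ).mulVec (E1 x) := by
    intro σ x
    induction x using TensorProduct.induction_on with
    | zero => simp
    | tmul b v =>
      rw [LinearMap.baseChange_tmul]
      simp only [E1, TensorProduct.piScalarRight_apply, TensorProduct.piScalarRightHom_tmul]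
      funext i
      simp only [Matrix.toLin'_apply, Matrix.mulVec, dotProduct, Mσ, Matrix.map_apply]
      rw [Finset.sum_smul]
      apply Finset.sum_congr rfl
      intro j _
      rw [← hl σ i j, mul_smul, Algebra.smul_def, Algebra.smul_def]
      rfl
    | add x y hx hy => rw [map_add, map_add, hx, hy, map_add, Matrix.mulVec_add]
  have key2 : ∀ (σ : GQ) (y : TensorProduct k (ResidueField A) ρbar.V),
      E2 ((ρbar.ρ σ).baseChange (ResidueField A) y) = (Mσ σ).mulVec (E2 y) := by
    intro σ y
    have h1 := LinearMap.toMatrix_mulVec_repr bK bK ((ρbar.ρ σ).baseChange (ResidueField A)) y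
    have h2 : LinearMap.toMatrix bK bK ((ρbar.ρ σ).baseChange (ResidueField A)) = Mσ σ :=
      LinearMap.toMatrix_baseChange (ResidueField A) (ρbar.ρ σ) bbar bbar
    rw [h2] at h1
    exact h1.symm
  let E : TensorProduct A (ResidueField A) (Fin 2 → A) ≃ₗ[ResidueField A]
      TensorProduct k (ResidueField A) ρbar.V := E1.trans E2.symm
  have key : ∀ (σ : GQ) (x : TensorProduct A (ResidueField A) (Fin 2 → A)),
      E ((Matrix.toLin' (ρ σ)).baseChange (ResidueField A) x) =
        (ρbar.ρ σ).baseChange (ResidueField A) (E x) := by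
    intro σ x
    apply E2.injective
    rw [key2]
    simp only [E, LinearEquiv.trans_apply, LinearEquiv.apply_symm_apply]
    exact key1 σ x
  exact ⟨{ toLinearEquiv := E, map_apply := fun σ x => key σ x }⟩

/-- A5: a deformation of `ρbar` can be written as `ofMat` of a lift of the residual matrices. -/
theorem exists_lift_ofMat_isEquiv (ψ : k →+* ResidueField A) (ρA : GaloisRepAdic A)
    (e : ρA.residual.IsEquiv (ρbar.baseChangeAlong ψ)) :
    ∃ (ρ : MRep A) (h : ρ.IsAdicCont), ρA.IsEquiv (ofMat ρ h) ∧ IsLiftOf ρbar bbar ψ ρ := by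
  obtain ⟨e⟩ := e
  let _ : Algebra k (ResidueField A) := ψ.toAlgebra
  let eL : TensorProduct A (ResidueField A) ρA.V ≃ₗ[ResidueField A]
      TensorProduct k (ResidueField A) ρbar.V := e.toLinearEquiv
  have heL : ∀ (σ : GQ) (x : TensorProduct A (ResidueField A) ρA.V),
      eL ((ρA.ρ σ).baseChange (ResidueField A) x) =
        (ρbar.ρ σ).baseChange (ResidueField A) (eL x) := fun σ x => e.map_apply σ x
  let bK : Module.Basis (Fin 2) (ResidueField A) (TensorProduct k (ResidueField A) ρbar.V) :=
    Algebra.TensorProduct.basis (ResidueField A) bbar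
  let w : Module.Basis (Fin 2) (ResidueField A) (TensorProduct A (ResidueField A) ρA.V) :=
    bK.map eL.symm
  have hsurj : Function.Surjective (TensorProduct.mk A (ResidueField A) ρA.V 1) :=
    TensorProduct.mk_surjective A ρA.V (ResidueField A) Ideal.Quotient.mk_surjective
  choose v hv using fun i => hsurj (w i)
  have hli : LinearIndependent (ResidueField A)
      (TensorProduct.mk A (ResidueField A) ρA.V 1 ∘ v) := by
    have : TensorProduct.mk A (ResidueField A) ρA.V 1 ∘ v = w := by
      funext i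
      exact hv i
    rw [this]
    exact w.linearIndependent
  have hspan : Submodule.span A (Set.range v) = ⊤ :=
    IsLocalRing.span_eq_top_of_tmul_eq_basis v w hv
  let b : Module.Basis (Fin 2) A ρA.V :=
    Module.Basis.mk (Module.IsLocalRing.linearIndependent_of_flat v hli) hspan.ge
  have hb : ∀ i, b i = v i := fun i => by simp [b]
  obtain ⟨ρ, h, hequiv, hρ⟩ := exists_ofMat_isEquiv ρA b
  refine ⟨ρ, h, hequiv, ?_⟩
  intro σ i j
  -- the base changed basis of `b` is carried to `bK` by `eL`
  let bA : Module.Basis (Fin 2) (ResidueField A) (TensorProduct A (ResidueField A) ρA.V) :=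
    Algebra.TensorProduct.basis (ResidueField A) b
  have hbA : ∀ j, bA j = w j := by
    intro j
    rw [Algebra.TensorProduct.basis_apply, hb, ← hv j]
    rfl
  have hbK : bA.map eL = bK := by
    apply Module.Basis.eq_of_apply_eq
    intro j
    rw [Module.Basis.map_apply, hbA]
    simp [w]
  have h1 : LinearMap.toMatrix bA bA ((ρA.ρ σ).baseChange (ResidueField A)) =
      (ρ σ).map (residue A) := by
    rw [hρ σ]
    exact LinearMap.toMatrix_baseChange (ResidueField A) (ρA.ρ σ) b b
  have h2 : LinearMap.toMatrix bK bK ((ρbar.ρ σ).baseChange (ResidueField A)) =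
      (residualMat ρbar bbar σ).map ψ :=
    LinearMap.toMatrix_baseChange (ResidueField A) (ρbar.ρ σ) bbar bbar
  have h3 : LinearMap.toMatrix bK bK ((ρbar.ρ σ).baseChange (ResidueField A)) =
      LinearMap.toMatrix bA bA ((ρA.ρ σ).baseChange (ResidueField A)) := by
    ext i j
    rw [LinearMap.toMatrix_apply, LinearMap.toMatrix_apply, ← hbK, Module.Basis.map_apply,
      ← heL, Module.Basis.map_repr, LinearEquiv.trans_apply, LinearEquiv.symm_apply_apply]
  have := congrFun (congrFun (h1.symm.trans (h3.symm.trans h2)) i) j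
  simpa [Matrix.map_apply] using this

end residual

end Fermat.Agent.S53
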