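import Mathlib
import Fermat.Agent.S53.Bridge

set_option autoImplicit false

noncomputable section

namespace Fermat.Agent.S53

open IsLocalRing

/-- index type of matrix entries of a representation -/
abbrev X : Type := GQ × Fin 2 × Fin 2

section RigidData

variable (𝒪 : Type) [CommRing 𝒪] [IsLocalRing 𝒪] (ρbar : ResidualGaloisRep (ResidueField 𝒪))

/-- Rigidification data extracted from absolute irreducibility. -/
structure RigidData where
  bbar : Module.Basis (Fin 2) (ResidueField 𝒪) ρbar.V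
  g0 : GQ
  g1 : GQ
  i0 : Fin 2
  j0 : Fin 2
  c0 : 𝒪
  col0 : residualMat ρbar bbar g0 0 0 = 0 ∧ residualMat ρbar bbar g0 1 0 = 1
  comm_ne : (residualMat ρbar bbar g1 * residualMat ρbar bbar g0
      - residualMat ρbar bbar g0 * residualMat ρbar bbar g1) i0 j0 ≠ 0
  c0_spec : residue 𝒪 c0 = residualMat ρbar bbar g1 i0 j0
  schur : ∀ M : Matrix (Fin 2) (Fin 2) (ResidueField 𝒪),
    (∀ σ, M * residualMat ρbar bbar σ = residualMat ρbar bbar σ * M) →
      ∃ c : ResidueField 𝒪, M = Matrix.scalar (Fin 2) c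

variable {𝒪 ρbar} (rd : RigidData 𝒪 ρbar) {A : Type} [CommRing A] [IsLocalRing A] [Algebra 𝒪 A]

/-- `ρ` reduces to the residual matrices (formulation not needing `IsLocalHom (algebraMap 𝒪 A)`) -/
def IsLift (ρ : MRep A) : Prop :=
  ∀ σ i j, ∃ c : 𝒪, residue 𝒪 c = residualMat ρbar rd.bbar σ i j ∧
    ρ σ i j - algebraMap 𝒪 A c ∈ maximalIdeal A

/-- the normal form -/
def IsNormalized (ρ : MRep A) : Prop :=
  ρ rd.g0 0 0 = 0 ∧ ρ rd.g0 1 0 = 1 ∧ ρ rd.g1 rd.i0 rd.j0 = algebraMap 𝒪 A rd.c0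

end RigidData

section Functor

variable (𝒪 : Type) [CommRing 𝒪] [IsLocalRing 𝒪] (ρbar : ResidualGaloisRep (ResidueField 𝒪))
  (𝒟 : ∀ ⦃A : Type⦄ [CommRing A] [IsLocalRing A] [Algebra 𝒪 A], GaloisRepAdic A → Prop)
  (rd : RigidData 𝒪 ρbar)

/-- The predicate on `X`-points to be pro-represented: normalised matrix lifts of type `𝒟`. -/
def IsSDef ⦃A : Type⦄ [CommRing A] [IsLocalRing A] [Algebra 𝒪 A] (x : X → A) : Prop :=
  ∃ (ρ : MRep A) (h : ρ.IsAdicCont), (∀ σ i j, ρ σ i j = x (σ, i, j)) ∧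
    IsLift rd ρ ∧ IsNormalized rd ρ ∧ 𝒟 (ofMat ρ h)

end Functor

end Fermat.Agent.S53
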