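import Mathlib

set_option autoImplicit false

namespace Fermat.Agent.S53

open Matrix IsLocalRing Polynomial

section Quadratic

variable {A : Type*} [CommRing A] [IsLocalRing A] [HenselianRing A (maximalIdeal A)]

/-- Hensel for a (possibly non-monic) quadratic with a simple root `0` modulo the maximal ideal. -/
theorem exists_root_quadratic (f0 f1 f2 : A) (h0 : f0 ∈ maximalIdeal A) (h1 : IsUnit f1) :
    ∃ b ∈ maximalIdeal A, f0 + f1 * b + f2 * b ^ 2 = 0 := by
  have hg : (X ^ 2 + C f1 * X + C (f0 * f2) : A[X]).Monic := by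
    monicity!
  have hev : (X ^ 2 + C f1 * X + C (f0 * f2) : A[X]).eval 0 = f0 * f2 := by
    simp
  have hder : (derivative (X ^ 2 + C f1 * X + C (f0 * f2) : A[X])).eval 0 = f1 := by
    simp
  obtain ⟨y, hy, hy0⟩ := HenselianRing.is_henselian (I := maximalIdeal A)
    (X ^ 2 + C f1 * X + C (f0 * f2) : A[X]) hg 0
    (by rw [hev]; exact Ideal.mul_mem_right _ _ h0)
    (by rw [hder]; exact h1.map (Ideal.Quotient.mk (maximalIdeal A)))
  rw [sub_zero] at hy0
  have hu : IsUnit (f1 + y) := by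
    by_contra hcon
    have hmem : f1 + y ∈ maximalIdeal A := (mem_maximalIdeal _).mpr hcon
    have : f1 ∈ maximalIdeal A := by
      have := Ideal.sub_mem _ hmem hy0
      simpa using this
    exact ((mem_maximalIdeal _).mp this) h1
  obtain ⟨u, hu⟩ := hu
  refine ⟨-f0 * ↑u⁻¹, Ideal.mul_mem_right _ _ (Ideal.neg_mem_iff _ |>.mpr h0), ?_⟩
  have hroot : y ^ 2 + f1 * y + f0 * f2 = 0 := by
    have := hy
    simpa [IsRoot] using this
  have huinv : (f1 + y) * ↑u⁻¹ = 1 := by rw [← hu]; exact u.mul_inv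
  -- y = f2 * b where b = -f0 / (f1 + y)
  have hy2 : y = f2 * (-f0 * ↑u⁻¹) := by
    have h : y * (f1 + y) = -(f0 * f2) := by linear_combination hroot
    calc y = y * ((f1 + y) * ↑u⁻¹) := by rw [huinv, mul_one]
      _ = (y * (f1 + y)) * ↑u⁻¹ := by ring
      _ = f2 * (-f0 * ↑u⁻¹) := by rw [h]; ring
  calc f0 + f1 * (-f0 * ↑u⁻¹) + f2 * (-f0 * ↑u⁻¹) ^ 2
      = f0 + (-f0 * ↑u⁻¹) * (f1 + f2 * (-f0 * ↑u⁻¹)) := by ring
    _ = f0 + (-f0 * ↑u⁻¹) * (f1 + y) := by rw [← hy2]
    _ = f0 - f0 * ((f1 + y) * ↑u⁻¹) := by ring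
    _ = 0 := by rw [huinv]; ring

end Quadratic

section Slice

variable {A : Type*} [CommRing A] [IsLocalRing A]

theorem isUnit_add_of_mem_maximalIdeal {x y : A} (hx : IsUnit x) (hy : y ∈ maximalIdeal A) :
    IsUnit (x + y) := by
  by_contra hcon
  have hmem : x + y ∈ maximalIdeal A := (mem_maximalIdeal _).mpr hcon
  have : x ∈ maximalIdeal A := by
    have := Ideal.sub_mem _ hmem hy
    simpa using this
  exact ((mem_maximalIdeal _).mp this) hx

/-- Uniqueness of the rigidified (slice) form inside a conjugacy class. -/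
theorem slice_unique {G : Type*} [Monoid G] (r r' : G →* Matrix (Fin 2) (Fin 2) A) (g1 g2 : G)
    (i j : Fin 2)
    (h00 : r g1 0 0 = 0) (h10 : r g1 1 0 = 1)
    (h00' : r' g1 0 0 = 0) (h10' : r' g1 1 0 = 1)
    (hij : r g2 i j = r' g2 i j)
    (hred : ∀ a b, r' g2 a b - r g2 a b ∈ maximalIdeal A)
    (hcomm : IsUnit ((r g1 * r g2 - r g2 * r g1) i j))
    (P : Matrix (Fin 2) (Fin 2) A) (hP : ∀ g, P * r g = r' g * P)
    (hP00 : IsUnit (P 0 0)) (hP10 : P 1 0 ∈ maximalIdeal A) :
    P = P 0 0 • (1 : Matrix (Fin 2) (Fin 2) A) ∧ r = r' := by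
  -- entries of the relation at g1
  have e1 := hP g1
  have e00 := congrFun (congrFun e1 0) 0
  have e10 := congrFun (congrFun e1 1) 0
  have e01 := congrFun (congrFun e1 0) 1
  have e11 := congrFun (congrFun e1 1) 1
  simp only [Matrix.mul_apply, Fin.sum_univ_two, h00, h10, h00', h10', mul_zero, mul_one,
    zero_mul, one_mul, zero_add] at e00 e10 e01 e11
  -- e00 : P 0 1 = r' g1 0 1 * P 1 0 ; e10 : P 1 1 = P 0 0 + r' g1 1 1 * P 1 0
  set a := P 0 0 with ha
  set b := P 1 0 with hb
  set n := r g1 0 1 with hn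
  set t := r g1 1 1 with ht
  set n' := r' g1 0 1 with hn'
  set t' := r' g1 1 1 with ht'
  have hdet : IsUnit (a * (a + t' * b) - n' * b * b) := by
    have : a * (a + t' * b) - n' * b * b = a * a + (a * t' - n' * b) * b := by ring
    rw [this]
    exact isUnit_add_of_mem_maximalIdeal (hP00.mul hP00) (Ideal.mul_mem_left _ _ hP10)
  have hv : t = t' := by
    have h1 : (a * (a + t' * b) - n' * b * b) * (t - t') = 0 := by
      rw [e00, e10] at e01 e11
      linear_combination a * e11 - b * e01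
    have := (hdet.mul_right_eq_zero).mp h1
    exact sub_eq_zero.mp this
  have hu : n = n' := by
    rw [e00, e10, hv] at e01
    have h1 : a * (n - n') = 0 := by linear_combination e01
    have := (hP00.mul_right_eq_zero).mp h1
    exact sub_eq_zero.mp this
  -- now use g2 to show b = 0
  have e2 := congrFun (congrFun (hP g2) i) j
  have hN : r' g1 = r g1 := by
    ext x y
    fin_cases x <;> fin_cases y
    · exact h00'.trans h00.symm
    · exact hu.symm
    · exact h10'.trans h10.symm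
    · exact hv.symm
  have hPform : P = a • (1 : Matrix (Fin 2) (Fin 2) A) + b • r g1 := by
    ext x y
    fin_cases x <;> fin_cases y
    · simp [h00, ha]
    · simp [e00, mul_comm]
      rw [← hu]
    · simp [h10, hb]
    · simp [e10, mul_comm]
      rw [← hv]
  have hb0 : b = 0 := by
    have h1 : b * ((r g1 * r g2 - r g2 * r g1) i j - ((r' g2 - r g2) * r g1) i j) = 0 := by
      have h2 : P * r g2 - r' g2 * P = 0 := sub_eq_zero.mpr (hP g2)
      rw [hPform] at h2
      have h3 : (a • (1 : Matrix (Fin 2) (Fin 2) A) + b • r g1) * r g2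
          - r' g2 * (a • (1 : Matrix (Fin 2) (Fin 2) A) + b • r g1)
          = a • (r g2 - r' g2) + b • ((r g1 * r g2 - r g2 * r g1) - (r' g2 - r g2) * r g1) := by
        simp only [add_mul, mul_add, smul_mul_assoc, mul_smul_comm, one_mul, mul_one, sub_mul,
          smul_sub]
        abel
      rw [h3] at h2
      have h4 := congrFun (congrFun h2 i) j
      simp only [Matrix.add_apply, Matrix.smul_apply, Matrix.sub_apply, Matrix.zero_apply,
        smul_eq_mul, hij, sub_self, mul_zero, zero_add] at h4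
      simpa using h4
    have hunit : IsUnit ((r g1 * r g2 - r g2 * r g1) i j - ((r' g2 - r g2) * r g1) i j) := by
      rw [sub_eq_add_neg]
      refine isUnit_add_of_mem_maximalIdeal hcomm (Ideal.neg_mem_iff _ |>.mpr ?_)
      rw [Matrix.mul_apply]
      refine Ideal.sum_mem _ fun x _ => Ideal.mul_mem_right _ _ ?_
      rw [Matrix.sub_apply]
      exact hred i x
    exact (hunit.mul_left_eq_zero).mp h1
  have hPa : P = a • (1 : Matrix (Fin 2) (Fin 2) A) := by
    rw [hPform, hb0, zero_smul, add_zero]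
  refine ⟨hPa, ?_⟩
  ext g x y
  have h5 := congrFun (congrFun (hP g) x) y
  rw [hPa] at h5
  simp only [smul_mul_assoc, mul_smul_comm, one_mul, mul_one, Matrix.smul_apply, smul_eq_mul] at h5
  exact hP00.mul_left_cancel h5

end Slice

section SliceExist

variable {A : Type*} [CommRing A] [IsLocalRing A]

/-- Entrywise reduction of `2 × 2` matrices modulo the maximal ideal. -/
noncomputable abbrev red :
    Matrix (Fin 2) (Fin 2) A →+* Matrix (Fin 2) (Fin 2) (ResidueField A) :=
  (residue A).mapMatrix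

theorem red_apply (M : Matrix (Fin 2) (Fin 2) A) (x y : Fin 2) :
    red M x y = residue A (M x y) := rfl

/-- Step 1: conjugate into companion form. -/
theorem exists_companion_conj (N : Matrix (Fin 2) (Fin 2) A)
    (h00 : red N 0 0 = 0) (h10 : red N 1 0 = 1) :
    ∃ P Pinv : Matrix (Fin 2) (Fin 2) A, P * Pinv = 1 ∧ Pinv * P = 1 ∧ red P = 1 ∧
      red Pinv = 1 ∧ (Pinv * N * P) 0 0 = 0 ∧ (Pinv * N * P) 1 0 = 1 := by
  rw [red_apply] at h00 h10
  have hu : IsUnit (N 1 0) := by
    rw [← residue_ne_zero_iff_isUnit, h10]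
    exact one_ne_zero
  obtain ⟨u, hu⟩ := hu
  have huinv : N 1 0 * ↑u⁻¹ = 1 := by rw [← hu]; exact u.mul_inv
  have huinv' : ↑u⁻¹ * N 1 0 = 1 := by rw [← hu]; exact u.inv_mul
  have hres : residue A (↑u⁻¹ : A) = 1 := by
    have := congrArg (residue A) huinv
    rw [map_mul, h10, one_mul, map_one] at this
    exact this
  refine ⟨!![1, N 0 0; 0, N 1 0], !![1, -(N 0 0 * ↑u⁻¹); 0, ↑u⁻¹], ?_, ?_, ?_, ?_, ?_, ?_⟩
  · ext x y
    fin_cases x <;> fin_cases y <;> simp [Matrix.mul_apply, Fin.sum_univ_two, huinv]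
  · ext x y
    fin_cases x <;> fin_cases y <;> simp [Matrix.mul_apply, Fin.sum_univ_two, huinv']
    ring_nf
    rw [mul_assoc, huinv']
    ring
  · ext x y
    fin_cases x <;> fin_cases y <;> simp [red_apply, h00, h10]
  · ext x y
    fin_cases x <;> fin_cases y <;> simp [red_apply, h00, hres]
  · simp [Matrix.mul_apply, Fin.sum_univ_two, Matrix.vecMul, dotProduct]
    linear_combination (-(N 0 0)) * huinv'
  · simp [Matrix.mul_apply, Fin.sum_univ_two, Matrix.vecMul, dotProduct, huinv']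

/-- Step 2: pin one entry of a second matrix by conjugating with `1 + b N`. -/
theorem exists_pin_conj [HenselianRing A (maximalIdeal A)] (N X : Matrix (Fin 2) (Fin 2) A)
    (i j : Fin 2) (c : A) (hc : residue A (X i j) = residue A c)
    (hcomm : (red N * red X - red X * red N) i j ≠ 0) :
    ∃ Q Qinv : Matrix (Fin 2) (Fin 2) A, Q * Qinv = 1 ∧ Qinv * Q = 1 ∧ red Q = 1 ∧
      red Qinv = 1 ∧ Q * N = N * Q ∧ (Q * X * Qinv) i j = c := by
  set t : A := N 0 0 + N 1 1 with ht
  set δ : A := N 0 0 * N 1 1 - N 0 1 * N 1 0 with hδ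
  set adjN : Matrix (Fin 2) (Fin 2) A := t • (1 : Matrix (Fin 2) (Fin 2) A) - N with hadj
  set f0 : A := X i j - c with hf0
  set f1 : A := (N * X - X * N) i j + t * (X i j - c) with hf1
  set f2 : A := (N * X * adjN) i j - c * δ with hf2
  have h0 : f0 ∈ maximalIdeal A := by
    rw [← residue_eq_zero_iff, hf0, map_sub, hc, sub_self]
  have h1 : IsUnit f1 := by
    rw [← residue_ne_zero_iff_isUnit, hf1, map_add, map_mul, map_sub, hc, sub_self, mul_zero,
      add_zero]
    have : residue A ((N * X - X * N) i j) = (red N * red X - red X * red N) i j := by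
      rw [← map_mul, ← map_mul, ← map_sub]
      rfl
    rw [this]
    exact hcomm
  obtain ⟨b, hb, hroot⟩ := exists_root_quadratic f0 f1 f2 h0 h1
  have hbres : residue A b = 0 := (residue_eq_zero_iff b).mpr hb
  set d : A := 1 + b * t + b ^ 2 * δ with hd
  have hdu : IsUnit d := by
    have : d = 1 + (b * t + b ^ 2 * δ) := by rw [hd]; ring
    rw [this]
    refine isUnit_add_of_mem_maximalIdeal isUnit_one ?_
    refine Ideal.add_mem _ (Ideal.mul_mem_right _ _ hb) ?_
    rw [pow_two, mul_assoc]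
    exact Ideal.mul_mem_right _ _ hb
  obtain ⟨u, hu⟩ := hdu
  have hdinv : d * ↑u⁻¹ = 1 := by rw [← hu]; exact u.mul_inv
  have hdinv' : ↑u⁻¹ * d = 1 := by rw [← hu]; exact u.inv_mul
  have hdres : residue A d = 1 := by
    rw [hd, map_add, map_add, map_mul, map_mul, map_pow, hbres]
    simp
  have hures : residue A (↑u⁻¹ : A) = 1 := by
    have := congrArg (residue A) hdinv
    rw [map_mul, hdres, one_mul, map_one] at this
    exact this
  have hQQ : (1 + b • N) * (1 + b • adjN) = d • (1 : Matrix (Fin 2) (Fin 2) A) := by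
    ext x y
    fin_cases x <;> fin_cases y <;>
      simp [Matrix.mul_apply, Fin.sum_univ_two, hadj, hd, ht, hδ, Matrix.one_apply] <;> ring
  have hQQ' : (1 + b • adjN) * (1 + b • N) = d • (1 : Matrix (Fin 2) (Fin 2) A) := by
    ext x y
    fin_cases x <;> fin_cases y <;>
      simp [Matrix.mul_apply, Fin.sum_univ_two, hadj, hd, ht, hδ, Matrix.one_apply] <;> ring
  refine ⟨1 + b • N, (↑u⁻¹ : A) • (1 + b • adjN), ?_, ?_, ?_, ?_, ?_, ?_⟩
  · rw [mul_smul_comm, hQQ, smul_smul, hdinv', one_smul]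
  · rw [smul_mul_assoc, hQQ', smul_smul, hdinv', one_smul]
  · ext x y
    simp [red_apply, Matrix.one_apply, hbres]
  · ext x y
    simp only [red_apply, Matrix.smul_apply, Matrix.add_apply, smul_eq_mul, map_mul, map_add,
      hures, hbres, zero_mul, add_zero, one_mul]
    rw [Matrix.one_apply, Matrix.one_apply]
    split_ifs <;> simp
  · simp [add_mul, mul_add]
  · have key : ((1 + b • N) * X * (1 + b • adjN)) i j = c * d + (f0 + f1 * b + f2 * b ^ 2) := by
      fin_cases i <;> fin_cases j <;>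
        simp [Matrix.mul_apply, Fin.sum_univ_two, hadj, hd, ht, hδ, hf0, hf1, hf2,
          Matrix.one_apply] <;> ring
    rw [mul_smul_comm, Matrix.smul_apply, key, hroot, add_zero, smul_eq_mul]
    linear_combination c * hdinv'

/-- Existence of the rigidified (slice) form inside a conjugacy class. -/
theorem exists_slice_conj [HenselianRing A (maximalIdeal A)] {G : Type*} [Monoid G]
    (r : G →* Matrix (Fin 2) (Fin 2) A) (g1 g2 : G) (i j : Fin 2) (c : A)
    (h00 : red (r g1) 0 0 = 0) (h10 : red (r g1) 1 0 = 1)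
    (hc : residue A (r g2 i j) = residue A c)
    (hcomm : (red (r g1) * red (r g2) - red (r g2) * red (r g1)) i j ≠ 0) :
    ∃ P Pinv : Matrix (Fin 2) (Fin 2) A, P * Pinv = 1 ∧ Pinv * P = 1 ∧ red P = 1 ∧
      red Pinv = 1 ∧ (P * r g1 * Pinv) 0 0 = 0 ∧ (P * r g1 * Pinv) 1 0 = 1 ∧
      (P * r g2 * Pinv) i j = c := by
  obtain ⟨P1, P1inv, h1, h1', hr1, hr1', hN00, hN10⟩ := exists_companion_conj (r g1) h00 h10
  have hredN : red (P1inv * r g1 * P1) = red (r g1) := by
    rw [map_mul, map_mul, hr1, hr1', one_mul, mul_one]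
  have hredX : red (P1inv * r g2 * P1) = red (r g2) := by
    rw [map_mul, map_mul, hr1, hr1', one_mul, mul_one]
  have hcX : residue A ((P1inv * r g2 * P1) i j) = residue A c := by
    rw [← red_apply, hredX, red_apply, hc]
  obtain ⟨Q, Qinv, h2, h2', hr2, hr2', hQN, hQX⟩ :=
    exists_pin_conj (P1inv * r g1 * P1) (P1inv * r g2 * P1) i j c hcX
      (by rw [hredN, hredX]; exact hcomm)
  have hconj : ∀ M : Matrix (Fin 2) (Fin 2) A,
      Q * P1inv * M * (P1 * Qinv) = Q * (P1inv * M * P1) * Qinv := by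
    intro M
    simp only [mul_assoc]
  have hg1 : Q * P1inv * r g1 * (P1 * Qinv) = P1inv * r g1 * P1 := by
    rw [hconj, hQN, mul_assoc, h2, mul_one]
  refine ⟨Q * P1inv, P1 * Qinv, ?_, ?_, ?_, ?_, ?_, ?_, ?_⟩
  · calc Q * P1inv * (P1 * Qinv) = Q * (P1inv * P1) * Qinv := by simp only [mul_assoc]
      _ = 1 := by rw [h1', mul_one, h2]
  · calc P1 * Qinv * (Q * P1inv) = P1 * (Qinv * Q) * P1inv := by simp only [mul_assoc]
      _ = 1 := by rw [h2', mul_one, h1]
  · rw [map_mul, hr2, hr1', mul_one]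
  · rw [map_mul, hr1, hr2', mul_one]
  · rw [hg1]; exact hN00
  · rw [hg1]; exact hN10
  · rw [hconj]; exact hQX

end SliceExist

end Fermat.Agent.S53
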