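import Mathlib
import Fermat.Agent.S53.RigidDefs
import Fermat.Agent.S53.Slice

set_option autoImplicit false
set_option linter.unusedSectionVars false

noncomputable section

namespace Fermat.Agent.S53

open IsLocalRing Matrix

namespace NF

section Conj

variable {A : Type} [CommRing A] [IsLocalRing A]

/-- conjugate a matrix representation by an invertible matrix -/
def conj (ρ : MRep A) (P Pinv : Matrix (Fin 2) (Fin 2) A) (h' : Pinv * P = 1) :
    MRep A where
  toFun σ := P * ρ σ * Pinv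
  map_one' := by
    rw [map_one, mul_one]
    exact mul_eq_one_comm.mp h'
  map_mul' σ τ := by
    rw [map_mul]
    calc P * (ρ σ * ρ τ) * Pinv = P * ρ σ * (1 : Matrix (Fin 2) (Fin 2) A) * (ρ τ * Pinv) := by
          simp only [mul_one, mul_assoc]
      _ = P * ρ σ * (Pinv * P) * (ρ τ * Pinv) := by rw [h']
      _ = P * ρ σ * Pinv * (P * ρ τ * Pinv) := by simp only [mul_assoc]

@[simp] lemma conj_apply (ρ : MRep A) (P Pinv : Matrix (Fin 2) (Fin 2) A) (h' : Pinv * P = 1)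
    (σ : GQ) : conj ρ P Pinv h' σ = P * ρ σ * Pinv := rfl

lemma mul_entries_mem (I : Ideal A) (P M Q : Matrix (Fin 2) (Fin 2) A)
    (hM : ∀ i j, M i j ∈ I) : ∀ i j, (P * M * Q) i j ∈ I := by
  intro i j
  rw [Matrix.mul_apply]
  refine Ideal.sum_mem _ fun x _ => Ideal.mul_mem_right _ _ ?_
  rw [Matrix.mul_apply]
  exact Ideal.sum_mem _ fun y _ => Ideal.mul_mem_left _ _ (hM y x)

lemma conj_isAdicCont {ρ : MRep A} (h : ρ.IsAdicCont) (P Pinv : Matrix (Fin 2) (Fin 2) A)
    (h' : Pinv * P = 1) : (conj ρ P Pinv h').IsAdicCont := by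
  intro n
  obtain ⟨L, hL, hσ⟩ := h n
  refine ⟨L, hL, fun σ hfix => ?_⟩
  have h1 : P * Pinv = 1 := mul_eq_one_comm.mp h'
  have : conj ρ P Pinv h' σ - 1 = P * (ρ σ - 1) * Pinv := by
    rw [conj_apply, mul_sub, sub_mul, mul_one, h1]
  rw [this]
  exact mul_entries_mem _ P _ Pinv (hσ σ hfix)

end Conj

end NF

section Lift

variable {𝒪 : Type} [CommRing 𝒪] [IsLocalRing 𝒪] {ρbar : ResidualGaloisRep (ResidueField 𝒪)}
variable (rd : RigidData 𝒪 ρbar) {A : Type} [CommRing A] [IsLocalRing A] [Algebra 𝒪 A]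

theorem isLift_iff_isLiftOf [IsLocalHom (algebraMap 𝒪 A)] (ρ : MRep A) :
    IsLift rd ρ ↔ IsLiftOf ρbar rd.bbar (ResidueField.map (algebraMap 𝒪 A)) ρ := by
  constructor
  · intro h σ i j
    obtain ⟨c, hc, hmem⟩ := h σ i j
    have h1 : residue A (ρ σ i j) = residue A (algebraMap 𝒪 A c) := by
      have := (residue_eq_zero_iff _).mpr hmem
      rwa [map_sub, sub_eq_zero] at this
    rw [h1, ← hc]
    exact (ResidueField.map_residue (algebraMap 𝒪 A) c).symm
  · intro h σ i j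
    obtain ⟨c, hc⟩ := residue_surjective (residualMat ρbar rd.bbar σ i j)
    refine ⟨c, hc, ?_⟩
    rw [← residue_eq_zero_iff, map_sub, sub_eq_zero, h σ i j, ← hc]
    exact (ResidueField.map_residue (algebraMap 𝒪 A) c).symm

lemma red_eq_of_isLiftOf {ψ : ResidueField 𝒪 →+* ResidueField A} {ρ : MRep A}
    (h : IsLiftOf ρbar rd.bbar ψ ρ) (σ : GQ) :
    red (ρ σ) = (ψ.mapMatrix : Matrix (Fin 2) (Fin 2) _ →+* _) (residualMat ρbar rd.bbar σ) := by
  ext i j
  rw [red_apply, h σ i j]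
  rfl

/-- B3 (existence of the normal form). -/
theorem exists_normalForm [IsLocalHom (algebraMap 𝒪 A)] [IsAdicComplete (maximalIdeal A) A]
    (ρA : GaloisRepAdic A)
    (e : ρA.residual.IsEquiv (ρbar.baseChangeAlong (ResidueField.map (algebraMap 𝒪 A)))) :
    ∃ (ρ : MRep A) (h : ρ.IsAdicCont), ρA.IsEquiv (ofMat ρ h) ∧ IsLift rd ρ ∧ IsNormalized rd ρ := by
  set ψ : ResidueField 𝒪 →+* ResidueField A := ResidueField.map (algebraMap 𝒪 A) with hψ
  obtain ⟨ρ1, h1, e1, hl1⟩ := exists_lift_ofMat_isEquiv ρbar rd.bbar ψ ρA e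
  have hred := red_eq_of_isLiftOf rd hl1
  -- hypotheses of the slice lemma
  have h00 : red (ρ1 rd.g0) 0 0 = 0 := by
    rw [hred, RingHom.mapMatrix_apply, Matrix.map_apply, rd.col0.1, map_zero]
  have h10 : red (ρ1 rd.g0) 1 0 = 1 := by
    rw [hred, RingHom.mapMatrix_apply, Matrix.map_apply, rd.col0.2, map_one]
  have hc : residue A (ρ1 rd.g1 rd.i0 rd.j0) = residue A (algebraMap 𝒪 A rd.c0) := by
    rw [hl1 rd.g1 rd.i0 rd.j0, ← rd.c0_spec]
    exact ResidueField.map_residue (algebraMap 𝒪 A) rd.c0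
  have hcomm : (red (ρ1 rd.g0) * red (ρ1 rd.g1) - red (ρ1 rd.g1) * red (ρ1 rd.g0)) rd.i0 rd.j0
      ≠ 0 := by
    have hcm : red (ρ1 rd.g0) * red (ρ1 rd.g1) - red (ρ1 rd.g1) * red (ρ1 rd.g0)
        = (ψ.mapMatrix : Matrix (Fin 2) (Fin 2) _ →+* _)
          (residualMat ρbar rd.bbar rd.g0 * residualMat ρbar rd.bbar rd.g1
            - residualMat ρbar rd.bbar rd.g1 * residualMat ρbar rd.bbar rd.g0) := by
      rw [hred, hred, map_sub, map_mul, map_mul]
    rw [hcm, RingHom.mapMatrix_apply, Matrix.map_apply]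
    intro h0
    have h0' := (map_eq_zero ψ).mp h0
    apply rd.comm_ne
    have : (residualMat ρbar rd.bbar rd.g1 * residualMat ρbar rd.bbar rd.g0
        - residualMat ρbar rd.bbar rd.g0 * residualMat ρbar rd.bbar rd.g1)
        = -(residualMat ρbar rd.bbar rd.g0 * residualMat ρbar rd.bbar rd.g1
        - residualMat ρbar rd.bbar rd.g1 * residualMat ρbar rd.bbar rd.g0) := by abel
    rw [this, Matrix.neg_apply, h0', neg_zero]
  obtain ⟨P, Pinv, hPP, hPP', hrP, hrP', hn00, hn10, hnc⟩ :=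
    exists_slice_conj ρ1 rd.g0 rd.g1 rd.i0 rd.j0 (algebraMap 𝒪 A rd.c0) h00 h10 hc hcomm
  refine ⟨NF.conj ρ1 P Pinv hPP', NF.conj_isAdicCont h1 P Pinv hPP', ?_, ?_, ?_⟩
  · -- equivalence
    obtain ⟨E1⟩ := e1
    have hconj : (ofMat ρ1 h1).IsEquiv (ofMat (NF.conj ρ1 P Pinv hPP')
        (NF.conj_isAdicCont h1 P Pinv hPP')) := by
      rw [ofMat_isEquiv_iff]
      refine ⟨⟨P, Pinv, hPP, hPP'⟩, fun σ => ?_⟩
      show P * ρ1 σ = P * ρ1 σ * Pinv * P
      rw [mul_assoc (P * ρ1 σ), hPP', mul_one]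
    obtain ⟨E2⟩ := hconj
    exact ⟨E1.trans E2⟩
  · -- lift
    rw [isLift_iff_isLiftOf]
    intro σ i j
    have : red (NF.conj ρ1 P Pinv hPP' σ) = red (ρ1 σ) := by
      rw [NF.conj_apply, map_mul, map_mul, hrP, hrP', one_mul, mul_one]
    rw [← red_apply, this, red_apply]
    exact hl1 σ i j
  · exact ⟨hn00, hn10, hnc⟩

/-- B3 (uniqueness of the normal form). -/
theorem normalForm_unique [IsLocalHom (algebraMap 𝒪 A)]
    (hres : Function.Surjective (residue A ∘ algebraMap 𝒪 A))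
    (ρ ρ' : MRep A) (h : ρ.IsAdicCont) (h' : ρ'.IsAdicCont)
    (hl : IsLift rd ρ) (hl' : IsLift rd ρ') (hn : IsNormalized rd ρ) (hn' : IsNormalized rd ρ')
    (e : (ofMat ρ h).IsEquiv (ofMat ρ' h')) : ρ = ρ' := by
  set ψ : ResidueField 𝒪 →+* ResidueField A := ResidueField.map (algebraMap 𝒪 A) with hψ
  have hψsurj : Function.Surjective ψ := by
    intro y
    obtain ⟨c, hc⟩ := hres y
    refine ⟨residue 𝒪 c, ?_⟩
    rw [← hc]
    exact ResidueField.map_residue (algebraMap 𝒪 A) c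
  have hψinj : Function.Injective ψ := ψ.injective
  rw [isLift_iff_isLiftOf] at hl hl'
  have hred := red_eq_of_isLiftOf rd hl
  have hred' := red_eq_of_isLiftOf rd hl'
  obtain ⟨M, hM⟩ := (ofMat_isEquiv_iff ρ ρ' h h').mp e
  -- reduction of `M` commutes with the residual matrices
  have hMred : ∀ σ, red (M : Matrix (Fin 2) (Fin 2) A) * red (ρ σ) =
      red (ρ σ) * red (M : Matrix (Fin 2) (Fin 2) A) := by
    intro σ
    have := congrArg red (hM σ)
    rw [map_mul, map_mul, hred', ← hred] at this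
    exact this
  -- descend to the residue field of `𝒪`
  choose m0 hm0 using fun i j => hψsurj (red (M : Matrix (Fin 2) (Fin 2) A) i j)
  let M0 : Matrix (Fin 2) (Fin 2) (ResidueField 𝒪) := Matrix.of m0
  have hM0 : (ψ.mapMatrix : Matrix (Fin 2) (Fin 2) _ →+* _) M0 =
      red (M : Matrix (Fin 2) (Fin 2) A) := by
    ext i j
    rw [RingHom.mapMatrix_apply, Matrix.map_apply]
    exact hm0 i j
  have hmapinj : Function.Injective
      (ψ.mapMatrix : Matrix (Fin 2) (Fin 2) (ResidueField 𝒪) →+* _) := by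
    intro X Y hXY
    ext i j
    have := congrFun (congrFun hXY i) j
    rw [RingHom.mapMatrix_apply, RingHom.mapMatrix_apply, Matrix.map_apply, Matrix.map_apply]
      at this
    exact hψinj this
  have hcomm0 : ∀ σ, M0 * residualMat ρbar rd.bbar σ = residualMat ρbar rd.bbar σ * M0 := by
    intro σ
    apply hmapinj
    rw [map_mul, map_mul, hM0, ← hred]
    exact hMred σ
  obtain ⟨c, hc⟩ := rd.schur M0 hcomm0
  have hredM : red (M : Matrix (Fin 2) (Fin 2) A) = Matrix.scalar (Fin 2) (ψ c) := by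
    rw [← hM0, hc]
    ext i j
    rw [RingHom.mapMatrix_apply, Matrix.map_apply, Matrix.scalar_apply, Matrix.scalar_apply,
      Matrix.diagonal_apply, Matrix.diagonal_apply]
    split_ifs <;> simp
  have hψc : ψ c ≠ 0 := by
    intro h0
    have h1 : red (M : Matrix (Fin 2) (Fin 2) A) * red ((M⁻¹ : (Matrix (Fin 2) (Fin 2) A)ˣ) :
        Matrix (Fin 2) (Fin 2) A) = 1 := by
      rw [← map_mul, Units.mul_inv, map_one]
    rw [hredM, h0, map_zero, zero_mul] at h1
    have := congrFun (congrFun h1 0) 0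
    simp at this
  have hM00 : IsUnit ((M : Matrix (Fin 2) (Fin 2) A) 0 0) := by
    rw [← residue_ne_zero_iff_isUnit, ← red_apply, hredM]
    simpa using hψc
  have hM10 : (M : Matrix (Fin 2) (Fin 2) A) 1 0 ∈ maximalIdeal A := by
    rw [← residue_eq_zero_iff, ← red_apply, hredM]
    simp
  have hdiff : ∀ a b, ρ' rd.g1 a b - ρ rd.g1 a b ∈ maximalIdeal A := by
    intro a b
    rw [← residue_eq_zero_iff, map_sub, hl' rd.g1 a b, hl rd.g1 a b, sub_self]
  have hcommU : IsUnit ((ρ rd.g0 * ρ rd.g1 - ρ rd.g1 * ρ rd.g0) rd.i0 rd.j0) := by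
    rw [← residue_ne_zero_iff_isUnit, ← red_apply, map_sub, map_mul, map_mul]
    have hcm : red (ρ rd.g0) * red (ρ rd.g1) - red (ρ rd.g1) * red (ρ rd.g0)
        = (ψ.mapMatrix : Matrix (Fin 2) (Fin 2) _ →+* _)
          (residualMat ρbar rd.bbar rd.g0 * residualMat ρbar rd.bbar rd.g1
            - residualMat ρbar rd.bbar rd.g1 * residualMat ρbar rd.bbar rd.g0) := by
      rw [hred, hred, map_sub, map_mul, map_mul]
    rw [hcm, RingHom.mapMatrix_apply, Matrix.map_apply]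
    intro h0
    have h0' := (map_eq_zero ψ).mp h0
    apply rd.comm_ne
    have : (residualMat ρbar rd.bbar rd.g1 * residualMat ρbar rd.bbar rd.g0
        - residualMat ρbar rd.bbar rd.g0 * residualMat ρbar rd.bbar rd.g1)
        = -(residualMat ρbar rd.bbar rd.g0 * residualMat ρbar rd.bbar rd.g1
        - residualMat ρbar rd.bbar rd.g1 * residualMat ρbar rd.bbar rd.g0) := by abel
    rw [this, Matrix.neg_apply, h0', neg_zero]
  exact (slice_unique ρ ρ' rd.g0 rd.g1 rd.i0 rd.j0 hn.1 hn.2.1 hn'.1 hn'.2.1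
    (hn.2.2.trans hn'.2.2.symm) hdiff hcommU (M : Matrix (Fin 2) (Fin 2) A) hM hM00 hM10).2

end Lift

end Fermat.Agent.S53
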