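import Mathlib
import Fermat.Agent.S53.RigidDefs
import Fermat.Agent.S53.NormalForm
import Fermat.Agent.S53.ProRepSpec

set_option autoImplicit false
set_option linter.unusedSectionVars false

noncomputable section

namespace Fermat.Agent.S53

open IsLocalRing

section TestAlg

variable {𝒪 : Type} [CommRing 𝒪] [IsLocalRing 𝒪]
variable {A B : Type} [CommRing A] [IsLocalRing A] [Algebra 𝒪 A]
  [CommRing B] [IsLocalRing B] [Algebra 𝒪 B]

theorem mem_maximalIdeal_isNilpotent_of_testAlg (hA : GaloisRep.IsArtinianTestAlgebra 𝒪 A)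
    {a : A} (ha : a ∈ maximalIdeal A) : IsNilpotent a := by
  have := hA.isArtinian
  have h1 : IsNilpotent (Ideal.jacobson (⊥ : Ideal A)) := IsArtinianRing.isNilpotent_jacobson_bot
  rw [IsLocalRing.jacobson_eq_maximalIdeal ⊥ bot_ne_top] at h1
  obtain ⟨n, hn⟩ := h1
  refine ⟨n, ?_⟩
  have : a ^ n ∈ maximalIdeal A ^ n := Ideal.pow_mem_pow ha n
  rw [hn] at this
  simpa using this

theorem isLocalHom_of_testAlg (hA : GaloisRep.IsArtinianTestAlgebra 𝒪 A)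
    (φ : A →+* B) : IsLocalHom φ := by
  constructor
  intro a ha
  by_contra hna
  have hmem : a ∈ maximalIdeal A := (mem_maximalIdeal a).mpr hna
  obtain ⟨n, hn⟩ := mem_maximalIdeal_isNilpotent_of_testAlg hA hmem
  have h0 : (φ a) ^ n = 0 := by rw [← map_pow, hn, map_zero]
  have hu : IsUnit ((φ a) ^ n) := ha.pow n
  rw [h0] at hu
  exact not_isUnit_zero hu

theorem mem_maximalIdeal_of_map_mem (φ : A →+* B) {a : A}
    (h : φ a ∈ maximalIdeal B) : a ∈ maximalIdeal A := by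
  rw [mem_maximalIdeal] at h ⊢
  intro hu
  exact h (hu.map φ)

theorem map_mem_maximalIdeal {φ : A →+* B} (hφ : IsLocalHom φ) {a : A}
    (h : a ∈ maximalIdeal A) : φ a ∈ maximalIdeal B := by
  rw [mem_maximalIdeal] at h ⊢
  intro hu
  exact h (hφ.map_nonunit a hu)

end TestAlg

section Pullback

variable {A B₁ B₂ : Type} [CommRing A] [CommRing B₁] [CommRing B₂]

theorem matrix_eq_zero_of_joint {φ₁ : A →+* B₁} {φ₂ : A →+* B₂}
    (hinj : ∀ a, φ₁ a = 0 → φ₂ a = 0 → a = 0) {M : Matrix (Fin 2) (Fin 2) A}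
    (h₁ : φ₁.mapMatrix M = 0) (h₂ : φ₂.mapMatrix M = 0) : M = 0 := by
  ext i j
  apply hinj
  · have := congrFun (congrFun h₁ i) j
    simpa using this
  · have := congrFun (congrFun h₂ i) j
    simpa using this

theorem exists_mrep_of_joint (φ₁ : A →+* B₁) (φ₂ : A →+* B₂)
    (hinj : ∀ a, φ₁ a = 0 → φ₂ a = 0 → a = 0) (x : X → A) (ρ₁ : MRep B₁) (ρ₂ : MRep B₂)
    (h₁ : ∀ σ i j, ρ₁ σ i j = φ₁ (x (σ, i, j))) (h₂ : ∀ σ i j, ρ₂ σ i j = φ₂ (x (σ, i, j))) :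
    ∃ ρ : MRep A, (∀ σ i j, ρ σ i j = x (σ, i, j)) ∧ ρ.map φ₁ = ρ₁ ∧ ρ.map φ₂ = ρ₂ := by
  let M : GQ → Matrix (Fin 2) (Fin 2) A := fun σ => Matrix.of fun i j => x (σ, i, j)
  have hM₁ : ∀ σ, φ₁.mapMatrix (M σ) = ρ₁ σ := by
    intro σ; ext i j; simp [M, h₁]
  have hM₂ : ∀ σ, φ₂.mapMatrix (M σ) = ρ₂ σ := by
    intro σ; ext i j; simp [M, h₂]
  have hone : M 1 = 1 := by
    rw [← sub_eq_zero]
    apply matrix_eq_zero_of_joint hinj
    · rw [map_sub, hM₁, map_one, map_one, sub_self]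
    · rw [map_sub, hM₂, map_one, map_one, sub_self]
  have hmul : ∀ σ τ, M (σ * τ) = M σ * M τ := by
    intro σ τ
    rw [← sub_eq_zero]
    apply matrix_eq_zero_of_joint hinj
    · rw [map_sub, map_mul, hM₁, hM₁, hM₁, map_mul, sub_self]
    · rw [map_sub, map_mul, hM₂, hM₂, hM₂, map_mul, sub_self]
  refine ⟨⟨⟨M, hone⟩, hmul⟩, fun σ i j => rfl, ?_, ?_⟩
  · ext σ i j
    rw [MRep.map_apply]
    exact (h₁ σ i j).symm
  · ext σ i j
    rw [MRep.map_apply]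
    exact (h₂ σ i j).symm

theorem factors_of_joint {φ₁ : A →+* B₁} {φ₂ : A →+* B₂}
    (hinj : ∀ a, φ₁ a = 0 → φ₂ a = 0 → a = 0) (ρ : MRep A)
    (h₁ : GaloisFactorsThroughFiniteLevel (ρ.map φ₁))
    (h₂ : GaloisFactorsThroughFiniteLevel (ρ.map φ₂)) : GaloisFactorsThroughFiniteLevel ρ := by
  obtain ⟨L₁, hL₁, hf₁⟩ := h₁
  obtain ⟨L₂, hL₂, hf₂⟩ := h₂
  refine ⟨L₁ ⊔ L₂, IntermediateField.finiteDimensional_sup L₁ L₂, fun σ hσ => ?_⟩
  have e₁ := hf₁ σ (fun x hx => hσ x ((le_sup_left : L₁ ≤ L₁ ⊔ L₂) hx))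
  have e₂ := hf₂ σ (fun x hx => hσ x ((le_sup_right : L₂ ≤ L₁ ⊔ L₂) hx))
  rw [← sub_eq_zero]
  apply matrix_eq_zero_of_joint hinj
  · rw [map_sub, map_one]
    have : φ₁.mapMatrix (ρ σ) = ρ.map φ₁ σ := rfl
    rw [this, e₁, sub_self]
  · rw [map_sub, map_one]
    have : φ₂.mapMatrix (ρ σ) = ρ.map φ₂ σ := rfl
    rw [this, e₂, sub_self]

end Pullback

section Functor

variable {𝒪 : Type} [CommRing 𝒪] [IsLocalRing 𝒪] {ρbar : ResidualGaloisRep (ResidueField 𝒪)}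
  {𝒟 : ∀ ⦃A : Type⦄ [CommRing A] [IsLocalRing A] [Algebra 𝒪 A], GaloisRepAdic A → Prop}
  (rd : RigidData 𝒪 ρbar)

variable {A B : Type} [CommRing A] [IsLocalRing A] [Algebra 𝒪 A]
  [CommRing B] [IsLocalRing B] [Algebra 𝒪 B]

theorem IsLift.map {ρ : MRep A} (hl : IsLift rd ρ) (φ : A →ₐ[𝒪] B)
    (hφ : IsLocalHom (φ : A →+* B)) : IsLift rd (ρ.map (φ : A →+* B)) := by
  intro σ i j
  obtain ⟨c, hc, hmem⟩ := hl σ i j
  refine ⟨c, hc, ?_⟩
  have h1 := map_mem_maximalIdeal hφ hmem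
  rw [map_sub] at h1
  simpa using h1

theorem IsNormalized.map {ρ : MRep A} (hn : IsNormalized rd ρ) (φ : A →ₐ[𝒪] B) :
    IsNormalized rd (ρ.map (φ : A →+* B)) := by
  obtain ⟨h1, h2, h3⟩ := hn
  refine ⟨?_, ?_, ?_⟩
  · rw [MRep.map_apply, h1, map_zero]
  · rw [MRep.map_apply, h2, map_one]
  · rw [MRep.map_apply, h3]; simp

theorem isSDef_map (h𝒟 : GaloisRep.IsDeformationCondition 𝒪 𝒟)
    (hA : GaloisRep.IsArtinianTestAlgebra 𝒪 A) (hB : GaloisRep.IsArtinianTestAlgebra 𝒪 B)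
    (φ : A →ₐ[𝒪] B) (x : X → A) (hx : IsSDef 𝒪 ρbar 𝒟 rd x) :
    IsSDef 𝒪 ρbar 𝒟 rd (φ ∘ x) := by
  obtain ⟨ρ, h, hρx, hl, hn, hD⟩ := hx
  have hφ : IsLocalHom (φ : A →+* B) := isLocalHom_of_testAlg hA _
  refine ⟨ρ.map (φ : A →+* B), h.map _ hφ, ?_, hl.map rd φ hφ, hn.map rd φ, ?_⟩
  · intro σ i j
    rw [MRep.map_apply, hρx]; rfl
  · exact h𝒟.of_isEquiv hB (ofMat_baseChangeAlong_isEquiv ρ h _ hφ)
      (h𝒟.baseChangeAlong hA hB φ hφ hD)

theorem IsLift.of_map {ρ : MRep A} (φ : A →ₐ[𝒪] B)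
    (hl : IsLift rd (ρ.map (φ : A →+* B))) : IsLift rd ρ := by
  intro σ i j
  obtain ⟨c, hc, hmem⟩ := hl σ i j
  refine ⟨c, hc, ?_⟩
  apply mem_maximalIdeal_of_map_mem (φ : A →+* B)
  rw [map_sub]
  simpa using hmem

theorem IsNormalized.of_map_joint {B' : Type} [CommRing B'] [Algebra 𝒪 B'] {ρ : MRep A}
    (φ₁ : A →ₐ[𝒪] B) (φ₂ : A →ₐ[𝒪] B')
    (hinj : ∀ a, φ₁ a = 0 → φ₂ a = 0 → a = 0)
    (h₁ : IsNormalized rd (ρ.map (φ₁ : A →+* B)))
    (h₂ : IsNormalized rd (ρ.map (φ₂ : A →+* B'))) : IsNormalized rd ρ := by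
  obtain ⟨a1, a2, a3⟩ := h₁
  obtain ⟨b1, b2, b3⟩ := h₂
  rw [MRep.map_apply] at a1 a2 a3 b1 b2 b3
  refine ⟨?_, ?_, ?_⟩
  · exact hinj _ a1 b1
  · rw [← sub_eq_zero]
    apply hinj
    · simp only [map_sub, map_one]; exact sub_eq_zero.mpr a2
    · simp only [map_sub, map_one]; exact sub_eq_zero.mpr b2
  · rw [← sub_eq_zero]
    apply hinj
    · simp only [map_sub]
      refine sub_eq_zero.mpr (a3.trans ?_)
      simp
    · simp only [map_sub]
      refine sub_eq_zero.mpr (b3.trans ?_)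
      simp

theorem isSDef_descent (h𝒟 : GaloisRep.IsDeformationCondition 𝒪 𝒟)
    (hA : GaloisRep.IsArtinianTestAlgebra 𝒪 A) (hB : GaloisRep.IsArtinianTestAlgebra 𝒪 B)
    (φ : A →ₐ[𝒪] B) (hinj : Function.Injective φ) (x : X → A)
    (hx : IsSDef 𝒪 ρbar 𝒟 rd (φ ∘ x)) : IsSDef 𝒪 ρbar 𝒟 rd x := by
  obtain ⟨ρB, hB', hρx, hl, hn, hD⟩ := hx
  have hφ : IsLocalHom (φ : A →+* B) := isLocalHom_of_testAlg hA _
  have hinj' : ∀ a, (φ : A →+* B) a = 0 → (φ : A →+* B) a = 0 → a = 0 := by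
    intro a ha _
    exact hinj (by simpa using ha)
  obtain ⟨ρ, hρ, hmap, -⟩ := exists_mrep_of_joint (φ : A →+* B) (φ : A →+* B) hinj' x ρB ρB
    (fun σ i j => by rw [hρx]; rfl) (fun σ i j => by rw [hρx]; rfl)
  subst hmap
  have := hB.isArtinian
  have hfac : GaloisFactorsThroughFiniteLevel ρ :=
    factors_of_joint hinj' ρ (MRep.factors_of_isAdicCont hB') (MRep.factors_of_isAdicCont hB')
  have h : ρ.IsAdicCont := MRep.isAdicCont_of_factors hfac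
  refine ⟨ρ, h, hρ, IsLift.of_map rd φ hl, IsNormalized.of_map_joint rd φ φ hinj' hn hn, ?_⟩
  apply h𝒟.of_baseChangeAlong_injective hA hB φ hφ hinj
  obtain ⟨e⟩ := ofMat_baseChangeAlong_isEquiv ρ h (φ : A →+* B) hφ
  exact h𝒟.of_isEquiv hB ⟨e.symm⟩ hD

theorem isSDef_prod {C : Type} [CommRing C] [IsLocalRing C] [Algebra 𝒪 C]
    (h𝒟 : GaloisRep.IsDeformationCondition 𝒪 𝒟)
    (hA : GaloisRep.IsArtinianTestAlgebra 𝒪 A) (hB : GaloisRep.IsArtinianTestAlgebra 𝒪 B)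
    (hC : GaloisRep.IsArtinianTestAlgebra 𝒪 C)
    (f : A →ₐ[𝒪] C) (g : B →ₐ[𝒪] C) [IsLocalRing (fibreProd 𝒪 f g)]
    (hP : GaloisRep.IsArtinianTestAlgebra 𝒪 (fibreProd 𝒪 f g))
    (x : X → fibreProd 𝒪 f g)
    (hxA : IsSDef 𝒪 ρbar 𝒟 rd (fun i => (x i).1.1))
    (hxB : IsSDef 𝒪 ρbar 𝒟 rd (fun i => (x i).1.2)) : IsSDef 𝒪 ρbar 𝒟 rd x := by
  obtain ⟨ρA, hA', hρA, hlA, hnA, hDA⟩ := hxA
  obtain ⟨ρB, hB', hρB, hlB, hnB, hDB⟩ := hxB
  let pA : fibreProd 𝒪 f g →ₐ[𝒪] A := (AlgHom.fst 𝒪 A B).comp (fibreProd 𝒪 f g).val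
  let pB : fibreProd 𝒪 f g →ₐ[𝒪] B := (AlgHom.snd 𝒪 A B).comp (fibreProd 𝒪 f g).val
  have hpA : IsLocalHom (pA : fibreProd 𝒪 f g →+* A) := isLocalHom_of_testAlg hP _
  have hpB : IsLocalHom (pB : fibreProd 𝒪 f g →+* B) := isLocalHom_of_testAlg hP _
  have hinj' : ∀ p : fibreProd 𝒪 f g, (pA : fibreProd 𝒪 f g →+* A) p = 0 →
      (pB : fibreProd 𝒪 f g →+* B) p = 0 → p = 0 := by
    intro p h1 h2
    apply Subtype.ext
    exact Prod.ext h1 h2
  obtain ⟨ρ, hρ, hmapA, hmapB⟩ := exists_mrep_of_joint (pA : fibreProd 𝒪 f g →+* A)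
    (pB : fibreProd 𝒪 f g →+* B) hinj' x ρA ρB
    (fun σ i j => by rw [hρA]; rfl) (fun σ i j => by rw [hρB]; rfl)
  subst hmapA
  subst hmapB
  have := hA.isArtinian
  have := hB.isArtinian
  have hfac : GaloisFactorsThroughFiniteLevel ρ :=
    factors_of_joint hinj' ρ (MRep.factors_of_isAdicCont hA') (MRep.factors_of_isAdicCont hB')
  have h : ρ.IsAdicCont := MRep.isAdicCont_of_factors hfac
  refine ⟨ρ, h, hρ, IsLift.of_map rd pA hlA, IsNormalized.of_map_joint rd pA pB hinj' hnA hnB, ?_⟩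
  have hcomp : f.comp pA = g.comp pB := by
    ext p
    exact p.2
  have hinj2 : Function.Injective (fun p : fibreProd 𝒪 f g => (pA p, pB p)) := by
    intro p q hpq
    apply Subtype.ext
    exact hpq
  have hsurj : ∀ (a : A) (b : B), f a = g b → ∃ p : fibreProd 𝒪 f g, pA p = a ∧ pB p = b := by
    intro a b hab
    exact ⟨⟨(a, b), hab⟩, rfl, rfl⟩
  obtain ⟨eA⟩ := ofMat_baseChangeAlong_isEquiv ρ h (pA : fibreProd 𝒪 f g →+* A) hpA
  obtain ⟨eB⟩ := ofMat_baseChangeAlong_isEquiv ρ h (pB : fibreProd 𝒪 f g →+* B) hpB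
  exact h𝒟.of_fibreProduct hA hB hC hP f g pA pB hpA hpB hcomp hinj2 hsurj
    (h𝒟.of_isEquiv hA ⟨eA.symm⟩ hDA) (h𝒟.of_isEquiv hB ⟨eB.symm⟩ hDB)

end Functor

section Base

variable {𝒪 : Type} [CommRing 𝒪] [IsLocalRing 𝒪] {ρbar : ResidualGaloisRep (ResidueField 𝒪)}
  {𝒟 : ∀ ⦃A : Type⦄ [CommRing A] [IsLocalRing A] [Algebra 𝒪 A], GaloisRepAdic A → Prop}
  (rd : RigidData 𝒪 ρbar)

theorem isArtinianTestAlgebra_residueField :
    GaloisRep.IsArtinianTestAlgebra 𝒪 (ResidueField 𝒪) where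
  isLocalHom := by
    rw [ResidueField.algebraMap_eq]
    infer_instance
  residue_surjective := by
    rw [ResidueField.algebraMap_eq]
    exact (residue_surjective (R := ResidueField 𝒪)).comp (residue_surjective (R := 𝒪))
  isArtinian := inferInstance

theorem factors_residualMat :
    GaloisFactorsThroughFiniteLevel (residualMat ρbar rd.bbar) := by
  obtain ⟨L, hL, h1⟩ := ρbar.factorsThroughFiniteLevel
  refine ⟨L, hL, fun σ hσ => ?_⟩
  show LinearMap.toMatrix rd.bbar rd.bbar (ρbar.ρ σ) = 1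
  rw [h1 σ hσ, Module.End.one_eq_id, LinearMap.toMatrix_id]

theorem isSDef_base (h𝒟 : GaloisRep.IsDeformationCondition 𝒪 𝒟)
    (hbar : 𝒟 (GaloisRepAdic.ofResidualGaloisRep ρbar)) :
    ∃! x : X → ResidueField 𝒪, IsSDef 𝒪 ρbar 𝒟 rd x := by
  have hk := isArtinianTestAlgebra_residueField (𝒪 := 𝒪)
  have h : (residualMat ρbar rd.bbar).IsAdicCont :=
    MRep.isAdicCont_of_factors (factors_residualMat rd)
  refine ⟨fun p => residualMat ρbar rd.bbar p.1 p.2.1 p.2.2, ⟨residualMat ρbar rd.bbar, h,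
    fun σ i j => rfl, ?_, ?_, ?_⟩, ?_⟩
  · intro σ i j
    obtain ⟨c, hc⟩ := residue_surjective (residualMat ρbar rd.bbar σ i j)
    refine ⟨c, hc, ?_⟩
    rw [ResidueField.algebraMap_eq, hc, sub_self]
    exact zero_mem _
  · refine ⟨rd.col0.1, rd.col0.2, ?_⟩
    rw [ResidueField.algebraMap_eq, rd.c0_spec]
  · obtain ⟨ρ', h', e, hρ'⟩ :=
      exists_ofMat_isEquiv (GaloisRepAdic.ofResidualGaloisRep ρbar) rd.bbar
    have : ρ' = residualMat ρbar rd.bbar := by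
      ext σ : 1
      exact hρ' σ
    subst this
    exact h𝒟.of_isEquiv hk e hbar
  · rintro y ⟨ρ, _, hρy, hl, -, -⟩
    funext p
    obtain ⟨σ, i, j⟩ := p
    obtain ⟨c, hc, hmem⟩ := hl σ i j
    rw [IsLocalRing.maximalIdeal_eq_bot, Ideal.mem_bot, sub_eq_zero,
      ResidueField.algebraMap_eq, hc] at hmem
    rw [← hρy σ i j, hmem]

end Base

section Tangent

variable {𝒪 : Type} [CommRing 𝒪] [IsLocalRing 𝒪] {ρbar : ResidualGaloisRep (ResidueField 𝒪)}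
  {𝒟 : ∀ ⦃A : Type⦄ [CommRing A] [IsLocalRing A] [Algebra 𝒪 A], GaloisRepAdic A → Prop}
  (rd : RigidData 𝒪 ρbar)

instance finite_dualNumber_aux {k : Type} [Finite k] : Finite (DualNumber k) :=
  inferInstanceAs (Finite (k × k))

theorem mem_maximalIdeal_dualNumber {k : Type} [Field k] (z : DualNumber k) :
    z ∈ maximalIdeal (DualNumber k) ↔ TrivSqZeroExt.fst z = 0 := by
  rw [mem_maximalIdeal, mem_nonunits_iff, TrivSqZeroExt.isUnit_iff_isUnit_fst, isUnit_iff_ne_zero,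
    not_not]

theorem isArtinianTestAlgebra_dualNumber [Finite (ResidueField 𝒪)] :
    letI := dualNumberAlgebra 𝒪
    GaloisRep.IsArtinianTestAlgebra 𝒪 (DualNumber (ResidueField 𝒪)) := by
  let _ := dualNumberAlgebra 𝒪
  have halg : ∀ a : 𝒪, algebraMap 𝒪 (DualNumber (ResidueField 𝒪)) a =
      TrivSqZeroExt.inl (residue 𝒪 a) := fun a => rfl
  refine ⟨⟨fun a ha => ?_⟩, ?_, inferInstance⟩
  · rw [halg, TrivSqZeroExt.isUnit_iff_isUnit_fst, TrivSqZeroExt.fst_inl] at ha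
    exact (IsLocalRing.residue_ne_zero_iff_isUnit a).mp ha.ne_zero
  · intro y
    obtain ⟨z, rfl⟩ := residue_surjective y
    obtain ⟨c, hc⟩ := residue_surjective (TrivSqZeroExt.fst z)
    refine ⟨c, ?_⟩
    rw [Function.comp_apply, halg, hc]
    rw [← sub_eq_zero, ← map_sub, residue_eq_zero_iff, mem_maximalIdeal_dualNumber]
    simp


theorem isSDef_tangent_finite [Finite (ResidueField 𝒪)]
    (hfin : GaloisRep.TangentFinite 𝒪 ρbar 𝒟) :
    letI := dualNumberAlgebra 𝒪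
    Finite {x : X → DualNumber (ResidueField 𝒪) // IsSDef 𝒪 ρbar 𝒟 rd x} := by
  let _ := dualNumberAlgebra 𝒪
  have hT := isArtinianTestAlgebra_dualNumber (𝒪 := 𝒪)
  have : IsLocalHom (algebraMap 𝒪 (DualNumber (ResidueField 𝒪))) := hT.isLocalHom
  unfold GaloisRep.TangentFinite at hfin
  -- the ring hom k → residue field of k[ε]
  let ψ : ResidueField 𝒪 →+* ResidueField (DualNumber (ResidueField 𝒪)) :=
    (IsLocalRing.residue (DualNumber (ResidueField 𝒪))).comp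
      (algebraMap (ResidueField 𝒪) (DualNumber (ResidueField 𝒪)))
  have hliftOf : ∀ ρ : MRep (DualNumber (ResidueField 𝒪)), IsLift rd ρ →
      IsLiftOf ρbar rd.bbar ψ ρ := by
    intro ρ hl σ i j
    obtain ⟨c, hc, hmem⟩ := hl σ i j
    rw [← hc]
    have : residue _ (ρ σ i j - algebraMap 𝒪 (DualNumber (ResidueField 𝒪)) c) = 0 :=
      (residue_eq_zero_iff _).mpr hmem
    rw [map_sub, sub_eq_zero] at this
    rw [this]
    rfl
  classical
  refine @Finite.of_injective _ _ hfin ?Phi ?_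
  case Phi =>
    exact fun x => Quotient.mk _ ⟨ofMat x.2.choose x.2.choose_spec.choose,
      x.2.choose_spec.choose_spec.2.2.2,
      residual_ofMat_isEquiv ρbar rd.bbar ψ _ _ (hliftOf _ x.2.choose_spec.choose_spec.2.1)⟩
  intro x y hxy
  have hq := Quotient.exact hxy
  have hE : (ofMat x.2.choose x.2.choose_spec.choose).IsEquiv
      (ofMat y.2.choose y.2.choose_spec.choose) := hq
  have huniq := normalForm_unique rd hT.residue_surjective x.2.choose y.2.choose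
    x.2.choose_spec.choose y.2.choose_spec.choose
    x.2.choose_spec.choose_spec.2.1 y.2.choose_spec.choose_spec.2.1
    x.2.choose_spec.choose_spec.2.2.1 y.2.choose_spec.choose_spec.2.2.1 hE
  apply Subtype.ext
  funext p
  obtain ⟨σ, i, j⟩ := p
  rw [← x.2.choose_spec.choose_spec.1 σ i j, ← y.2.choose_spec.choose_spec.1 σ i j, huniq]

end Tangent

section Main

variable (𝒪 : Type) [CommRing 𝒪] [IsLocalRing 𝒪] (ρbar : ResidualGaloisRep (ResidueField 𝒪))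
  (𝒟 : ∀ ⦃A : Type⦄ [CommRing A] [IsLocalRing A] [Algebra 𝒪 A], GaloisRepAdic A → Prop)
  (rd : RigidData 𝒪 ρbar)

/-- B2 -/
theorem isProRepresentablePredicate_isSDef [IsDomain 𝒪] [IsDiscreteValuationRing 𝒪]
    [IsAdicComplete (maximalIdeal 𝒪) 𝒪] [Finite (ResidueField 𝒪)]
    (h𝒟 : GaloisRep.IsDeformationCondition 𝒪 𝒟)
    (hbar : 𝒟 (GaloisRepAdic.ofResidualGaloisRep ρbar))
    (hfin : GaloisRep.TangentFinite 𝒪 ρbar 𝒟) :
    IsProRepresentablePredicate 𝒪 X (IsSDef 𝒪 ρbar 𝒟 rd) where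
  map := fun _ _ _ _ _ _ _ _ hA hB φ x hx => isSDef_map rd h𝒟 hA hB φ x hx
  descent := fun _ _ _ _ _ _ _ _ hA hB φ hinj x hx => isSDef_descent rd h𝒟 hA hB φ hinj x hx
  prod := fun _ _ _ _ _ _ _ _ _ _ _ _ hA hB hC f g _ hP x hxA hxB =>
    isSDef_prod rd h𝒟 hA hB hC f g hP x hxA hxB
  base := isSDef_base rd h𝒟 hbar
  tangent_finite := isSDef_tangent_finite rd hfin

end Main

end Fermat.Agent.S53
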