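import Mathlib
import Fermat.Agent.S53.Rigid
import Fermat.Agent.S53.ProRep
import Fermat.Agent.S53.AssemblyPrelim

set_option autoImplicit false
set_option linter.unusedSectionVars false
set_option linter.unnecessarySimpa false

noncomputable section

namespace Fermat.Agent.S53

open IsLocalRing

section EquivLemmas

variable {A : Type} [CommRing A] [IsLocalRing A]

theorem isEquiv_refl (ρ : GaloisRepAdic A) : ρ.IsEquiv ρ := ⟨GaloisRepAdic.Equiv.refl ρ⟩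

theorem isEquiv_symm {ρ₁ ρ₂ : GaloisRepAdic A} (h : ρ₁.IsEquiv ρ₂) : ρ₂.IsEquiv ρ₁ :=
  h.elim fun e => ⟨e.symm⟩

theorem isEquiv_trans {ρ₁ ρ₂ ρ₃ : GaloisRepAdic A} (h : ρ₁.IsEquiv ρ₂) (h' : ρ₂.IsEquiv ρ₃) :
    ρ₁.IsEquiv ρ₃ :=
  h.elim fun e => h'.elim fun e' => ⟨e.trans e'⟩

theorem isEquiv_baseChangeAlong {B : Type} [CommRing B] [IsLocalRing B] (φ : A →+* B)
    (hφ : IsLocalHom φ) {ρ₁ ρ₂ : GaloisRepAdic A} (h : ρ₁.IsEquiv ρ₂) :
    (ρ₁.baseChangeAlong φ hφ).IsEquiv (ρ₂.baseChangeAlong φ hφ) :=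
  h.elim fun e => ⟨e.baseChangeAlong φ hφ⟩

theorem ofMat_congr {ρ ρ' : MRep A} (h : ρ.IsAdicCont) (h' : ρ'.IsAdicCont) (e : ρ = ρ') :
    (ofMat ρ h).IsEquiv (ofMat ρ' h') := by
  subst e
  exact isEquiv_refl _

end EquivLemmas

section Push

variable {𝒪 : Type} [CommRing 𝒪] [IsLocalRing 𝒪]
  {ρbar : ResidualGaloisRep (ResidueField 𝒪)} (rd : RigidData 𝒪 ρbar)
  {A B : Type} [CommRing A] [IsLocalRing A] [Algebra 𝒪 A] [CommRing B] [IsLocalRing B] [Algebra 𝒪 B]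

theorem IsNormalized.map_algHom {ρ : MRep A} (h : IsNormalized rd ρ) (φ : A →ₐ[𝒪] B) :
    IsNormalized rd (ρ.map (φ : A →+* B)) := by
  obtain ⟨h1, h2, h3⟩ := h
  refine ⟨?_, ?_, ?_⟩
  · rw [MRep.map_apply, h1, map_zero]
  · rw [MRep.map_apply, h2, map_one]
  · rw [MRep.map_apply, h3]
    exact φ.commutes _

theorem IsLift.map_algHom {ρ : MRep A} (h : IsLift rd ρ) (φ : A →ₐ[𝒪] B)
    (hφ : IsLocalHom (φ : A →+* B)) : IsLift rd (ρ.map (φ : A →+* B)) := by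
  intro σ i j
  obtain ⟨c, hc, hmem⟩ := h σ i j
  refine ⟨c, hc, ?_⟩
  have h1 : (ρ.map (φ : A →+* B)) σ i j - algebraMap 𝒪 B c =
      (φ : A →+* B) (ρ σ i j - algebraMap 𝒪 A c) := by
    rw [map_sub, MRep.map_apply]
    congr 1
    exact (φ.commutes c).symm
  rw [h1]
  have h2 := map_maximalIdeal_le (φ : A →+* B)
  exact h2 (Ideal.mem_map_of_mem _ hmem)

theorem IsLift.of_map_algHom {ρ : MRep A} (φ : A →ₐ[𝒪] B)
    (hφ : IsLocalHom (φ : A →+* B)) (h : IsLift rd (ρ.map (φ : A →+* B))) : IsLift rd ρ := by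
  intro σ i j
  obtain ⟨c, hc, hmem⟩ := h σ i j
  refine ⟨c, hc, ?_⟩
  have h1 : (ρ.map (φ : A →+* B)) σ i j - algebraMap 𝒪 B c =
      (φ : A →+* B) (ρ σ i j - algebraMap 𝒪 A c) := by
    rw [map_sub, MRep.map_apply]
    congr 1
    exact (φ.commutes c).symm
  rw [h1] at hmem
  rw [← maximalIdeal_comap (φ : A →+* B)]
  exact hmem

theorem isLocalHom_mkₐ_pow_succ (n : ℕ) :
    IsLocalHom ((Ideal.Quotient.mkₐ 𝒪 (maximalIdeal A ^ (n + 1)) :
      A →ₐ[𝒪] A ⧸ maximalIdeal A ^ (n + 1)) : A →+* A ⧸ maximalIdeal A ^ (n + 1)) :=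
  isLocalHom_mk_pow_succ n

end Push

section Univ

variable {𝒪 : Type} [CommRing 𝒪] [IsLocalRing 𝒪]
  {ρbar : ResidualGaloisRep (ResidueField 𝒪)}
  {𝒟 : ∀ ⦃A : Type⦄ [CommRing A] [IsLocalRing A] [Algebra 𝒪 A], GaloisRepAdic A → Prop}
  {rd : RigidData 𝒪 ρbar} (P : ProRepData 𝒪 X (IsSDef 𝒪 ρbar 𝒟 rd))

/-- the level data of the universal point -/
theorem level_data (n : ℕ) :
    GaloisRep.IsArtinianTestAlgebra 𝒪 (P.R ⧸ maximalIdeal P.R ^ (n + 1)) ∧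
    ∃ (ρ : MRep (P.R ⧸ maximalIdeal P.R ^ (n + 1))) (h : ρ.IsAdicCont),
      (∀ σ i j, ρ σ i j = Ideal.Quotient.mk (maximalIdeal P.R ^ (n + 1)) (P.pt (σ, i, j))) ∧
      IsLift rd ρ ∧ IsNormalized rd ρ ∧ 𝒟 (ofMat ρ h) :=
  P.isPoint (n + 1) (Nat.succ_pos n)

/-- the universal matrices -/
def univFun (σ : GQ) : Matrix (Fin 2) (Fin 2) P.R := Matrix.of fun i j => P.pt (σ, i, j)

theorem univFun_one : univFun P 1 = 1 := by
  ext i j
  apply eq_of_forall_mk_pow_succ_eq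
  intro n
  obtain ⟨-, ρ, -, hent, -⟩ := level_data P n
  have h1 := congrFun (congrFun (map_one ρ) i) j
  rw [hent] at h1
  simp only [univFun, Matrix.of_apply]
  rw [h1]
  by_cases hij : i = j
  · subst hij; simp
  · simp [hij]

theorem univFun_mul (σ τ : GQ) : univFun P (σ * τ) = univFun P σ * univFun P τ := by
  ext i j
  apply eq_of_forall_mk_pow_succ_eq
  intro n
  obtain ⟨-, ρ, -, hent, -⟩ := level_data P n
  have h1 := congrFun (congrFun (map_mul ρ σ τ) i) j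
  rw [hent, Matrix.mul_apply] at h1
  simp only [univFun, Matrix.of_apply, Matrix.mul_apply, map_sum, map_mul]
  rw [h1]
  apply Finset.sum_congr rfl
  intro k _
  rw [hent, hent]

/-- the universal matrix representation -/
def univMRep : MRep P.R where
  toFun := univFun P
  map_one' := univFun_one P
  map_mul' := univFun_mul P

@[simp] theorem univMRep_apply (σ : GQ) (i j : Fin 2) : univMRep P σ i j = P.pt (σ, i, j) := rfl

/-- the level representation is the image of the universal one -/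
theorem level_eq_map (n : ℕ) (ρ : MRep (P.R ⧸ maximalIdeal P.R ^ (n + 1)))
    (hent : ∀ σ i j, ρ σ i j = Ideal.Quotient.mk (maximalIdeal P.R ^ (n + 1)) (P.pt (σ, i, j))) :
    ρ = (univMRep P).map
      ((Ideal.Quotient.mkₐ 𝒪 (maximalIdeal P.R ^ (n + 1)) : P.R →ₐ[𝒪] _) : P.R →+* _) := by
  ext σ i j
  rw [hent]
  rfl

theorem univMRep_isAdicCont : (univMRep P).IsAdicCont := by
  intro n
  cases n with
  | zero =>
    refine ⟨⊥, inferInstance, fun σ _ i j => ?_⟩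
    simp
  | succ m =>
    obtain ⟨-, ρ, hρ, hent, -⟩ := level_data P m
    obtain ⟨L, hL, hLσ⟩ := hρ (m + 1)
    refine ⟨L, hL, fun σ hσ i j => ?_⟩
    have h1 := hLσ σ hσ i j
    rw [maximalIdeal_quot_pow_succ_pow, Ideal.mem_bot] at h1
    rw [← Ideal.Quotient.eq_zero_iff_mem]
    rw [← h1]
    simp only [Matrix.sub_apply, map_sub, hent, univMRep_apply]
    congr 1
    by_cases hij : i = j
    · subst hij; simp
    · simp [hij]

theorem univMRep_isNormalized : IsNormalized rd (univMRep P) := by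
  refine ⟨?_, ?_, ?_⟩
  · apply eq_of_forall_mk_pow_succ_eq
    intro n
    obtain ⟨-, ρ, -, hent, -, ⟨h1, -, -⟩, -⟩ := level_data P n
    rw [hent] at h1
    rw [univMRep_apply, h1, map_zero]
  · apply eq_of_forall_mk_pow_succ_eq
    intro n
    obtain ⟨-, ρ, -, hent, -, ⟨-, h2, -⟩, -⟩ := level_data P n
    rw [hent] at h2
    rw [univMRep_apply, h2, map_one]
  · apply eq_of_forall_mk_pow_succ_eq
    intro n
    obtain ⟨-, ρ, -, hent, -, ⟨-, -, h3⟩, -⟩ := level_data P n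
    rw [hent] at h3
    rw [univMRep_apply, h3]
    rfl

theorem univMRep_isLift : IsLift rd (univMRep P) := by
  obtain ⟨-, ρ, -, hent, hl, -, -⟩ := level_data P 0
  rw [level_eq_map P 0 ρ hent] at hl
  exact IsLift.of_map_algHom rd (Ideal.Quotient.mkₐ 𝒪 (maximalIdeal P.R ^ (0 + 1)))
    (isLocalHom_mkₐ_pow_succ 0) hl

end Univ

section Levels

variable {𝒪 : Type} [CommRing 𝒪] [IsLocalRing 𝒪]
  {ρbar : ResidualGaloisRep (ResidueField 𝒪)}
  {𝒟 : ∀ ⦃A : Type⦄ [CommRing A] [IsLocalRing A] [Algebra 𝒪 A], GaloisRepAdic A → Prop}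
  (rd : RigidData 𝒪 ρbar) (h𝒟 : GaloisRep.IsDeformationCondition 𝒪 𝒟)
  {A : Type} [CommRing A] [IsLocalRing A] [IsNoetherianRing A]
  [IsAdicComplete (maximalIdeal A) A] [Algebra 𝒪 A] [IsLocalHom (algebraMap 𝒪 A)]

include h𝒟 in
theorem isSDef_level (hres : Function.Surjective (residue A ∘ algebraMap 𝒪 A))
    (ρA : GaloisRepAdic A) (h𝒟A : 𝒟 ρA) (ρ' : MRep A) (h' : ρ'.IsAdicCont)
    (e : ρA.IsEquiv (ofMat ρ' h')) (hl : IsLift rd ρ') (hn : IsNormalized rd ρ') (n : ℕ) :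
    IsSDef 𝒪 ρbar 𝒟 rd (fun i : X =>
      Ideal.Quotient.mk (maximalIdeal A ^ (n + 1)) (ρ' i.1 i.2.1 i.2.2)) := by
  set q : A →ₐ[𝒪] A ⧸ maximalIdeal A ^ (n + 1) := Ideal.Quotient.mkₐ 𝒪 _ with hq_def
  have hq : IsLocalHom (q : A →+* A ⧸ maximalIdeal A ^ (n + 1)) := isLocalHom_mkₐ_pow_succ n
  have hT : GaloisRep.IsArtinianTestAlgebra 𝒪 (A ⧸ maximalIdeal A ^ (n + 1)) :=
    isArtinianTestAlgebra_quot_pow_succ hres n
  have hsurj : Function.Surjective q := Ideal.Quotient.mk_surjective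
  have h1 : 𝒟 (ρA.baseChangeAlong (q : A →+* A ⧸ maximalIdeal A ^ (n + 1)) hq) :=
    (h𝒟.iff_forall_surjective inferInstance hres ρA).mp h𝒟A hT q hq hsurj
  have e1 := isEquiv_baseChangeAlong (q : A →+* A ⧸ maximalIdeal A ^ (n + 1)) hq e
  have e2 := ofMat_baseChangeAlong_isEquiv ρ' h' (q : A →+* A ⧸ maximalIdeal A ^ (n + 1)) hq
  have h2 : 𝒟 (ofMat (ρ'.map (q : A →+* A ⧸ maximalIdeal A ^ (n + 1))) (h'.map _ hq)) :=
    h𝒟.of_isEquiv hT (isEquiv_trans e1 e2) h1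
  exact ⟨ρ'.map (q : A →+* A ⧸ maximalIdeal A ^ (n + 1)), h'.map _ hq, fun σ i j => rfl, hl.map_algHom rd q hq,
    hn.map_algHom rd q, h2⟩

end Levels

section OfType

variable {𝒪 : Type} [CommRing 𝒪] [IsLocalRing 𝒪]
  {ρbar : ResidualGaloisRep (ResidueField 𝒪)}
  {𝒟 : ∀ ⦃A : Type⦄ [CommRing A] [IsLocalRing A] [Algebra 𝒪 A], GaloisRepAdic A → Prop}
  {rd : RigidData 𝒪 ρbar} (h𝒟 : GaloisRep.IsDeformationCondition 𝒪 𝒟)
  (P : ProRepData 𝒪 X (IsSDef 𝒪 ρbar 𝒟 rd))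

theorem exists_pow_succ_eq_bot {B : Type} [CommRing B] [IsLocalRing B] [IsArtinianRing B] :
    ∃ n : ℕ, maximalIdeal B ^ (n + 1) = ⊥ := by
  obtain ⟨n, hn⟩ := (isArtinianRing_iff_isNilpotent_maximalIdeal B).mp inferInstance
  refine ⟨n, ?_⟩
  rw [pow_succ, hn]
  simp

include h𝒟 in
theorem univ_isOfType : 𝒟 (ofMat (univMRep P) (univMRep_isAdicCont P)) := by
  rw [h𝒟.iff_forall_surjective inferInstance P.residue_surjective]
  intro B _ _ _ hB q hq hsurj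
  haveI := hB.isArtinian
  obtain ⟨n, hn⟩ := exists_pow_succ_eq_bot (B := B)
  -- q kills 𝔪^(n+1)
  have hker : ∀ a ∈ maximalIdeal P.R ^ (n + 1), q a = 0 := by
    intro a ha
    have h1 : (q : P.R →+* B) a ∈ (maximalIdeal P.R ^ (n + 1)).map (q : P.R →+* B) :=
      Ideal.mem_map_of_mem _ ha
    rw [Ideal.map_pow] at h1
    have h2 : (maximalIdeal P.R).map (q : P.R →+* B) ^ (n + 1) ≤ maximalIdeal B ^ (n + 1) :=
      Ideal.pow_right_mono (map_maximalIdeal_le (q : P.R →+* B)) _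
    have h3 := h2 h1
    rw [hn, Ideal.mem_bot] at h3
    exact h3
  set q' : (P.R ⧸ maximalIdeal P.R ^ (n + 1)) →ₐ[𝒪] B :=
    Ideal.Quotient.liftₐ (maximalIdeal P.R ^ (n + 1)) q hker with hq'_def
  have hq' : IsLocalHom (q' : (P.R ⧸ maximalIdeal P.R ^ (n + 1)) →+* B) :=
    isLocalHom_of_residue_surjective_asm hB.residue_surjective q'
  obtain ⟨hT, ρn, hρn, hent, -, -, h𝒟n⟩ := level_data P n
  have h1 : 𝒟 ((ofMat ρn hρn).baseChangeAlong
      (q' : (P.R ⧸ maximalIdeal P.R ^ (n + 1)) →+* B) hq') :=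
    h𝒟.baseChangeAlong hT hB q' hq' h𝒟n
  have e1 := ofMat_baseChangeAlong_isEquiv ρn hρn
    (q' : (P.R ⧸ maximalIdeal P.R ^ (n + 1)) →+* B) hq'
  have e2 := ofMat_baseChangeAlong_isEquiv (univMRep P) (univMRep_isAdicCont P)
    (q : P.R →+* B) hq
  have hmap : ρn.map (q' : (P.R ⧸ maximalIdeal P.R ^ (n + 1)) →+* B) =
      (univMRep P).map (q : P.R →+* B) := by
    ext σ i j
    rw [MRep.map_apply, MRep.map_apply, hent, univMRep_apply]
    rfl
  have e3 := ofMat_congr (hρn.map _ hq') ((univMRep_isAdicCont P).map _ hq) hmap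
  exact h𝒟.of_isEquiv hB (isEquiv_trans (isEquiv_trans e1 e3) (isEquiv_symm e2)) h1

end OfType

section UniversalExistence

variable {𝒪 : Type} [CommRing 𝒪] [IsLocalRing 𝒪]
  {ρbar : ResidualGaloisRep (ResidueField 𝒪)}
  {𝒟 : ∀ ⦃A : Type⦄ [CommRing A] [IsLocalRing A] [Algebra 𝒪 A], GaloisRepAdic A → Prop}
  {rd : RigidData 𝒪 ρbar} (h𝒟 : GaloisRep.IsDeformationCondition 𝒪 𝒟)
  (P : ProRepData 𝒪 X (IsSDef 𝒪 ρbar 𝒟 rd))
  {A : Type} [CommRing A] [IsLocalRing A] [IsNoetherianRing A]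
  [IsAdicComplete (maximalIdeal A) A] [Algebra 𝒪 A] [IsLocalHom (algebraMap 𝒪 A)]

include h𝒟 in
/-- existence of the classifying map for a normalised lift -/
theorem exists_algHom_of_normalised (hres : Function.Surjective (residue A ∘ algebraMap 𝒪 A))
    (ρA : GaloisRepAdic A) (h𝒟A : 𝒟 ρA) (ρ' : MRep A) (h' : ρ'.IsAdicCont)
    (e : ρA.IsEquiv (ofMat ρ' h')) (hl : IsLift rd ρ') (hn : IsNormalized rd ρ') :
    ∃ φ : P.R →ₐ[𝒪] A, ∀ σ i j, φ (P.pt (σ, i, j)) = ρ' σ i j := by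
  have hT : ∀ n : ℕ, GaloisRep.IsArtinianTestAlgebra 𝒪 (A ⧸ maximalIdeal A ^ (n + 1)) :=
    fun n => isArtinianTestAlgebra_quot_pow_succ hres n
  have hx := isSDef_level rd h𝒟 hres ρA h𝒟A ρ' h' e hl hn
  have huniv := fun n => P.universal (A ⧸ maximalIdeal A ^ (n + 1)) (hT n) _ (hx n)
  choose φn hφn hφn_uniq using huniv
  -- compatibility of the level maps
  have hcompat : ∀ {m n : ℕ} (hle : m ≤ n),
      (Ideal.Quotient.factorₐ 𝒪 (Ideal.pow_le_pow_right (Nat.succ_le_succ hle))).comp (φn n) =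
        φn m := by
    intro m n hle
    apply hφn_uniq m
    intro i
    rw [AlgHom.comp_apply, hφn n i]
    rfl
  let f : (n : ℕ) → P.R →ₐ[𝒪] A ⧸ maximalIdeal A ^ n := fun n =>
    (Ideal.Quotient.factorₐ 𝒪 (Ideal.pow_le_pow_right (Nat.le_succ n))).comp (φn n)
  have hf : ∀ {m n : ℕ} (hle : m ≤ n),
      (Ideal.Quotient.factorₐ 𝒪 (Ideal.pow_le_pow_right hle)).comp (f n) = f m := by
    intro m n hle
    simp only [f]
    rw [← hcompat hle, ← AlgHom.comp_assoc, ← AlgHom.comp_assoc, Ideal.Quotient.factorₐ_comp,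
      Ideal.Quotient.factorₐ_comp]
  refine ⟨IsAdicComplete.liftAlgHom (maximalIdeal A) f hf, fun σ i j => ?_⟩
  apply eq_of_forall_mk_pow_succ_eq
  intro n
  rw [IsAdicComplete.mk_liftAlgHom]
  simp only [f, AlgHom.comp_apply]
  rw [hφn (n + 1) (σ, i, j)]
  rfl

end UniversalExistence

section UniversalUnique

variable {𝒪 : Type} [CommRing 𝒪] [IsLocalRing 𝒪]
  {ρbar : ResidualGaloisRep (ResidueField 𝒪)}
  {𝒟 : ∀ ⦃A : Type⦄ [CommRing A] [IsLocalRing A] [Algebra 𝒪 A], GaloisRepAdic A → Prop}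
  {rd : RigidData 𝒪 ρbar} (h𝒟 : GaloisRep.IsDeformationCondition 𝒪 𝒟)
  (P : ProRepData 𝒪 X (IsSDef 𝒪 ρbar 𝒟 rd))
  {A : Type} [CommRing A] [IsLocalRing A] [IsNoetherianRing A]
  [IsAdicComplete (maximalIdeal A) A] [Algebra 𝒪 A] [IsLocalHom (algebraMap 𝒪 A)]

/-- two classifying maps induce the same matrices -/
theorem univ_map_eq_of_isEquiv (hres : Function.Surjective (residue A ∘ algebraMap 𝒪 A))
    (ρA : GaloisRepAdic A) (φ₁ φ₂ : P.R →ₐ[𝒪] A)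
    (hφ₁ : IsLocalHom (φ₁ : P.R →+* A)) (hφ₂ : IsLocalHom (φ₂ : P.R →+* A))
    (e₁ : ((ofMat (univMRep P) (univMRep_isAdicCont P)).baseChangeAlong
      (φ₁ : P.R →+* A) hφ₁).IsEquiv ρA)
    (e₂ : ((ofMat (univMRep P) (univMRep_isAdicCont P)).baseChangeAlong
      (φ₂ : P.R →+* A) hφ₂).IsEquiv ρA) :
    (univMRep P).map (φ₁ : P.R →+* A) = (univMRep P).map (φ₂ : P.R →+* A) := by
  have a₁ := ofMat_baseChangeAlong_isEquiv (univMRep P) (univMRep_isAdicCont P)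
    (φ₁ : P.R →+* A) hφ₁
  have a₂ := ofMat_baseChangeAlong_isEquiv (univMRep P) (univMRep_isAdicCont P)
    (φ₂ : P.R →+* A) hφ₂
  have e := isEquiv_trans (isEquiv_trans (isEquiv_symm a₁) e₁)
    (isEquiv_trans (isEquiv_symm e₂) a₂)
  exact normalForm_unique rd hres _ _ _ _
    ((univMRep_isLift P).map_algHom rd φ₁ hφ₁) ((univMRep_isLift P).map_algHom rd φ₂ hφ₂)
    ((univMRep_isNormalized P).map_algHom rd φ₁) ((univMRep_isNormalized P).map_algHom rd φ₂) e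

include h𝒟 in
theorem algHom_unique (hres : Function.Surjective (residue A ∘ algebraMap 𝒪 A))
    (ρA : GaloisRepAdic A) (h𝒟A : 𝒟 ρA) (φ₁ φ₂ : P.R →ₐ[𝒪] A)
    (hφ₁ : IsLocalHom (φ₁ : P.R →+* A)) (hφ₂ : IsLocalHom (φ₂ : P.R →+* A))
    (e₁ : ((ofMat (univMRep P) (univMRep_isAdicCont P)).baseChangeAlong
      (φ₁ : P.R →+* A) hφ₁).IsEquiv ρA)
    (e₂ : ((ofMat (univMRep P) (univMRep_isAdicCont P)).baseChangeAlong
      (φ₂ : P.R →+* A) hφ₂).IsEquiv ρA) : φ₁ = φ₂ := by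
  have hmap := univ_map_eq_of_isEquiv P hres ρA φ₁ φ₂ hφ₁ hφ₂ e₁ e₂
  apply IsAdicComplete.algHom_ext (maximalIdeal A)
  intro n
  cases n with
  | zero =>
    have : Subsingleton (A ⧸ maximalIdeal A ^ 0) := by
      rw [Ideal.Quotient.subsingleton_iff, pow_zero, Ideal.one_eq_top]
    ext x
    exact Subsingleton.elim _ _
  | succ m =>
    have a₁ := ofMat_baseChangeAlong_isEquiv (univMRep P) (univMRep_isAdicCont P)
      (φ₁ : P.R →+* A) hφ₁
    have eA : ρA.IsEquiv (ofMat ((univMRep P).map (φ₁ : P.R →+* A))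
        ((univMRep_isAdicCont P).map _ hφ₁)) := isEquiv_trans (isEquiv_symm e₁) a₁
    have hx := isSDef_level rd h𝒟 hres ρA h𝒟A _ _ eA
      ((univMRep_isLift P).map_algHom rd φ₁ hφ₁) ((univMRep_isNormalized P).map_algHom rd φ₁) m
    have hu := P.universal (A ⧸ maximalIdeal A ^ (m + 1))
      (isArtinianTestAlgebra_quot_pow_succ hres m) _ hx
    apply hu.unique
    · rintro ⟨σ, i, j⟩
      rfl
    · rintro ⟨σ, i, j⟩
      have := congrFun (congrFun (DFunLike.congr_fun hmap σ) i) j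
      simp only [MRep.map_apply, univMRep_apply] at this
      have this' : φ₁ (P.pt (σ, i, j)) = φ₂ (P.pt (σ, i, j)) := this
      show Ideal.Quotient.mk (maximalIdeal A ^ (m + 1)) (φ₂ (P.pt (σ, i, j))) =
        Ideal.Quotient.mk (maximalIdeal A ^ (m + 1)) (φ₁ (P.pt (σ, i, j)))
      rw [this']

end UniversalUnique

section UniversalProp

variable {𝒪 : Type} [CommRing 𝒪] [IsLocalRing 𝒪]
  {ρbar : ResidualGaloisRep (ResidueField 𝒪)}
  {𝒟 : ∀ ⦃A : Type⦄ [CommRing A] [IsLocalRing A] [Algebra 𝒪 A], GaloisRepAdic A → Prop}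
  {rd : RigidData 𝒪 ρbar} (h𝒟 : GaloisRep.IsDeformationCondition 𝒪 𝒟)
  (P : ProRepData 𝒪 X (IsSDef 𝒪 ρbar 𝒟 rd))
  {A : Type} [CommRing A] [IsLocalRing A] [IsNoetherianRing A]
  [IsAdicComplete (maximalIdeal A) A] [Algebra 𝒪 A] [IsLocalHom (algebraMap 𝒪 A)]

include h𝒟 in
theorem univ_universal (hres : Function.Surjective (residue A ∘ algebraMap 𝒪 A))
    (ρA : GaloisRepAdic A) (h𝒟A : 𝒟 ρA)
    (e : ρA.residual.IsEquiv (ρbar.baseChangeAlong (ResidueField.map (algebraMap 𝒪 A)))) :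
    ∃! φ : P.R →ₐ[𝒪] A, ∃ hφ : IsLocalHom (φ : P.R →+* A),
      ((ofMat (univMRep P) (univMRep_isAdicCont P)).baseChangeAlong
        (φ : P.R →+* A) hφ).IsEquiv ρA := by
  obtain ⟨ρ', h', eA, hl, hn⟩ := exists_normalForm rd ρA e
  obtain ⟨φ, hφpt⟩ := exists_algHom_of_normalised h𝒟 P hres ρA h𝒟A ρ' h' eA hl hn
  have hφ : IsLocalHom (φ : P.R →+* A) := isLocalHom_of_residue_surjective_asm hres φ
  have hmap : (univMRep P).map (φ : P.R →+* A) = ρ' := by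
    ext σ i j
    rw [MRep.map_apply, univMRep_apply]
    exact hφpt σ i j
  have a := ofMat_baseChangeAlong_isEquiv (univMRep P) (univMRep_isAdicCont P)
    (φ : P.R →+* A) hφ
  have eφ : ((ofMat (univMRep P) (univMRep_isAdicCont P)).baseChangeAlong
      (φ : P.R →+* A) hφ).IsEquiv ρA :=
    isEquiv_trans (isEquiv_trans a (ofMat_congr _ h' hmap)) (isEquiv_symm eA)
  refine ⟨φ, ⟨hφ, eφ⟩, ?_⟩
  rintro ψ ⟨hψ, eψ⟩
  exact algHom_unique h𝒟 P hres ρA h𝒟A ψ φ hψ hφ eψ eφ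

end UniversalProp

section Final

variable {𝒪 : Type} [CommRing 𝒪] [IsDomain 𝒪] [IsDiscreteValuationRing 𝒪]
  [IsAdicComplete (maximalIdeal 𝒪) 𝒪]
  {ρbar : ResidualGaloisRep (ResidueField 𝒪)}
  {𝒟 : ∀ ⦃A : Type⦄ [CommRing A] [IsLocalRing A] [Algebra 𝒪 A], GaloisRepAdic A → Prop}
  {rd : RigidData 𝒪 ρbar}

/-- the universal deformation ring data -/
def deformationRingData (habs : ρbar.IsAbsolutelyIrreducible)
    (h𝒟 : GaloisRep.IsDeformationCondition 𝒪 𝒟)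
    (P : ProRepData 𝒪 X (IsSDef 𝒪 ρbar 𝒟 rd)) : GaloisRep.DeformationRingData 𝒪 ρbar 𝒟 where
  R := P.R
  residue_surjective := P.residue_surjective
  absIrr := habs
  ρ := ofMat (univMRep P) (univMRep_isAdicCont P)
  isOfType := univ_isOfType h𝒟 P
  residual_isEquiv := residual_ofMat_isEquiv ρbar rd.bbar _ _ _
    ((isLift_iff_isLiftOf rd _).mp (univMRep_isLift P))
  universal := fun A _ _ _ _ _ _ hres ρA h𝒟A e => univ_universal h𝒟 P hres ρA h𝒟A e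

theorem nonempty_deformationRingData [Finite (ResidueField 𝒪)]
    (ρbar : ResidualGaloisRep (ResidueField 𝒪))
    (𝒟 : ∀ ⦃A : Type⦄ [CommRing A] [IsLocalRing A] [Algebra 𝒪 A], GaloisRepAdic A → Prop)
    (habs : ρbar.IsAbsolutelyIrreducible)
    (h𝒟 : GaloisRep.IsDeformationCondition 𝒪 𝒟)
    (hbar : 𝒟 (GaloisRepAdic.ofResidualGaloisRep ρbar))
    (hfin : GaloisRep.TangentFinite 𝒪 ρbar 𝒟) :
    Nonempty (GaloisRep.DeformationRingData 𝒪 ρbar 𝒟) := by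
  obtain ⟨rd⟩ := nonempty_rigidData 𝒪 ρbar habs
  obtain ⟨P⟩ := nonempty_proRepData 𝒪 X _
    (isProRepresentablePredicate_isSDef 𝒪 ρbar 𝒟 rd h𝒟 hbar hfin)
  exact ⟨deformationRingData habs h𝒟 P⟩

end Final


end Fermat.Agent.S53
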