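import Mathlib.RingTheory.AdicCompletion.Basic
import Mathlib.RingTheory.MvPowerSeries.Equiv
import Mathlib.RingTheory.MvPowerSeries.Inverse
import Mathlib.RingTheory.LocalRing.RingHom.Basic
import Mathlib.RingTheory.LocalRing.ResidueField.Basic
import Mathlib.RingTheory.Nakayama
import Mathlib.RingTheory.Artinian.Ring
import Mathlib.RingTheory.Ideal.Quotient.Noetherian
import Fermat.Prelude.Thm_IsLocalRing_isAdicComplete_of_module_finite

set_option autoImplicit false
set_option linter.unusedSectionVars false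

namespace Fermat.Agent.S53.Lim

open IsLocalRing

section IdealLimit

variable {P : Type} [CommRing P]

/-- one approximation step -/
private noncomputable def nextApprox (𝔪 : Ideal P) (J : ℕ → Ideal P) (j : ℕ) (x : P) : P := by
  classical
  exact if h : ∃ y ∈ J (j + 1), ∃ z ∈ 𝔪 ^ (j + 1), y + z = x then h.choose else 0

private lemma nextApprox_spec (𝔪 : Ideal P) (J : ℕ → Ideal P)
    (hJ : ∀ n, J n ≤ J (n + 1) ⊔ 𝔪 ^ (n + 1)) (j : ℕ) (x : P) (hx : x ∈ J j) :
    nextApprox 𝔪 J j x ∈ J (j + 1) ∧ x - nextApprox 𝔪 J j x ∈ 𝔪 ^ (j + 1) := by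
  have h : ∃ y ∈ J (j + 1), ∃ z ∈ 𝔪 ^ (j + 1), y + z = x := Submodule.mem_sup.mp (hJ j hx)
  unfold nextApprox
  rw [dif_pos h]
  obtain ⟨h1, z, hz, hyz⟩ := h.choose_spec
  refine ⟨h1, ?_⟩
  have : x - h.choose = z := sub_eq_of_eq_add' hyz.symm
  rw [this]
  exact hz

/-- the approximating sequence starting at level `n` -/
private noncomputable def approxSeq (𝔪 : Ideal P) (J : ℕ → Ideal P) (n : ℕ) (f : P) : ℕ → P
  | 0 => f
  | j + 1 => nextApprox 𝔪 J (n + j) (approxSeq 𝔪 J n f j)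

private lemma approxSeq_mem (𝔪 : Ideal P) (J : ℕ → Ideal P)
    (hJ : ∀ n, J n ≤ J (n + 1) ⊔ 𝔪 ^ (n + 1)) (n : ℕ) (f : P) (hf : f ∈ J n) (j : ℕ) :
    approxSeq 𝔪 J n f j ∈ J (n + j) := by
  induction j with
  | zero => simpa [approxSeq] using hf
  | succ j ih =>
    have := (nextApprox_spec 𝔪 J hJ (n + j) _ ih).1
    simpa [approxSeq, add_assoc] using this

private lemma approxSeq_sub (𝔪 : Ideal P) (J : ℕ → Ideal P)
    (hJ : ∀ n, J n ≤ J (n + 1) ⊔ 𝔪 ^ (n + 1)) (n : ℕ) (f : P) (hf : f ∈ J n) (j : ℕ) :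
    approxSeq 𝔪 J n f j - approxSeq 𝔪 J n f (j + 1) ∈ 𝔪 ^ (n + j + 1) :=
  (nextApprox_spec 𝔪 J hJ (n + j) _ (approxSeq_mem 𝔪 J hJ n f hf j)).2

private lemma approxSeq_sub_le (𝔪 : Ideal P) (J : ℕ → Ideal P)
    (hJ : ∀ n, J n ≤ J (n + 1) ⊔ 𝔪 ^ (n + 1)) (n : ℕ) (f : P) (hf : f ∈ J n) (j k : ℕ) :
    approxSeq 𝔪 J n f j - approxSeq 𝔪 J n f (j + k) ∈ 𝔪 ^ (n + j + 1) := by
  induction k with
  | zero => simp
  | succ k ih =>
    have h1 := approxSeq_sub 𝔪 J hJ n f hf (j + k)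
    have h2 : 𝔪 ^ (n + (j + k) + 1) ≤ 𝔪 ^ (n + j + 1) := Ideal.pow_le_pow_right (by omega)
    have : approxSeq 𝔪 J n f j - approxSeq 𝔪 J n f (j + (k + 1)) =
        (approxSeq 𝔪 J n f j - approxSeq 𝔪 J n f (j + k)) +
        (approxSeq 𝔪 J n f (j + k) - approxSeq 𝔪 J n f (j + k + 1)) := by
      rw [← add_assoc]; ring
    rw [this]
    exact Ideal.add_mem _ ih (h2 h1)

/-- **Mittag-Leffler for ideals in a precomplete ring.** If `J n = J (n+1) + 𝔪^(n+1)` for all `n`
then `J n = (⨅ J) + 𝔪^(n+1)`. -/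
theorem ideal_eq_iInf_sup_pow (𝔪 : Ideal P) [IsPrecomplete 𝔪 P] (J : ℕ → Ideal P)
    (hJ : ∀ n, J n ≤ J (n + 1) ⊔ 𝔪 ^ (n + 1)) (hmono : ∀ n, J (n + 1) ≤ J n)
    (hpow : ∀ n, 𝔪 ^ (n + 1) ≤ J n) (n : ℕ) :
    J n = (⨅ m, J m) ⊔ 𝔪 ^ (n + 1) := by
  have hanti : ∀ {a b : ℕ}, a ≤ b → J b ≤ J a := by
    intro a b hab
    induction hab with
    | refl => exact le_rfl
    | step _ ih => exact (hmono _).trans ih
  apply le_antisymm
  · intro f hf
    set F := approxSeq 𝔪 J n f with hF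
    -- the Cauchy sequence a j := f - F j
    have hcauchy : ∀ {m m' : ℕ}, m ≤ m' →
        (f - F m) ≡ (f - F m') [SMOD (𝔪 ^ m • ⊤ : Submodule P P)] := by
      intro m m' hmm'
      rw [SModEq.sub_mem]
      obtain ⟨k, rfl⟩ := Nat.exists_eq_add_of_le hmm'
      have h1 := approxSeq_sub_le 𝔪 J hJ n f hf m k
      have h2 : 𝔪 ^ (n + m + 1) ≤ 𝔪 ^ m := Ideal.pow_le_pow_right (by omega)
      have h3 : f - F m - (f - F (m + k)) = -(F m - F (m + k)) := by ring
      rw [h3, smul_eq_mul, Ideal.mul_top]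
      exact Ideal.neg_mem_iff _ |>.mpr (h2 h1)
    obtain ⟨L, hL⟩ := IsPrecomplete.prec (I := 𝔪) (M := P) inferInstance hcauchy
    have hL' : ∀ m, f - F m - L ∈ 𝔪 ^ m := by
      intro m
      have := (SModEq.sub_mem).mp (hL m)
      rwa [smul_eq_mul, Ideal.mul_top] at this
    -- L ∈ 𝔪^(n+1)
    have hFsub : ∀ j, f - F j ∈ 𝔪 ^ (n + 1) := by
      intro j
      have h1 := approxSeq_sub_le 𝔪 J hJ n f hf 0 j
      simpa [hF, approxSeq] using h1
    have hLm : L ∈ 𝔪 ^ (n + 1) := by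
      have h1 := hL' (n + 1)
      have h2 := hFsub (n + 1)
      have : L = (f - F (n + 1)) - (f - F (n + 1) - L) := by ring
      rw [this]
      exact Ideal.sub_mem _ h2 h1
    -- f - L ∈ ⨅ J
    have hfL : f - L ∈ ⨅ m, J m := by
      rw [Ideal.mem_iInf]
      intro m
      have h1 : F (m + 1) ∈ J m :=
        hanti (by omega) (approxSeq_mem 𝔪 J hJ n f hf (m + 1))
      have h2 : f - F (m + 1) - L ∈ J m := hpow m (hL' (m + 1))
      have : f - L = F (m + 1) + (f - F (m + 1) - L) := by ring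
      rw [this]
      exact Ideal.add_mem _ h1 h2
    have : f = (f - L) + L := by ring
    rw [this]
    exact Ideal.add_mem _ (Ideal.mem_sup_left hfL) (Ideal.mem_sup_right hLm)
  · exact sup_le (iInf_le _ _) (hpow n)

end IdealLimit


section EvalNilp

open MvPowerSeries

variable {𝒪 A : Type} [CommRing 𝒪] [CommRing A] [Algebra 𝒪 A] {r : ℕ}

lemma aeval_eq_zero_of_mem_pow_idealOfVars (a : Fin r → A) (n : ℕ)
    (h : Ideal.span (Set.range a) ^ n = ⊥) (p : MvPolynomial (Fin r) 𝒪)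
    (hp : p ∈ MvPolynomial.idealOfVars (Fin r) 𝒪 ^ n) : MvPolynomial.aeval a p = 0 := by
  let ev : MvPolynomial (Fin r) 𝒪 →+* A :=
    (MvPolynomial.aeval a : MvPolynomial (Fin r) 𝒪 →ₐ[𝒪] A).toRingHom
  have h1 : Ideal.map ev (MvPolynomial.idealOfVars (Fin r) 𝒪 ^ n) = ⊥ := by
    rw [Ideal.map_pow, MvPolynomial.idealOfVars, Ideal.map_span, ← Set.range_comp]
    have : (ev ∘ MvPolynomial.X) = a := by
      funext i
      simp [ev]
    rw [this, h]
  have h2 := Ideal.mem_map_of_mem ev hp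
  rw [h1] at h2
  simpa [ev] using h2

/-- Evaluation of power series at a tuple generating a nilpotent ideal. -/
noncomputable def evalNilp (a : Fin r → A) (n : ℕ) (h : Ideal.span (Set.range a) ^ n = ⊥) :
    MvPowerSeries (Fin r) 𝒪 →ₐ[𝒪] A :=
  (Ideal.Quotient.liftₐ (MvPolynomial.idealOfVars (Fin r) 𝒪 ^ n) (MvPolynomial.aeval a)
    (aeval_eq_zero_of_mem_pow_idealOfVars a n h)).comp
    ((truncTotalAlgHom (Fin r) 𝒪 n).restrictScalars 𝒪)

lemma evalNilp_apply (a : Fin r → A) (n : ℕ) (h : Ideal.span (Set.range a) ^ n = ⊥)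
    (f : MvPowerSeries (Fin r) 𝒪) :
    evalNilp a n h f = MvPolynomial.aeval a (truncTotal n f) := by
  simp [evalNilp]

lemma evalNilp_coe (a : Fin r → A) (n : ℕ) (h : Ideal.span (Set.range a) ^ n = ⊥)
    (p : MvPolynomial (Fin r) 𝒪) :
    evalNilp a n h (p : MvPowerSeries (Fin r) 𝒪) = MvPolynomial.aeval a p := by
  have h1 := (truncTotalAlgHom (Fin r) 𝒪 n).commutes p
  have h2 : algebraMap (MvPolynomial (Fin r) 𝒪) (MvPowerSeries (Fin r) 𝒪) p =
      (p : MvPowerSeries (Fin r) 𝒪) := rfl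
  rw [h2] at h1
  simp only [evalNilp, AlgHom.coe_comp, AlgHom.coe_restrictScalars', Function.comp_apply, h1]
  rfl

lemma evalNilp_X (a : Fin r → A) (n : ℕ) (h : Ideal.span (Set.range a) ^ n = ⊥) (i : Fin r) :
    evalNilp (𝒪 := 𝒪) a n h (X i) = a i := by
  rw [← MvPolynomial.coe_X, evalNilp_coe, MvPolynomial.aeval_X]

lemma evalNilp_succ (a : Fin r → A) (n : ℕ) (h : Ideal.span (Set.range a) ^ n = ⊥)
    (h' : Ideal.span (Set.range a) ^ (n + 1) = ⊥) :
    evalNilp (𝒪 := 𝒪) a (n + 1) h' = evalNilp a n h := by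
  ext f
  rw [evalNilp_apply, evalNilp_apply, ← sub_eq_zero, ← map_sub]
  exact aeval_eq_zero_of_mem_pow_idealOfVars a n h _
    (truncTotal_sub_truncTotal_mem_pow_idealOfVars (Nat.le_succ n) le_rfl f)

lemma comp_evalNilp {B : Type} [CommRing B] [Algebra 𝒪 B] (φ : A →ₐ[𝒪] B) (a : Fin r → A)
    (n : ℕ) (h : Ideal.span (Set.range a) ^ n = ⊥)
    (h' : Ideal.span (Set.range (φ ∘ a)) ^ n = ⊥) :
    φ.comp (evalNilp (𝒪 := 𝒪) a n h) = evalNilp (φ ∘ a) n h' := by
  ext f
  rw [AlgHom.comp_apply, evalNilp_apply, evalNilp_apply]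
  have := MvPolynomial.comp_aeval (R := 𝒪) a φ
  exact DFunLike.congr_fun this _

lemma evalNilp_congr (a a' : Fin r → A) (e : a = a') (n : ℕ)
    (h : Ideal.span (Set.range a) ^ n = ⊥) (h' : Ideal.span (Set.range a') ^ n = ⊥) :
    evalNilp (𝒪 := 𝒪) a n h = evalNilp a' n h' := by
  subst e
  rfl

end EvalNilp


section Surjective

variable {𝒪 A Q : Type} [CommRing 𝒪] [CommRing A] [IsLocalRing A] [Algebra 𝒪 A]
  [CommRing Q] [Algebra 𝒪 Q]

private lemma approx_step (θ : Q →ₐ[𝒪] A) (G : Set Q)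
    (hres : Function.Surjective (residue A ∘ algebraMap 𝒪 A))
    (hgen : maximalIdeal A = Ideal.span (θ '' G)) (j : ℕ) :
    ∀ e ∈ maximalIdeal A ^ j, ∃ g : Q, e - θ g ∈ maximalIdeal A ^ (j + 1) := by
  induction j with
  | zero =>
    intro e _
    obtain ⟨c, hc⟩ := hres (residue A e)
    refine ⟨algebraMap 𝒪 Q c, ?_⟩
    rw [θ.commutes, zero_add, pow_one, ← residue_eq_zero_iff, map_sub]
    simp only [Function.comp_apply] at hc
    rw [hc, sub_self]
  | succ j ih =>
    intro e he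
    rw [pow_succ] at he
    refine Submodule.mul_induction_on he ?_ ?_
    · intro m hm n hn
      rw [hgen] at hn
      -- induct on `n ∈ span (θ '' G)`, generalising `m`
      have key : ∀ m ∈ maximalIdeal A ^ j, ∃ g : Q, m * n - θ g ∈ maximalIdeal A ^ (j + 1 + 1) := by
        refine Submodule.span_induction (p := fun n _ => ∀ m ∈ maximalIdeal A ^ j,
          ∃ g : Q, m * n - θ g ∈ maximalIdeal A ^ (j + 1 + 1)) ?_ ?_ ?_ ?_ hn
        · rintro _ ⟨γ, hγ, rfl⟩ m hm
          obtain ⟨g, hg⟩ := ih m hm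
          refine ⟨g * γ, ?_⟩
          have hγm : θ γ ∈ maximalIdeal A := by
            rw [hgen]; exact Ideal.subset_span ⟨γ, hγ, rfl⟩
          have : m * θ γ - θ (g * γ) = (m - θ g) * θ γ := by rw [map_mul]; ring
          rw [this, pow_succ (maximalIdeal A) (j + 1)]
          exact Ideal.mul_mem_mul hg hγm
        · intro m _
          exact ⟨0, by simp⟩
        · intro x y _ _ hx hy m hm
          obtain ⟨g1, h1⟩ := hx m hm
          obtain ⟨g2, h2⟩ := hy m hm
          refine ⟨g1 + g2, ?_⟩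
          have : m * (x + y) - θ (g1 + g2) = (m * x - θ g1) + (m * y - θ g2) := by
            rw [map_add]; ring
          rw [this]
          exact Ideal.add_mem _ h1 h2
        · intro c x _ hx m hm
          obtain ⟨g, hg⟩ := hx (m * c) (Ideal.mul_mem_right _ _ hm)
          refine ⟨g, ?_⟩
          have : m * (c • x) - θ g = m * c * x - θ g := by rw [smul_eq_mul]; ring
          rw [this]
          exact hg
      exact key m hm
    · rintro x y ⟨g1, h1⟩ ⟨g2, h2⟩
      refine ⟨g1 + g2, ?_⟩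
      have : x + y - θ (g1 + g2) = (x - θ g1) + (y - θ g2) := by rw [map_add]; ring
      rw [this]
      exact Ideal.add_mem _ h1 h2

/-- An algebra map into a local algebra with nilpotent maximal ideal, hitting generators of the
maximal ideal and inducing a surjection on residue fields from the base, is surjective. -/
theorem surjective_of_span_image (θ : Q →ₐ[𝒪] A) (G : Set Q) (N : ℕ)
    (hnil : maximalIdeal A ^ N = ⊥)
    (hres : Function.Surjective (residue A ∘ algebraMap 𝒪 A))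
    (hgen : maximalIdeal A = Ideal.span (θ '' G)) : Function.Surjective θ := by
  have key : ∀ j : ℕ, ∀ x : A, ∃ f : Q, x - θ f ∈ maximalIdeal A ^ j := by
    intro j
    induction j with
    | zero =>
      intro x
      exact ⟨0, by simp⟩
    | succ j ih =>
      intro x
      obtain ⟨f, hf⟩ := ih x
      obtain ⟨g, hg⟩ := approx_step θ G hres hgen j _ hf
      refine ⟨f + g, ?_⟩
      have : x - θ (f + g) = x - θ f - θ g := by rw [map_add]; ring
      rw [this]
      exact hg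
  intro x
  obtain ⟨f, hf⟩ := key N x
  rw [hnil, Ideal.mem_bot, sub_eq_zero] at hf
  exact ⟨f, hf.symm⟩

end Surjective


section Tower

variable {𝒪 : Type} [CommRing 𝒪] [IsLocalRing 𝒪]
  {Rn : ℕ → Type} [∀ n, CommRing (Rn n)] [∀ n, IsLocalRing (Rn n)] [∀ n, Algebra 𝒪 (Rn n)]
  (t : ∀ n, Rn (n + 1) →ₐ[𝒪] Rn n)

/-- compatible lifts of an element of level one, levels `≥ 1` -/
noncomputable def liftSeq (hsurj : ∀ n, Function.Surjective (t n)) (x : Rn 1) :
    (n : ℕ) → Rn (n + 1)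
  | 0 => x
  | n + 1 => Classical.choose (hsurj (n + 1) (liftSeq hsurj x n))

/-- compatible lifts of an element of level one, all levels -/
noncomputable def compatSeq (hsurj : ∀ n, Function.Surjective (t n)) (x : Rn 1) :
    (n : ℕ) → Rn n
  | 0 => t 0 x
  | n + 1 => liftSeq t hsurj x n

lemma compatSeq_one (hsurj : ∀ n, Function.Surjective (t n)) (x : Rn 1) :
    compatSeq t hsurj x 1 = x := rfl

lemma compatSeq_compat (hsurj : ∀ n, Function.Surjective (t n)) (x : Rn 1) (n : ℕ) :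
    t n (compatSeq t hsurj x (n + 1)) = compatSeq t hsurj x n := by
  cases n with
  | zero => rfl
  | succ n => exact Classical.choose_spec (hsurj (n + 1) (liftSeq t hsurj x n))

lemma isLocalHom_of_surj (hsurj : ∀ n, Function.Surjective (t n)) (n : ℕ) :
    IsLocalHom (t n : Rn (n + 1) →+* Rn n) :=
  IsLocalHom.of_surjective _ (hsurj n)

lemma compatSeq_mem (hsurj : ∀ n, Function.Surjective (t n)) (x : Rn 1)
    (hx : x ∈ maximalIdeal (Rn 1)) (n : ℕ) : compatSeq t hsurj x n ∈ maximalIdeal (Rn n) := by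
  have hloc := isLocalHom_of_surj t hsurj
  -- first all levels `≥ 1`
  have h1 : ∀ n, compatSeq t hsurj x (n + 1) ∈ maximalIdeal (Rn (n + 1)) := by
    intro n
    induction n with
    | zero => exact hx
    | succ n ih =>
      by_contra hcon
      have hu : IsUnit (compatSeq t hsurj x (n + 1 + 1)) := by
        by_contra h
        exact hcon ((mem_maximalIdeal _).mpr h)
      have hu' := hu.map (t (n + 1))
      rw [compatSeq_compat] at hu'
      exact ((mem_maximalIdeal _).mp ih) hu'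
  cases n with
  | zero =>
    have := h1 0
    rw [← compatSeq_compat t hsurj x 0]
    have hl := hloc 0
    exact map_nonunit (t 0 : Rn 1 →+* Rn 0) _ this
  | succ n => exact h1 n


/-- Nakayama for a nilpotent ideal, no finiteness needed. -/
lemma le_of_le_sup_mul_self_of_pow_eq_bot {A : Type} [CommRing A] (𝔪 𝔞 : Ideal A) (N : ℕ)
    (hN : 𝔪 ^ N = ⊥) (h : 𝔪 ≤ 𝔞 ⊔ 𝔪 * 𝔪) : 𝔪 ≤ 𝔞 := by
  have key : ∀ j : ℕ, 𝔪 ≤ 𝔞 ⊔ 𝔪 ^ (j + 1) := by
    intro j
    induction j with
    | zero => rw [zero_add, pow_one]; exact le_sup_right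
    | succ j ih =>
      refine h.trans (sup_le le_sup_left ?_)
      calc 𝔪 * 𝔪 ≤ 𝔪 * (𝔞 ⊔ 𝔪 ^ (j + 1)) := Ideal.mul_mono_right ih
        _ = 𝔪 * 𝔞 ⊔ 𝔪 * 𝔪 ^ (j + 1) := Ideal.mul_sup _ _ _
        _ ≤ 𝔞 ⊔ 𝔪 ^ (j + 1 + 1) := by
            refine sup_le_sup Ideal.mul_le_right ?_
            rw [← pow_succ']
  have h1 := key N
  have h2 : 𝔪 ^ (N + 1) = ⊥ := by rw [pow_succ, hN, Ideal.bot_mul]
  rwa [h2, sup_bot_eq] at h1

/-- generators of the maximal ideals along the tower (Nakayama) -/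
lemma maximalIdeal_eq_span_compatSeq (hsurj : ∀ n, Function.Surjective (t n))
    (hloc : ∀ n, IsLocalHom (algebraMap 𝒪 (Rn n)))
    (hnil : ∀ n, maximalIdeal (Rn n) ^ (n + 1) = ⊥)
    (hker : ∀ n, RingHom.ker (t n : Rn (n + 1) →+* Rn n) = maximalIdeal (Rn (n + 1)) ^ (n + 1))
    {r : ℕ} (s : Fin r → Rn 1)
    (hs : maximalIdeal (Rn 1) = Ideal.span (Set.range s) ⊔
      (maximalIdeal 𝒪).map (algebraMap 𝒪 (Rn 1))) (n : ℕ) :
    maximalIdeal (Rn (n + 1)) =
      Ideal.span (Set.range fun i => compatSeq t hsurj (s i) (n + 1)) ⊔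
        (maximalIdeal 𝒪).map (algebraMap 𝒪 (Rn (n + 1))) := by
  have hsmem : ∀ i, s i ∈ maximalIdeal (Rn 1) := by
    intro i
    rw [hs]
    exact Ideal.mem_sup_left (Ideal.subset_span ⟨i, rfl⟩)
  induction n with
  | zero => exact hs
  | succ n ih =>
    set 𝔞 : Ideal (Rn (n + 1 + 1)) :=
      Ideal.span (Set.range fun i => compatSeq t hsurj (s i) (n + 1 + 1)) ⊔
        (maximalIdeal 𝒪).map (algebraMap 𝒪 (Rn (n + 1 + 1))) with h𝔞
    have hle : 𝔞 ≤ maximalIdeal (Rn (n + 1 + 1)) := by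
      refine sup_le ?_ ?_
      · rw [Ideal.span_le]
        rintro _ ⟨i, rfl⟩
        exact compatSeq_mem t hsurj (s i) (hsmem i) _
      · have := hloc (n + 1 + 1)
        exact map_maximalIdeal_le (algebraMap 𝒪 (Rn (n + 1 + 1)))
    refine le_antisymm ?_ hle
    have hmap𝔞 : Ideal.map (t (n + 1) : Rn (n + 1 + 1) →+* Rn (n + 1)) 𝔞 =
        maximalIdeal (Rn (n + 1)) := by
      have h_r : ((t (n + 1) : Rn (n + 1 + 1) →+* Rn (n + 1)) ∘
          fun i => compatSeq t hsurj (s i) (n + 1 + 1)) =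
          fun i => compatSeq t hsurj (s i) (n + 1) := by
        funext i
        exact compatSeq_compat t hsurj (s i) (n + 1)
      have h_alg : ((t (n + 1) : Rn (n + 1 + 1) →+* Rn (n + 1)).comp
          (algebraMap 𝒪 (Rn (n + 1 + 1)))) = algebraMap 𝒪 (Rn (n + 1)) :=
        (t (n + 1)).comp_algebraMap
      rw [ih, h𝔞, Ideal.map_sup, Ideal.map_span, ← Set.range_comp, Ideal.map_map, h_r, h_alg]
    have hmap𝔪 : Ideal.map (t (n + 1) : Rn (n + 1 + 1) →+* Rn (n + 1))
        (maximalIdeal (Rn (n + 1 + 1))) = maximalIdeal (Rn (n + 1)) :=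
      map_maximalIdeal_of_surjective _ (hsurj (n + 1))
    have h1 : maximalIdeal (Rn (n + 1 + 1)) ≤
        𝔞 ⊔ maximalIdeal (Rn (n + 1 + 1)) • maximalIdeal (Rn (n + 1 + 1)) := by
      have h2 : maximalIdeal (Rn (n + 1 + 1)) ≤
          Ideal.comap (t (n + 1) : Rn (n + 1 + 1) →+* Rn (n + 1))
            (Ideal.map (t (n + 1) : Rn (n + 1 + 1) →+* Rn (n + 1)) 𝔞) := by
        rw [hmap𝔞, ← hmap𝔪]
        exact Ideal.le_comap_map
      rw [Ideal.comap_map_of_surjective (t (n + 1) : Rn (n + 1 + 1) →+* Rn (n + 1))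
        (hsurj (n + 1)), ← RingHom.ker_eq_comap_bot, hker (n + 1)] at h2
      refine h2.trans (sup_le_sup_left ?_ _)
      rw [smul_eq_mul, ← pow_two]
      exact Ideal.pow_le_pow_right (by omega)
    exact le_of_le_sup_mul_self_of_pow_eq_bot _ _ _ (hnil (n + 1 + 1)) h1


/-- The output of the limit construction: a complete Noetherian local `𝒪`-algebra `R` whose
Artinian quotients `R ⧸ 𝔪^(n+1)` are the levels of the tower. -/
structure TowerLimit (𝒪 : Type) [CommRing 𝒪] [IsLocalRing 𝒪]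
    (Rn : ℕ → Type) [∀ n, CommRing (Rn n)] [∀ n, IsLocalRing (Rn n)] [∀ n, Algebra 𝒪 (Rn n)]
    (t : ∀ n, Rn (n + 1) →ₐ[𝒪] Rn n) : Type 1 where
  R : Type
  [instCommRing : CommRing R]
  [instIsLocalRing : IsLocalRing R]
  [instIsNoetherianRing : IsNoetherianRing R]
  [instIsAdicComplete : IsAdicComplete (maximalIdeal R) R]
  [instAlgebra : Algebra 𝒪 R]
  [instIsLocalHom : IsLocalHom (algebraMap 𝒪 R)]
  residue_surjective : Function.Surjective (residue R ∘ algebraMap 𝒪 R)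
  π : ∀ n, R →ₐ[𝒪] Rn n
  π_surjective : ∀ n, Function.Surjective (π n)
  ker_π : ∀ n, RingHom.ker (π n : R →+* Rn n) = maximalIdeal R ^ (n + 1)
  compat : ∀ n, (t n).comp (π (n + 1)) = π n

attribute [instance] TowerLimit.instCommRing TowerLimit.instIsLocalRing
  TowerLimit.instIsNoetherianRing TowerLimit.instIsAdicComplete TowerLimit.instAlgebra
  TowerLimit.instIsLocalHom

open MvPowerSeries in
/-- **Limit of a tower of Artinian local algebras**, generators of the cotangent space given. -/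
theorem nonempty_towerLimit_of_generators [IsNoetherianRing 𝒪]
    (hP : ∀ r : ℕ, IsAdicComplete (maximalIdeal (MvPowerSeries (Fin r) 𝒪))
      (MvPowerSeries (Fin r) 𝒪))
    (hsurj : ∀ n, Function.Surjective (t n))
    (hloc : ∀ n, IsLocalHom (algebraMap 𝒪 (Rn n)))
    (hres : ∀ n, Function.Surjective (residue (Rn n) ∘ algebraMap 𝒪 (Rn n)))
    (hker : ∀ n, RingHom.ker (t n : Rn (n + 1) →+* Rn n) = maximalIdeal (Rn (n + 1)) ^ (n + 1))
    (hnil : ∀ n, maximalIdeal (Rn n) ^ (n + 1) = ⊥)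
    {r : ℕ} (s : Fin r → Rn 1)
    (hs : maximalIdeal (Rn 1) = Ideal.span (Set.range s) ⊔
      (maximalIdeal 𝒪).map (algebraMap 𝒪 (Rn 1))) :
    Nonempty (TowerLimit 𝒪 Rn t) := by
  classical
  have hsmem : ∀ i, s i ∈ maximalIdeal (Rn 1) := fun i => by
    rw [hs]; exact Ideal.mem_sup_left (Ideal.subset_span ⟨i, rfl⟩)
  -- compatible lifts
  let c : (n : ℕ) → Fin r → Rn n := fun n i => compatSeq t hsurj (s i) n
  have hc_mem : ∀ n i, c n i ∈ maximalIdeal (Rn n) := fun n i =>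
    compatSeq_mem t hsurj (s i) (hsmem i) n
  have hc_compat : ∀ n, (t n ∘ c (n + 1)) = c n := fun n => by
    funext i
    exact compatSeq_compat t hsurj (s i) n
  have hc_nil : ∀ n k, n + 1 ≤ k → Ideal.span (Set.range (c n)) ^ k = ⊥ := by
    intro n k hk
    rw [eq_bot_iff, ← hnil n]
    refine (Ideal.pow_le_pow_right hk).trans (Ideal.pow_right_mono ?_ _)
    rw [Ideal.span_le]
    rintro _ ⟨i, rfl⟩
    exact hc_mem n i
  -- the maps from the power series ring
  let P := MvPowerSeries (Fin r) 𝒪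
  let θ : (n : ℕ) → P →ₐ[𝒪] Rn n := fun n => evalNilp (c n) (n + 1) (hc_nil n _ le_rfl)
  have hθX : ∀ n i, θ n (X i) = c n i := fun n i => evalNilp_X _ _ _ i
  have hθcompat : ∀ n, (t n).comp (θ (n + 1)) = θ n := by
    intro n
    have h1 : Ideal.span (Set.range (t n ∘ c (n + 1))) ^ (n + 1 + 1) = ⊥ := by
      rw [hc_compat]; exact hc_nil n _ (Nat.le_succ _)
    rw [comp_evalNilp (t n) (c (n + 1)) (n + 1 + 1) _ h1,
      evalNilp_congr _ _ (hc_compat n) _ h1 (hc_nil n _ (Nat.le_succ _)),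
      evalNilp_succ _ _ (hc_nil n _ le_rfl)]
  have hθcompat' : ∀ n f, t n (θ (n + 1) f) = θ n f := fun n f =>
    DFunLike.congr_fun (hθcompat n) f
  -- surjectivity
  have hθsurj1 : ∀ n, Function.Surjective (θ (n + 1)) := by
    intro n
    have hgen := maximalIdeal_eq_span_compatSeq t hsurj hloc hnil hker s hs n
    refine surjective_of_span_image (θ (n + 1))
      (Set.range (fun i : Fin r => (X i : P)) ∪ (C '' (maximalIdeal 𝒪 : Set 𝒪))) (n + 1 + 1)
      (hnil (n + 1)) (hres (n + 1)) ?_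
    have e1 : (⇑(θ (n + 1)) ∘ fun i : Fin r => (X i : P)) = c (n + 1) :=
      funext (hθX (n + 1))
    have e2 : (fun x : 𝒪 => θ (n + 1) (C x)) = ⇑(algebraMap 𝒪 (Rn (n + 1))) := by
      funext a
      rw [c_eq_algebraMap]
      exact (θ (n + 1)).commutes a
    rw [hgen, Set.image_union, Ideal.span_union, ← Set.range_comp, Set.image_image, e1, e2]
    rfl
  have hθsurj : ∀ n, Function.Surjective (θ n) := by
    intro n
    cases n with
    | zero =>
      intro x
      obtain ⟨y, rfl⟩ := hsurj 0 x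
      obtain ⟨f, rfl⟩ := hθsurj1 0 y
      exact ⟨f, (hθcompat' 0 f).symm⟩
    | succ n => exact hθsurj1 n
  have : IsAdicComplete (maximalIdeal P) P := hP r
  -- the kernels
  let J : ℕ → Ideal P := fun n => RingHom.ker (θ n : P →+* Rn n)
  have hmapmax : ∀ n, Ideal.map (θ n : P →+* Rn n) (maximalIdeal P) = maximalIdeal (Rn n) :=
    fun n => map_maximalIdeal_of_surjective _ (hθsurj n)
  have hJmono : ∀ n, J (n + 1) ≤ J n := by
    intro n f hf
    simp only [J, RingHom.mem_ker, RingHom.coe_coe] at hf ⊢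
    rw [← hθcompat', hf, map_zero]
  have hJpow : ∀ n, maximalIdeal P ^ (n + 1) ≤ J n := by
    intro n
    rw [← Ideal.map_eq_bot_iff_le_ker, Ideal.map_pow, hmapmax, hnil]
  have hJstep : ∀ n, J n ≤ J (n + 1) ⊔ maximalIdeal P ^ (n + 1) := by
    intro n f hf
    simp only [J, RingHom.mem_ker, RingHom.coe_coe] at hf
    have h1 : θ (n + 1) f ∈ RingHom.ker (t n : Rn (n + 1) →+* Rn n) := by
      rw [RingHom.mem_ker, RingHom.coe_coe, hθcompat', hf]
    rw [hker n, ← hmapmax (n + 1), ← Ideal.map_pow] at h1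
    obtain ⟨g, hg, hgf⟩ := (Ideal.mem_map_iff_of_surjective (θ (n + 1) : P →+* Rn (n + 1))
      (hθsurj (n + 1))).mp h1
    have hfg' : f - g ∈ J (n + 1) := by
      simp only [J, RingHom.mem_ker, RingHom.coe_coe, map_sub]
      rw [RingHom.coe_coe] at hgf
      rw [hgf, sub_self]
    have : f = (f - g) + g := by ring
    rw [this]
    exact Ideal.add_mem _ (Ideal.mem_sup_left hfg') (Ideal.mem_sup_right hg)
  have hJeq := ideal_eq_iInf_sup_pow (maximalIdeal P) J hJstep hJmono hJpow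
  -- the limit ring
  let I : Ideal P := ⨅ m, J m
  have hIJ : ∀ n, I ≤ J n := fun n => iInf_le _ n
  have hIne : I ≠ ⊤ := by
    intro h
    have h1 : (1 : P) ∈ J 0 := hIJ 0 (h ▸ Submodule.mem_top)
    simp only [J, RingHom.mem_ker, map_one] at h1
    exact one_ne_zero h1
  have : Nontrivial (P ⧸ I) := Ideal.Quotient.nontrivial_iff.mpr hIne
  have : IsLocalRing (P ⧸ I) :=
    IsLocalRing.of_surjective' (Ideal.Quotient.mk I) Ideal.Quotient.mk_surjective
  have hmk_loc : IsLocalHom (algebraMap P (P ⧸ I)) :=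
    IsLocalHom.of_surjective (Ideal.Quotient.mk I) Ideal.Quotient.mk_surjective
  have : IsAdicComplete (maximalIdeal (P ⧸ I)) (P ⧸ I) :=
    IsLocalRing.isAdicComplete_of_module_finite (𝒪 := P) (T := P ⧸ I)
  let π : (n : ℕ) → (P ⧸ I) →ₐ[𝒪] Rn n := fun n =>
    Ideal.Quotient.liftₐ I (θ n) (fun a ha => hIJ n ha)
  have hπmk : ∀ n f, π n (Ideal.Quotient.mk I f) = θ n f := fun n f => rfl
  have hπsurj : ∀ n, Function.Surjective (π n) := by
    intro n x
    obtain ⟨f, rfl⟩ := hθsurj n x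
    exact ⟨Ideal.Quotient.mk I f, rfl⟩
  have hmapmk : Ideal.map (Ideal.Quotient.mk I) (maximalIdeal P) = maximalIdeal (P ⧸ I) :=
    map_maximalIdeal_of_surjective _ Ideal.Quotient.mk_surjective
  have hkerπ : ∀ n, RingHom.ker (π n : (P ⧸ I) →+* Rn n) = maximalIdeal (P ⧸ I) ^ (n + 1) := by
    intro n
    have h1 : RingHom.ker (π n : (P ⧸ I) →+* Rn n) = (J n).map (Ideal.Quotient.mk I) := by
      ext x
      obtain ⟨f, rfl⟩ := Ideal.Quotient.mk_surjective x
      rw [RingHom.mem_ker, RingHom.coe_coe, hπmk,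
        Ideal.mem_map_iff_of_surjective _ Ideal.Quotient.mk_surjective]
      constructor
      · intro h
        exact ⟨f, h, rfl⟩
      · rintro ⟨g, hg, hgf⟩
        have h2 : g - f ∈ I := Ideal.Quotient.eq.mp hgf
        have h3 : g - f ∈ J n := hIJ n h2
        have h4 : f = g - (g - f) := by ring
        have h5 : f ∈ J n := by rw [h4]; exact Ideal.sub_mem _ hg h3
        exact h5
    rw [h1, hJeq n, Ideal.map_sup, Ideal.map_quotient_self, bot_sup_eq, Ideal.map_pow, hmapmk]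
  have hloc𝒪 : IsLocalHom (algebraMap 𝒪 (P ⧸ I)) := by
    constructor
    intro a ha
    have h1 : IsUnit (π 0 (algebraMap 𝒪 (P ⧸ I) a)) := ha.map (π 0)
    rw [(π 0).commutes] at h1
    have := hloc 0
    exact isUnit_of_map_unit (algebraMap 𝒪 (Rn 0)) a h1
  have hresR : Function.Surjective (residue (P ⧸ I) ∘ algebraMap 𝒪 (P ⧸ I)) := by
    intro y
    obtain ⟨x, rfl⟩ := residue_surjective y
    obtain ⟨a, ha⟩ := hres 0 (residue (Rn 0) (π 0 x))
    refine ⟨a, ?_⟩
    simp only [Function.comp_apply] at ha ⊢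
    rw [← sub_eq_zero, ← map_sub, residue_eq_zero_iff]
    have h1 : algebraMap 𝒪 (Rn 0) a - π 0 x ∈ maximalIdeal (Rn 0) := by
      rw [← residue_eq_zero_iff, map_sub, ha, sub_self]
    have h0 : maximalIdeal (Rn 0) = ⊥ := by
      have := hnil 0
      rwa [zero_add, pow_one] at this
    rw [h0, Ideal.mem_bot] at h1
    have h2 : algebraMap 𝒪 (P ⧸ I) a - x ∈ RingHom.ker (π 0 : (P ⧸ I) →+* Rn 0) := by
      rw [RingHom.mem_ker, RingHom.coe_coe, map_sub, (π 0).commutes, h1]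
    rw [hkerπ 0, zero_add, pow_one] at h2
    exact h2
  have hcompat : ∀ n, (t n).comp (π (n + 1)) = π n := by
    intro n
    ext x
    obtain ⟨f, rfl⟩ := Ideal.Quotient.mk_surjective x
    rw [AlgHom.comp_apply, hπmk, hπmk, hθcompat']
  exact ⟨{ R := P ⧸ I
           residue_surjective := hresR
           π := π
           π_surjective := hπsurj
           ker_π := hkerπ
           compat := hcompat }⟩

/-- **Limit of a tower of Artinian local algebras** (Noetherian levels; generators chosen). -/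
theorem nonempty_towerLimit [IsNoetherianRing 𝒪]
    (hP : ∀ r : ℕ, IsAdicComplete (maximalIdeal (MvPowerSeries (Fin r) 𝒪))
      (MvPowerSeries (Fin r) 𝒪))
    (hsurj : ∀ n, Function.Surjective (t n))
    (hloc : ∀ n, IsLocalHom (algebraMap 𝒪 (Rn n)))
    (hres : ∀ n, Function.Surjective (residue (Rn n) ∘ algebraMap 𝒪 (Rn n)))
    (hnoeth : ∀ n, IsNoetherianRing (Rn n))
    (hker : ∀ n, RingHom.ker (t n : Rn (n + 1) →+* Rn n) = maximalIdeal (Rn (n + 1)) ^ (n + 1))
    (hnil : ∀ n, maximalIdeal (Rn n) ^ (n + 1) = ⊥) :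
    Nonempty (TowerLimit 𝒪 Rn t) := by
  have hfg : (maximalIdeal (Rn 1)).FG := by
    have := hnoeth 1
    exact IsNoetherian.noetherian _
  obtain ⟨r, s, hs0⟩ := Submodule.fg_iff_exists_fin_generating_family.mp hfg
  have hs0' : Ideal.span (Set.range s) = maximalIdeal (Rn 1) := hs0
  have hs : maximalIdeal (Rn 1) = Ideal.span (Set.range s) ⊔
      (maximalIdeal 𝒪).map (algebraMap 𝒪 (Rn 1)) := by
    apply le_antisymm
    · rw [hs0']; exact le_sup_left
    · refine sup_le (le_of_eq hs0') ?_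
      have := hloc 1
      exact map_maximalIdeal_le (algebraMap 𝒪 (Rn 1))
  exact nonempty_towerLimit_of_generators t hP hsurj hloc hres hker hnil s hs

end Tower

end Fermat.Agent.S53.Lim
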