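import Mathlib
import Fermat.Agent.S53.ResidualData
import Fermat.Agent.S53.RigidDefs

set_option autoImplicit false

noncomputable section

namespace Fermat.Agent.S53

open IsLocalRing

/-- B1: proof of `nonempty_rigidData` . -/
theorem nonempty_rigidData (𝒪 : Type) [CommRing 𝒪] [IsLocalRing 𝒪]
    (ρbar : ResidualGaloisRep (ResidueField 𝒪)) (habs : ρbar.IsAbsolutelyIrreducible) :
    Nonempty (RigidData 𝒪 ρbar) := by
  obtain ⟨b, g0, g1, i, j, h00, h10, hne, hschur⟩ := exists_sliceData ρbar habs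
  obtain ⟨c0, hc0⟩ := residue_surjective (R := 𝒪) (LinearMap.toMatrix b b (ρbar.ρ g1) i j)
  refine ⟨{ bbar := b, g0 := g0, g1 := g1, i0 := i, j0 := j, c0 := c0
            col0 := ⟨h00, h10⟩
            comm_ne := ?_
            c0_spec := hc0
            schur := ?_ }⟩
  · intro h
    apply hne
    have h' : (LinearMap.toMatrix b b (ρbar.ρ g1) * LinearMap.toMatrix b b (ρbar.ρ g0)
        - LinearMap.toMatrix b b (ρbar.ρ g0) * LinearMap.toMatrix b b (ρbar.ρ g1)) i j = 0 := h
    rw [Matrix.sub_apply, sub_eq_zero] at h' ⊢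
    exact h'.symm
  · intro M hM
    obtain ⟨c, hc⟩ := hschur M hM
    refine ⟨c, ?_⟩
    rw [hc, Matrix.smul_one_eq_diagonal]
    rfl

end Fermat.Agent.S53
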